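/-
S59lib / R7b / BaseChange  (helper1, for helper3's R7b) — **base change `𝒪 → K = Frac 𝒪` of eigenclasses in the
cohomology of a Hecke system with coefficients in a twisted trivial module.**

`S : HeckeSys Γ G I`, `Γ` finitely generated, `χ : G →* ℤˣ`, `𝒪` a noetherian domain, `K` its fraction field.
* `bc : S.Coh 𝒪 (TwMod χ 𝒪) →+ S.Coh K (TwMod χ K)` : the map induced by `𝒪 → K` on the coefficients; it is semilinear
  (`bc_smul`), commutes with the Hecke operators (`bc_T`, `bc_poly`), its kernel is the `𝒪`-torsion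
  (`smul_eq_zero_of_bc_eq_zero`) and its image spans (`exists_bc_eq`);
* **(BC↓)** `exists_eigenclass_of_loc` : a non-torsion element `b` of the localisation `S.F 𝒪 (TwMod χ 𝒪) 𝔪` with
  `X_i • b = a_i • b` for all `i` gives a non-zero honest eigenclass over `K` with the eigenvalues `a_i`;
* **(BC↑)** `nontrivial_F_of_eigenclass` : a non-zero eigenclass over `K` with eigenvalues `a_i ∈ 𝒪` such that `𝔪`
  contains the kernel of the evaluation at `a` makes `S.F 𝒪 (TwMod χ 𝒪) 𝔪` non-trivial.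
-/
import Mathlib
import Fermat.Agent.S43lib.B1.Count
import Fermat.Agent.S59lib.S3Proj.Mods

set_option autoImplicit false
set_option linter.unusedSectionVars false
set_option linter.unusedVariables false
set_option linter.style.haveILetI false

noncomputable section

namespace Fermat.Agent.S59lib.R7b

open Fermat.Agent.S43lib.B1 Fermat.Agent.S59lib.S3Proj MvPolynomial

section Out

variable {G : Type} [Group G] {χ : G →* ℤˣ} {A : Type} [AddCommGroup A]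

theorem out_zero : TwMod.out (0 : TwMod χ A) = 0 := rfl

theorem out_add (a b : TwMod χ A) : TwMod.out (a + b) = TwMod.out a + TwMod.out b := rfl

theorem out_neg (a : TwMod χ A) : TwMod.out (-a) = -TwMod.out a := rfl

theorem out_sub (a b : TwMod χ A) : TwMod.out (a - b) = TwMod.out a - TwMod.out b := rfl

theorem out_gsmul (g : G) (a : TwMod χ A) :
    TwMod.out (g • a) = ((χ g : ℤˣ) : ℤ) • TwMod.out a := rfl

theorem out_mk (a : A) : TwMod.out (TwMod.mk χ a) = a := rfl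

end Out

section BC

variable {Γ G : Type} [Group Γ] [Group G] {I : Type} (S : HeckeSys Γ G I) (χ : G →* ℤˣ)
variable {𝒪 : Type} [CommRing 𝒪] (K : Type) [CommRing K] [Algebra 𝒪 K]

/-- the coefficient map `TwMod χ 𝒪 → TwMod χ K` -/
def twι : TwMod χ 𝒪 →+ TwMod χ K where
  toFun w := TwMod.mk χ (algebraMap 𝒪 K (TwMod.out w))
  map_zero' := map_zero (algebraMap 𝒪 K)
  map_add' x y := map_add (algebraMap 𝒪 K) (TwMod.out x) (TwMod.out y)

theorem twι_apply (w : TwMod χ 𝒪) : twι χ K w = TwMod.mk χ (algebraMap 𝒪 K (TwMod.out w)) := rfl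

theorem twι_gsmul (g : G) (w : TwMod χ 𝒪) : twι χ K (g • w) = g • twι χ K w := by
  show algebraMap 𝒪 K (((χ g : ℤˣ) : ℤ) • TwMod.out w) =
    ((χ g : ℤˣ) : ℤ) • algebraMap 𝒪 K (TwMod.out w)
  exact map_zsmul _ _ _

theorem twι_smul (c : 𝒪) (w : TwMod χ 𝒪) : twι χ K (c • w) = algebraMap 𝒪 K c • twι χ K w := by
  show algebraMap 𝒪 K (c * TwMod.out w) = algebraMap 𝒪 K c * algebraMap 𝒪 K (TwMod.out w)
  exact map_mul _ _ _

/-- base change of crossed homomorphisms -/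
def bcZ : ↥(Z1 S.π 𝒪 (TwMod χ 𝒪)) →+ ↥(Z1 S.π K (TwMod χ K)) where
  toFun f := ⟨fun γ => twι χ K ((f : Γ → TwMod χ 𝒪) γ), fun γ γ' => by
    show twι χ K ((f : Γ → TwMod χ 𝒪) (γ * γ')) = _
    rw [f.2 γ γ', map_add, twι_gsmul]⟩
  map_zero' := by
    apply Subtype.ext
    funext γ
    exact map_zero _
  map_add' f f' := by
    apply Subtype.ext
    funext γ
    exact map_add _ _ _

theorem bcZ_apply (f : ↥(Z1 S.π 𝒪 (TwMod χ 𝒪))) (γ : Γ) :
    ((bcZ S χ K f : ↥(Z1 S.π K (TwMod χ K))) : Γ → TwMod χ K) γ =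
      twι χ K ((f : Γ → TwMod χ 𝒪) γ) := rfl

theorem bcZ_smul (c : 𝒪) (f : ↥(Z1 S.π 𝒪 (TwMod χ 𝒪))) :
    bcZ S χ K (c • f) = algebraMap 𝒪 K c • bcZ S χ K f := by
  apply Subtype.ext
  funext γ
  exact twι_smul χ K c _

/-- **base change of cohomology classes** -/
def bc : S.Coh 𝒪 (TwMod χ 𝒪) →+ S.Coh K (TwMod χ K) :=
  letI : Module 𝒪 (S.Coh K (TwMod χ K)) := Module.compHom _ (algebraMap 𝒪 K)
  ((B1z S.π 𝒪 (TwMod χ 𝒪)).liftQ
    ({ toFun := fun f => S.cls K (TwMod χ K) (bcZ S χ K f)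
       map_add' := fun f f' => by rw [map_add, map_add]
       map_smul' := fun c f => by
        rw [bcZ_smul, map_smul]
        rfl } : ↥(Z1 S.π 𝒪 (TwMod χ 𝒪)) →ₗ[𝒪] S.Coh K (TwMod χ K))
    (by
      intro f hf
      obtain ⟨w, hw⟩ := hf
      rw [LinearMap.mem_ker]
      show S.cls K (TwMod χ K) (bcZ S χ K f) = 0
      rw [HeckeSys.cls_eq_zero_iff]
      refine ⟨twι χ K w, fun γ => ?_⟩
      have h1 : (f : Γ → TwMod χ 𝒪) γ = S.π γ • w - w := (congrFun hw γ).symm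
      rw [bcZ_apply, h1, map_sub, twι_gsmul])).toAddMonoidHom

theorem bc_cls (f : ↥(Z1 S.π 𝒪 (TwMod χ 𝒪))) :
    bc S χ K (S.cls 𝒪 (TwMod χ 𝒪) f) = S.cls K (TwMod χ K) (bcZ S χ K f) := rfl

theorem bc_smul (c : 𝒪) (y : S.Coh 𝒪 (TwMod χ 𝒪)) :
    bc S χ K (c • y) = algebraMap 𝒪 K c • bc S χ K y := by
  obtain ⟨f, rfl⟩ := S.cls_surjective 𝒪 (TwMod χ 𝒪) y
  rw [← map_smul, bc_cls, bc_cls, bcZ_smul, map_smul]

theorem bc_T (i : I) (y : S.Coh 𝒪 (TwMod χ 𝒪)) :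
    bc S χ K (S.T 𝒪 (TwMod χ 𝒪) i y) = S.T K (TwMod χ K) i (bc S χ K y) := by
  obtain ⟨f, rfl⟩ := S.cls_surjective 𝒪 (TwMod χ 𝒪) y
  rw [HeckeSys.T_cls, bc_cls, bc_cls, HeckeSys.T_cls]
  congr 1
  apply Subtype.ext
  funext γ
  show twι χ K (∑ x, (f : Γ → TwMod χ 𝒪) ((S.D i).c γ x)) =
    ∑ x, twι χ K ((f : Γ → TwMod χ 𝒪) ((S.D i).c γ x))
  exact map_sum _ _ _

theorem bc_poly (p : MvPolynomial I 𝒪) (y : S.Coh 𝒪 (TwMod χ 𝒪)) :
    bc S χ K (p • y) = (MvPolynomial.map (algebraMap 𝒪 K) p) • bc S χ K y := by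
  induction p using MvPolynomial.induction_on generalizing y with
  | C c => rw [HeckeSys.C_smul, bc_smul, MvPolynomial.map_C, HeckeSys.C_smul]
  | add p q hp hq => rw [add_smul, map_add, hp, hq, map_add, add_smul]
  | mul_X p i hp =>
    rw [mul_smul, hp, HeckeSys.X_smul, bc_T, map_mul, MvPolynomial.map_X, mul_smul, HeckeSys.X_smul]

end BC

section Frac

variable {Γ G : Type} [Group Γ] [Group G] {I : Type} (S : HeckeSys Γ G I) (χ : G →* ℤˣ)
variable {𝒪 : Type} [CommRing 𝒪] [IsDomain 𝒪] (K : Type) [Field K] [Algebra 𝒪 K] [IsFractionRing 𝒪 K]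

/-- the kernel of the base change is torsion -/
theorem smul_eq_zero_of_bc_eq_zero (y : S.Coh 𝒪 (TwMod χ 𝒪)) (hy : bc S χ K y = 0) :
    ∃ c : 𝒪, c ≠ 0 ∧ c • y = 0 := by
  obtain ⟨f, rfl⟩ := S.cls_surjective 𝒪 (TwMod χ 𝒪) y
  rw [bc_cls, HeckeSys.cls_eq_zero_iff] at hy
  obtain ⟨w, hw⟩ := hy
  obtain ⟨w₀, c, hc, hwc⟩ := IsFractionRing.div_surjective (A := 𝒪) (TwMod.out w)
  have hc0 : c ≠ 0 := nonZeroDivisors.ne_zero hc
  have hcK : algebraMap 𝒪 K c ≠ 0 := by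
    rw [Ne, map_eq_zero_iff _ (IsFractionRing.injective 𝒪 K)]
    exact hc0
  have hw' : algebraMap 𝒪 K c * TwMod.out w = algebraMap 𝒪 K w₀ := by
    rw [← hwc, mul_div_cancel₀ _ hcK]
  refine ⟨c, hc0, ?_⟩
  rw [← map_smul, HeckeSys.cls_eq_zero_iff]
  refine ⟨TwMod.mk χ w₀, fun γ => ?_⟩
  apply IsFractionRing.injective 𝒪 K
  have h1 := hw γ
  rw [bcZ_apply] at h1
  -- everything in `K`
  show algebraMap 𝒪 K (c * TwMod.out ((f : Γ → TwMod χ 𝒪) γ)) =
    algebraMap 𝒪 K (((χ (S.π γ) : ℤˣ) : ℤ) • w₀ - w₀)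
  have h2 : algebraMap 𝒪 K (TwMod.out ((f : Γ → TwMod χ 𝒪) γ)) =
      ((χ (S.π γ) : ℤˣ) : ℤ) • TwMod.out w - TwMod.out w := h1
  rw [map_mul, h2, map_sub, map_zsmul, ← hw', mul_sub, mul_smul_comm]

variable [Group.FG Γ]

/-- every class over `K` has a multiple coming from `𝒪` -/
theorem exists_bc_eq (x : S.Coh K (TwMod χ K)) :
    ∃ c : 𝒪, c ≠ 0 ∧ ∃ y : S.Coh 𝒪 (TwMod χ 𝒪), bc S χ K y = algebraMap 𝒪 K c • x := by
  classical
  obtain ⟨fK, rfl⟩ := S.cls_surjective K (TwMod χ K) x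
  obtain ⟨s, hs, hfin⟩ := Group.fg_iff.mp (inferInstance : Group.FG Γ)
  -- a common denominator on the generators
  obtain ⟨c, hc⟩ := IsLocalization.exist_integer_multiples_of_finset (nonZeroDivisors 𝒪)
    (hfin.toFinset.image fun γ => TwMod.out ((fK : Γ → TwMod χ K) γ))
  have hc0 : (c : 𝒪) ≠ 0 := nonZeroDivisors.ne_zero c.2
  -- the values of `c • fK` are integral
  let R : Subring K := (algebraMap 𝒪 K).range
  have hgen : ∀ γ ∈ s, algebraMap 𝒪 K c * TwMod.out ((fK : Γ → TwMod χ K) γ) ∈ R := by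
    intro γ hγ
    obtain ⟨r, hr⟩ := hc _ (Finset.mem_image.mpr ⟨γ, hfin.mem_toFinset.mpr hγ, rfl⟩)
    refine ⟨r, ?_⟩
    rw [hr, Algebra.smul_def]
  have hzs : ∀ (n : ℤ) (k : K), k ∈ R → n • k ∈ R := fun n k hk => zsmul_mem hk n
  let H : Subgroup Γ :=
    { carrier := {γ | algebraMap 𝒪 K c * TwMod.out ((fK : Γ → TwMod χ K) γ) ∈ R}
      one_mem' := by
        show algebraMap 𝒪 K c * TwMod.out ((fK : Γ → TwMod χ K) 1) ∈ R
        rw [Z1_one fK.2, out_zero, mul_zero]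
        exact zero_mem R
      mul_mem' := by
        intro γ γ' hγ hγ'
        show algebraMap 𝒪 K c * TwMod.out ((fK : Γ → TwMod χ K) (γ * γ')) ∈ R
        rw [fK.2 γ γ', out_add, out_gsmul, mul_add, mul_smul_comm]
        exact add_mem hγ (hzs _ _ hγ')
      inv_mem' := by
        intro γ hγ
        show algebraMap 𝒪 K c * TwMod.out ((fK : Γ → TwMod χ K) γ⁻¹) ∈ R
        rw [Z1_inv fK.2, out_neg, out_gsmul, mul_neg, mul_smul_comm]
        exact neg_mem (hzs _ _ hγ) }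
  have hH : ∀ γ : Γ, algebraMap 𝒪 K c * TwMod.out ((fK : Γ → TwMod χ K) γ) ∈ R := by
    intro γ
    have h1 : Subgroup.closure s ≤ H := (Subgroup.closure_le H).mpr hgen
    rw [hs] at h1
    exact h1 (Subgroup.mem_top γ)
  choose f hf using hH
  have hfZ : (fun γ => TwMod.mk χ (f γ)) ∈ Z1 S.π 𝒪 (TwMod χ 𝒪) := by
    intro γ γ'
    apply IsFractionRing.injective 𝒪 K
    show algebraMap 𝒪 K (f (γ * γ')) = algebraMap 𝒪 K (f γ + ((χ (S.π γ) : ℤˣ) : ℤ) • f γ')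
    rw [hf, map_add, map_zsmul, hf, hf, fK.2 γ γ', out_add, out_gsmul, mul_add, mul_smul_comm]
  refine ⟨c, hc0, S.cls 𝒪 (TwMod χ 𝒪) ⟨_, hfZ⟩, ?_⟩
  rw [bc_cls, ← map_smul]
  congr 1
  apply Subtype.ext
  funext γ
  exact hf γ

end Frac


/-! ### (BC↓) and (BC↑) -/

section Main

variable {Γ G : Type} [Group Γ] [Group.FG Γ] [Group G] {I : Type} (S : HeckeSys Γ G I) (χ : G →* ℤˣ)
variable {𝒪 : Type} [CommRing 𝒪] [IsDomain 𝒪] [IsNoetherianRing 𝒪]
variable (K : Type) [Field K] [Algebra 𝒪 K] [IsFractionRing 𝒪 K]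
variable (𝔪 : Ideal (MvPolynomial I 𝒪)) [𝔪.IsPrime] (a : I → 𝒪)

/-- the action of a constant polynomial on the localisation -/
theorem C_smul_F (c : 𝒪) (z : S.F 𝒪 (TwMod χ 𝒪) 𝔪) : (C c : MvPolynomial I 𝒪) • z = c • z := by
  induction z using LocalizedModule.induction_on with
  | h m s => rw [LocalizedModule.smul'_mk, LocalizedModule.smul'_mk, HeckeSys.C_smul]

/-- an eigenvector in the localisation comes, up to a unit, from an honest eigenvector -/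
theorem exists_eigen_of_loc (b : S.F 𝒪 (TwMod χ 𝒪) 𝔪)
    (hab : ∀ i, (X i : MvPolynomial I 𝒪) • b = a i • b) :
    ∃ (y : S.Coh 𝒪 (TwMod χ 𝒪)) (v : MvPolynomial I 𝒪), v ∉ 𝔪 ∧
      S.loc 𝒪 (TwMod χ 𝒪) 𝔪 y = v • b ∧ ∀ i, S.T 𝒪 (TwMod χ 𝒪) i y = a i • y := by
  classical
  induction b using LocalizedModule.induction_on with
  | h x₀ s =>
  let gen : I → S.Coh 𝒪 (TwMod χ 𝒪) := fun i => (X i - C (a i) : MvPolynomial I 𝒪) • x₀
  -- each generator is killed by some `u ∉ 𝔪`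
  have h1 : ∀ i, ∃ u : 𝔪.primeCompl, (u : MvPolynomial I 𝒪) • gen i = 0 := by
    intro i
    have h2 : S.loc 𝒪 (TwMod χ 𝒪) 𝔪 (gen i) = 0 := by
      have h3 : (s : MvPolynomial I 𝒪) • (LocalizedModule.mk x₀ s : S.F 𝒪 (TwMod χ 𝒪) 𝔪) =
          S.loc 𝒪 (TwMod χ 𝒪) 𝔪 x₀ := by
        rw [LocalizedModule.smul'_mk]
        exact LocalizedModule.mk_cancel s x₀
      show S.loc 𝒪 (TwMod χ 𝒪) 𝔪 ((X i - C (a i) : MvPolynomial I 𝒪) • x₀) = 0
      rw [map_smul, ← h3, smul_comm, sub_smul, hab i, C_smul_F, sub_self, smul_zero]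
    obtain ⟨u, hu⟩ := (IsLocalizedModule.eq_zero_iff 𝔪.primeCompl (S.loc 𝒪 (TwMod χ 𝒪) 𝔪)).mp h2
    exact ⟨u, hu⟩
  choose u hu using h1
  -- noetherianity
  haveI : IsNoetherian 𝒪 (S.Coh 𝒪 (TwMod χ 𝒪)) := isNoetherian_of_isNoetherianRing_of_finite 𝒪 _
  haveI : IsNoetherian (MvPolynomial I 𝒪) (S.Coh 𝒪 (TwMod χ 𝒪)) := isNoetherian_of_tower 𝒪 inferInstance
  have hfg : (Submodule.span (MvPolynomial I 𝒪) (Set.range gen)).FG := IsNoetherian.noetherian _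
  obtain ⟨t, ht, hspan⟩ := (Submodule.fg_span_iff_fg_span_finset_subset _).mp hfg
  have hidx : ∀ e : t, ∃ i, gen i = e.1 := fun e => ht e.2
  choose idx hidx' using hidx
  let v : MvPolynomial I 𝒪 := ∏ e ∈ t.attach, (u (idx e) : MvPolynomial I 𝒪)
  have hv : v ∉ 𝔪 := by
    intro hmem
    obtain ⟨e, -, he⟩ := (Ideal.IsPrime.prod_mem_iff).mp hmem
    exact (u (idx e)).2 he
  have hkill : ∀ n ∈ Submodule.span (MvPolynomial I 𝒪) (Set.range gen), v • n = 0 := by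
    intro n hn
    rw [hspan] at hn
    induction hn using Submodule.span_induction with
    | mem e he =>
      obtain ⟨w, hw⟩ := Finset.dvd_prod_of_mem (fun e : t => (u (idx e) : MvPolynomial I 𝒪))
        (Finset.mem_attach t ⟨e, he⟩)
      have h3 : v = w * (u (idx ⟨e, he⟩) : MvPolynomial I 𝒪) := by rw [mul_comm]; exact hw
      have h4 : (u (idx ⟨e, he⟩) : MvPolynomial I 𝒪) • e = 0 := by
        have h5 := hu (idx ⟨e, he⟩)
        rw [hidx' ⟨e, he⟩] at h5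
        exact h5
      rw [h3, mul_smul, h4, smul_zero]
    | zero => exact smul_zero _
    | add n n' _ _ h h' => rw [smul_add, h, h', add_zero]
    | smul p n _ h => rw [smul_comm, h, smul_zero]
  refine ⟨v • x₀, v * (s : MvPolynomial I 𝒪), ?_, ?_, fun i => ?_⟩
  · intro hmem
    rcases (Ideal.IsPrime.mem_or_mem inferInstance hmem) with h | h
    · exact hv h
    · exact s.2 h
  · rw [map_smul, mul_smul, LocalizedModule.smul'_mk (s : MvPolynomial I 𝒪) x₀ s]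
    congr 1
    exact (LocalizedModule.mk_cancel s x₀).symm
  · have h4 : (X i - C (a i) : MvPolynomial I 𝒪) • (v • x₀) = 0 := by
      rw [smul_comm]
      exact hkill _ (Submodule.subset_span ⟨i, rfl⟩)
    rw [sub_smul, sub_eq_zero, HeckeSys.X_smul, HeckeSys.C_smul] at h4
    exact h4

/-- **(BC↓).**  A non-torsion element `b` of the localisation of the `𝒪`-cohomology which is an eigenvector
(`X_i • b = a_i • b`) gives a non-zero eigenclass over `K` with the same eigenvalues. -/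
theorem exists_eigenclass_of_loc (b : S.F 𝒪 (TwMod χ 𝒪) 𝔪) (htf : ∀ c : 𝒪, c ≠ 0 → c • b ≠ 0)
    (hab : ∀ i, (X i : MvPolynomial I 𝒪) • b = a i • b) :
    ∃ x : S.Coh K (TwMod χ K), x ≠ 0 ∧
      ∀ i, S.T K (TwMod χ K) i x = algebraMap 𝒪 K (a i) • x := by
  obtain ⟨y, v, hv, hloc, hy⟩ := exists_eigen_of_loc S χ 𝔪 a b hab
  refine ⟨bc S χ K y, fun h0 => ?_, fun i => ?_⟩
  · obtain ⟨c, hc, hcy⟩ := smul_eq_zero_of_bc_eq_zero S χ K y h0
    have h1 : S.loc 𝒪 (TwMod χ 𝒪) 𝔪 ((C c : MvPolynomial I 𝒪) • y) = 0 := by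
      rw [HeckeSys.C_smul, hcy, map_zero]
    rw [map_smul, hloc, smul_comm, C_smul_F] at h1
    have h2 : (⟨v, hv⟩ : 𝔪.primeCompl) • (c • (b : S.F 𝒪 (TwMod χ 𝒪) 𝔪)) =
        (⟨v, hv⟩ : 𝔪.primeCompl) • (0 : S.F 𝒪 (TwMod χ 𝒪) 𝔪) := by
      rw [smul_zero]
      exact h1
    exact htf c hc (IsLocalizedModule.smul_injective (S.loc 𝒪 (TwMod χ 𝒪) 𝔪) ⟨v, hv⟩ h2)
  · rw [← bc_T, hy i, bc_smul]

/-- a polynomial acts on an eigenvector through its value at the eigenvalues -/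
theorem poly_smul_eigen {R : Type} [CommRing R] {W : Type} [AddCommGroup W] [Module R W]
    [DistribMulAction G W] [SMulCommClass G R W] (ev : I → R) (x : S.Coh R W)
    (hx : ∀ i, S.T R W i x = ev i • x) (p : MvPolynomial I R) :
    p • x = MvPolynomial.eval ev p • x := by
  induction p using MvPolynomial.induction_on with
  | C c => rw [HeckeSys.C_smul, MvPolynomial.eval_C]
  | add p q hp hq => rw [add_smul, hp, hq, map_add, add_smul]
  | mul_X p i hp =>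
    rw [mul_smul, HeckeSys.X_smul, hx i, map_mul, MvPolynomial.eval_X, ← HeckeSys.C_smul,
      ← mul_smul, mul_comm p, mul_smul, hp, HeckeSys.C_smul, smul_smul, mul_comm]

/-- **(BC↑).**  A non-zero eigenclass over `K` whose eigenvalues `a_i` lie in `𝒪`, with `𝔪` containing the kernel of
the evaluation at `a`, makes the localisation of the `𝒪`-cohomology at `𝔪` non-trivial. -/
theorem nontrivial_F_of_eigenclass (hev : ∀ s : MvPolynomial I 𝒪, MvPolynomial.eval a s = 0 → s ∈ 𝔪)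
    (x : S.Coh K (TwMod χ K)) (hx : x ≠ 0)
    (hax : ∀ i, S.T K (TwMod χ K) i x = algebraMap 𝒪 K (a i) • x) :
    Nontrivial (S.F 𝒪 (TwMod χ 𝒪) 𝔪) := by
  obtain ⟨c, hc, y, hy⟩ := exists_bc_eq (𝒪 := 𝒪) S χ K x
  refine ⟨⟨S.loc 𝒪 (TwMod χ 𝒪) 𝔪 y, 0, fun h0 => ?_⟩⟩
  obtain ⟨u, hu⟩ := (IsLocalizedModule.eq_zero_iff 𝔪.primeCompl (S.loc 𝒪 (TwMod χ 𝒪) 𝔪)).mp h0
  have h1 : bc S χ K ((u : MvPolynomial I 𝒪) • y) = 0 := by
    have : (u : MvPolynomial I 𝒪) • y = 0 := hu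
    rw [this, map_zero]
  rw [bc_poly, hy, poly_smul_eigen S (fun i => algebraMap 𝒪 K (a i)) _
    (fun i => by rw [map_smul, hax i, smul_comm]), MvPolynomial.eval_map] at h1
  have h2 : MvPolynomial.eval₂ (algebraMap 𝒪 K) (fun i => algebraMap 𝒪 K (a i))
      (u : MvPolynomial I 𝒪) = algebraMap 𝒪 K (MvPolynomial.eval a (u : MvPolynomial I 𝒪)) := by
    rw [← MvPolynomial.eval₂_id, MvPolynomial.eval₂_comp_left]
    rfl
  rw [h2, smul_smul, smul_eq_zero, mul_eq_zero, map_eq_zero_iff _ (IsFractionRing.injective 𝒪 K),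
    map_eq_zero_iff _ (IsFractionRing.injective 𝒪 K)] at h1
  rcases h1 with (h3 | h3) | h3
  · exact u.2 (hev _ h3)
  · exact hc h3
  · exact hx h3

/-- **(BC↑)**, with `𝔪` described as in the hub: `s ∈ 𝔪 ↔ s(a) ∈ 𝔪_𝒪`. -/
theorem nontrivial_F_of_eigenclass' [IsLocalRing 𝒪]
    (hev : ∀ s : MvPolynomial I 𝒪, s ∈ 𝔪 ↔ MvPolynomial.eval a s ∈ IsLocalRing.maximalIdeal 𝒪)
    (x : S.Coh K (TwMod χ K)) (hx : x ≠ 0)
    (hax : ∀ i, S.T K (TwMod χ K) i x = algebraMap 𝒪 K (a i) • x) :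
    Nontrivial (S.F 𝒪 (TwMod χ 𝒪) 𝔪) :=
  nontrivial_F_of_eigenclass S χ K 𝔪 a
    (fun s hs => (hev s).mpr (by rw [hs]; exact Ideal.zero_mem _)) x hx hax

end Main

end Fermat.Agent.S59lib.R7b
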