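/-
S59lib / R7b / Devissage  (helper3) — Project I, item R7b (Mazur's principle at `q = 2` for `p = 3`).

**The `S₃`-dévissage modulo `3`, with Hecke action.**  `S : HeckeSys Γ G I` right exact, `𝔪` a non-Eisenstein maximal
ideal of `𝒪[X_I]`; `G` acts on a set `X` with three elements, `sg = permSign G X`.  If `S.F 𝒪 (TwMod 1 𝒪) 𝔪 = 0`
(no forms of the lower level), then with `k̄ = 𝒪/3` and `Q := S.F 𝒪 (TwMod sg k̄) 𝔪` there are `𝒪[X_I]`-linear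
SURJECTIONS
  `a : S.F 𝒪 (TwMod sg 𝒪) 𝔪 → Q`,     `x : S.F 𝒪 (FunTw 1 X 𝒪) 𝔪 → Q`
both with kernel `3 • ⊤`  (`exists_devissage`).  (`0 → 𝒪 →³ 𝒪 → k̄ → 0`; `0 → Aug → k̄[X] → k̄ → 0`;
`0 → k̄ → Aug → k̄(sgn) → 0`.)  Also: `3` is a non-zero-divisor on `S.F 𝒪 W 𝔪` if it is one on `W`.
-/
import Fermat.Agent.S59lib.S3Proj.Abs

set_option autoImplicit false
set_option linter.unusedSectionVars false
set_option linter.unusedVariables false
set_option linter.style.haveILetI false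

noncomputable section

namespace Fermat.Agent.S59lib.R7b

open Fermat.Agent.S43lib.B1 Fermat.Agent.S59lib.S3Proj IsLocalRing MvPolynomial

/-! ### Reduction of the coefficients of a twisted trivial module -/

section twMap

variable {G : Type} [Group G] (χ : G →* ℤˣ) (R : Type) [CommRing R]
variable {A B : Type} [AddCommGroup A] [Module R A] [AddCommGroup B] [Module R B]

/-- the map induced on the twisted trivial modules -/
def twMap (u : A →ₗ[R] B) : TwMod χ A →ₗ[R] TwMod χ B where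
  toFun a := TwMod.mk χ (u (TwMod.out a))
  map_add' a b := u.map_add _ _
  map_smul' r a := u.map_smul _ _

theorem twMap_apply (u : A →ₗ[R] B) (a : TwMod χ A) :
    TwMod.out (twMap χ R u a) = u (TwMod.out a) := rfl

theorem isEquivar_twMap (u : A →ₗ[R] B) : IsEquivar G (twMap χ R u) := fun g a => by
  show u (((χ g : ℤˣ) : ℤ) • TwMod.out a) = ((χ g : ℤˣ) : ℤ) • u (TwMod.out a)
  rw [map_zsmul]

theorem twMap_surjective {u : A →ₗ[R] B} (hu : Function.Surjective u) :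
    Function.Surjective (twMap χ R u) := fun b => by
  obtain ⟨a, ha⟩ := hu (TwMod.out b)
  exact ⟨TwMod.mk χ a, ha⟩

end twMap

/-! ### `𝒪 / 3` -/

section K3

variable (𝒪 : Type) [CommRing 𝒪]

/-- `𝒪 / 3` as an `𝒪`-module -/
abbrev K3 : Type := 𝒪 ⧸ (Ideal.span {(3 : 𝒪)} : Ideal 𝒪)

/-- the reduction `𝒪 → 𝒪 / 3` -/
def red3 : 𝒪 →ₗ[𝒪] K3 𝒪 := Submodule.mkQ (Ideal.span {(3 : 𝒪)} : Ideal 𝒪)

theorem red3_surjective : Function.Surjective (red3 𝒪) := Submodule.mkQ_surjective _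

theorem red3_eq_zero_iff (a : 𝒪) : red3 𝒪 a = 0 ↔ ∃ b, (3 : 𝒪) • b = a := by
  unfold red3
  rw [Submodule.mkQ_apply, Submodule.Quotient.mk_eq_zero, Ideal.mem_span_singleton']
  constructor
  · rintro ⟨b, hb⟩
    exact ⟨b, by rw [smul_eq_mul, mul_comm]; exact hb⟩
  · rintro ⟨b, hb⟩
    exact ⟨b, by rw [mul_comm]; exact hb⟩

theorem three_zsmul_K3 (a : K3 𝒪) : (3 : ℤ) • a = 0 := by
  obtain ⟨b, rfl⟩ := red3_surjective 𝒪 a
  rw [← map_zsmul, red3_eq_zero_iff]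
  refine ⟨b, ?_⟩
  rw [smul_eq_mul, zsmul_eq_mul]
  norm_num

end K3

/-! ### The localised cohomology modulo a scalar -/

section red

variable {Γ G : Type} [Group Γ] [Group G] {I : Type} (S : HeckeSys Γ G I)
variable {𝒪 : Type} [CommRing 𝒪]
variable (𝔪 : Ideal (MvPolynomial I 𝒪)) [𝔪.IsPrime]
variable {W : Type} [AddCommGroup W] [Module 𝒪 W] [DistribMulAction G W] [SMulCommClass G 𝒪 W]
variable {W'' : Type} [AddCommGroup W''] [Module 𝒪 W''] [DistribMulAction G W'']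
  [SMulCommClass G 𝒪 W'']

/-- multiplication by a scalar on the coefficients induces multiplication by the scalar -/
theorem Fmap_smul_id (c : 𝒪) (y : S.F 𝒪 W 𝔪) :
    S.Fmap 𝔪 (c • (LinearMap.id : W →ₗ[𝒪] W)) ((HeckeSys.isEquivar_id (G := G)).smul c) y
      = c • y := by
  have h1 := S.Fmap_smul_apply 𝔪 (HeckeSys.isEquivar_id (G := G) (R := 𝒪) (W := W)) c y
  rw [S.Fmap_id 𝔪] at h1
  exact h1

/-- if `W'' = W / c W` then `F(W'') = F(W) / c F(W)` -/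
theorem Fmap_eq_zero_iff_smul (hS : S.RightExact 𝒪) (c : 𝒪) {v : W →ₗ[𝒪] W''}
    (hv : IsEquivar G v) (hsurj : Function.Surjective v)
    (hex : ∀ w, v w = 0 ↔ ∃ w', c • w' = w) (y : S.F 𝒪 W 𝔪) :
    S.Fmap 𝔪 v hv y = 0 ↔ ∃ y', c • y' = y := by
  have hE := S.Fmap_exact_right 𝔪 hS ((HeckeSys.isEquivar_id (G := G) (R := 𝒪) (W := W)).smul c)
    hv hsurj (fun w => by rw [hex w]; rfl) y
  rw [hE]
  constructor
  · rintro ⟨y', hy'⟩
    exact ⟨y', by rw [← hy', Fmap_smul_id]⟩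
  · rintro ⟨y', hy'⟩
    exact ⟨y', by rw [← hy', Fmap_smul_id]⟩

/-- a non-zero-divisor of the coefficients is a non-zero-divisor of the localised cohomology -/
theorem smul_eq_zero_of_nonEis (hne : S.NonEis 𝔪) (c : 𝒪) (hc : ∀ w : W, c • w = 0 → w = 0)
    (y : S.F 𝒪 W 𝔪) (hy : c • y = 0) : y = 0 := by
  have hinj : Function.Injective (c • (LinearMap.id : W →ₗ[𝒪] W)) := by
    intro w w' hww'
    have h1 : c • (w - w') = 0 := by
      rw [smul_sub, sub_eq_zero]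
      exact hww'
    exact sub_eq_zero.mp (hc _ h1)
  have h2 := S.Fmap_injective hne ((HeckeSys.isEquivar_id (G := G) (R := 𝒪) (W := W)).smul c) hinj
  apply h2
  rw [Fmap_smul_id, hy, map_zero]

end red

/-! ### The dévissage -/

section main

variable {Γ G : Type} [Group Γ] [Group G] {I : Type} (S : HeckeSys Γ G I)
variable {𝒪 : Type} [CommRing 𝒪]
variable (𝔪 : Ideal (MvPolynomial I 𝒪)) [𝔪.IsPrime]
variable (X : Type) [MulAction G X] [Fintype X] [DecidableEq X] (e : X ≃ Fin 3)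

local notation "𝟙" => (1 : G →* ℤˣ)

include e in
/-- **The `S₃`-dévissage modulo `3`.** -/
theorem exists_devissage (hS : S.RightExact 𝒪) (hne : S.NonEis 𝔪)
    (hZ : Subsingleton (S.F 𝒪 (TwMod 𝟙 𝒪) 𝔪)) :
    ∃ (a : S.F 𝒪 (TwMod (permSign G X) 𝒪) 𝔪 →ₗ[MvPolynomial I 𝒪]
          S.F 𝒪 (TwMod (permSign G X) (K3 𝒪)) 𝔪)
      (x : S.F 𝒪 (FunTw 𝟙 X 𝒪) 𝔪 →ₗ[MvPolynomial I 𝒪]
          S.F 𝒪 (TwMod (permSign G X) (K3 𝒪)) 𝔪),
      Function.Surjective a ∧ Function.Surjective x ∧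
      (∀ y, a y = 0 ↔ ∃ y', (3 : 𝒪) • y' = y) ∧ (∀ y, x y = 0 ↔ ∃ y', (3 : 𝒪) • y' = y) := by
  haveI : Nonempty X := ⟨e.symm 0⟩
  set k := K3 𝒪 with hk
  set sg : G →* ℤˣ := permSign G X with hsg
  have h3k : ∀ a : k, (3 : ℤ) • a = 0 := three_zsmul_K3 𝒪
  -- `F(k̄) = 0`
  have hZk : Subsingleton (S.F 𝒪 (TwMod 𝟙 k) 𝔪) :=
    subsingleton_of_surjective S 𝔪 hS (isEquivar_twMap 𝟙 𝒪 (red3 𝒪))
      (twMap_surjective 𝟙 𝒪 (red3_surjective 𝒪)) hZ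
  -- the reduction of `𝒪(sgn)`
  have hexA : ∀ w : TwMod sg 𝒪, twMap sg 𝒪 (red3 𝒪) w = 0 ↔ ∃ w', (3 : 𝒪) • w' = w := by
    intro w
    exact red3_eq_zero_iff 𝒪 (TwMod.out w)
  -- the reduction of `𝒪[X]`
  have hexX : ∀ w : FunTw 𝟙 X 𝒪, mapCoef 𝟙 X 𝒪 (red3 𝒪) w = 0 ↔ ∃ w', (3 : 𝒪) • w' = w := by
    intro w
    constructor
    · intro hw
      have h1 : ∀ x, ∃ b, (3 : 𝒪) • b = w x := by
        intro x
        have h2 : red3 𝒪 (w x) = 0 := congrArg (fun f : FunTw 𝟙 X k => f x) hw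
        exact (red3_eq_zero_iff 𝒪 _).mp h2
      choose b hb using h1
      exact ⟨⟨b⟩, by ext x; exact hb x⟩
    · rintro ⟨w', rfl⟩
      ext x
      show red3 𝒪 ((3 : 𝒪) • w' x) = 0
      exact (red3_eq_zero_iff 𝒪 _).mpr ⟨w' x, rfl⟩
  -- `F(Aug) → F(k̄[X])` is bijective
  have hi_inj : Function.Injective (S.Fmap 𝔪 (SubG.incl _ (augStable 𝟙 X 𝒪 k))
      (SubG.isEquivar_incl _ _)) :=
    S.Fmap_injective hne (SubG.isEquivar_incl _ _) (SubG.incl_injective _ _)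
  have hi_surj : Function.Surjective (S.Fmap 𝔪 (SubG.incl _ (augStable 𝟙 X 𝒪 k))
      (SubG.isEquivar_incl _ _)) := by
    intro y
    have hE := S.Fmap_exact_right 𝔪 hS (SubG.isEquivar_incl _ (augStable 𝟙 X 𝒪 k))
      (isEquivar_sumMap 𝟙 X 𝒪 k) (sumMap_surjective 𝟙 X 𝒪 k)
      (fun w => by
        constructor
        · intro hw
          exact ⟨⟨w, hw⟩, rfl⟩
        · rintro ⟨w', rfl⟩
          exact w'.2) y
    exact hE.mp (Subsingleton.elim _ _)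
  let ei := LinearEquiv.ofBijective (S.Fmap 𝔪 (SubG.incl _ (augStable 𝟙 X 𝒪 k))
      (SubG.isEquivar_incl _ _)) ⟨hi_inj, hi_surj⟩
  -- `F(Aug) → F(k̄(sgn))` is bijective
  have hlam : IsEquivar G (lamMap 𝟙 sg X e 𝒪 k) :=
    isEquivar_lamMap 𝟙 sg X e 𝒪 k h3k (fun g => by rw [MonoidHom.one_apply, one_mul])
  have hl_surj : Function.Surjective (S.Fmap 𝔪 (lamMap 𝟙 sg X e 𝒪 k) hlam) :=
    S.Fmap_surjective 𝔪 hS hlam (lamMap_surjective 𝟙 sg X e 𝒪 k h3k)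
  have hl_inj : Function.Injective (S.Fmap 𝔪 (lamMap 𝟙 sg X e 𝒪 k) hlam) := by
    rw [injective_iff_map_eq_zero]
    intro y hy
    have hE := S.Fmap_exact_right 𝔪 hS (isEquivar_constAug 𝟙 X e 𝒪 k h3k) hlam
      (lamMap_surjective 𝟙 sg X e 𝒪 k h3k) (lamMap_eq_zero_iff 𝟙 sg X e 𝒪 k h3k) y
    obtain ⟨y', rfl⟩ := hE.mp hy
    rw [Subsingleton.elim y' 0, map_zero]
  -- the two maps
  refine ⟨S.Fmap 𝔪 (twMap sg 𝒪 (red3 𝒪)) (isEquivar_twMap sg 𝒪 (red3 𝒪)),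
    (S.Fmap 𝔪 (lamMap 𝟙 sg X e 𝒪 k) hlam).comp
      ((ei.symm : _ →ₗ[MvPolynomial I 𝒪] _).comp
        (S.Fmap 𝔪 (mapCoef 𝟙 X 𝒪 (red3 𝒪)) (isEquivar_mapCoef 𝟙 X 𝒪 (red3 𝒪)))),
    S.Fmap_surjective 𝔪 hS _ (twMap_surjective sg 𝒪 (red3_surjective 𝒪)), ?_, ?_, ?_⟩
  · intro q
    obtain ⟨z, rfl⟩ := hl_surj q
    obtain ⟨y, hy⟩ := S.Fmap_surjective 𝔪 hS (isEquivar_mapCoef 𝟙 X 𝒪 (red3 𝒪))
      (mapCoef_surjective 𝟙 X 𝒪 (red3_surjective 𝒪)) (ei z)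
    refine ⟨y, ?_⟩
    rw [LinearMap.comp_apply, LinearMap.comp_apply, hy]
    simp
  · intro y
    exact Fmap_eq_zero_iff_smul S 𝔪 hS (3 : 𝒪) (isEquivar_twMap sg 𝒪 (red3 𝒪))
      (twMap_surjective sg 𝒪 (red3_surjective 𝒪)) hexA y
  · intro y
    rw [LinearMap.comp_apply, LinearMap.comp_apply]
    rw [← Fmap_eq_zero_iff_smul S 𝔪 hS (3 : 𝒪) (isEquivar_mapCoef 𝟙 X 𝒪 (red3 𝒪))
      (mapCoef_surjective 𝟙 X 𝒪 (red3_surjective 𝒪)) hexX y]
    constructor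
    · intro h
      have h1 := hl_inj (h.trans (map_zero _).symm)
      simpa using h1
    · intro h
      rw [h]
      simp

end main

end Fermat.Agent.S59lib.R7b
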