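/-
S59lib / R7b / Point  (helper3) — Project I, item R7b.

**Point extraction.**  `T` a noetherian local `𝒪`-algebra all of whose points with values in domains containing `𝒪` are
`𝒪`-rational (`hrat`, from helper9's (RAT)), acting on an `𝒪`-torsion-free module `A`; if `u ∈ T` does not kill `A`, then
`u A` contains a simultaneous eigenvector `u b ≠ 0` whose eigencharacter is an `𝒪`-algebra homomorphism `χ : T → 𝒪`
(an associated prime of `u A`).
-/
import Mathlib
import Fermat.Prelude.Def_CuspForm_HeckeLocal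

set_option autoImplicit false
set_option linter.unusedSectionVars false
set_option linter.unusedVariables false
set_option linter.style.haveILetI false

noncomputable section

namespace Fermat.Agent.S59lib.R7b

open IsLocalRing CuspForm
open scoped TensorProduct

/-- **point extraction** -/
theorem exists_point_of_ne_zero {𝒪 : Type} [CommRing 𝒪] [IsDomain 𝒪] {T : Type} [CommRing T]
    [IsNoetherianRing T] [Algebra 𝒪 T]
    (hrat : ∀ (D : Type) [CommRing D] [IsDomain D] [Algebra 𝒪 D],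
      Function.Injective (algebraMap 𝒪 D) → ∀ (f : T →ₐ[𝒪] D) (t : T), f t ∈ (algebraMap 𝒪 D).range)
    {A : Type*} [AddCommGroup A] [Module 𝒪 A]
    (htf : ∀ c : 𝒪, c ≠ 0 → ∀ y : A, c • y = 0 → y = 0)
    (φ : T →ₐ[𝒪] Module.End 𝒪 A) (u : T) (y₀ : A) (hu : φ u y₀ ≠ 0) :
    ∃ (χ : T →ₐ[𝒪] 𝒪) (b : A), φ u b ≠ 0 ∧ ∀ t : T, φ t (φ u b) = χ t • φ u b := by
  classical
  letI iT : Module T A := Module.compHom A (φ : T →+* Module.End 𝒪 A)
  have hsm : ∀ (t : T) (y : A), t • y = φ t y := fun _ _ => rfl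
  -- the submodule `u A`
  let M : Submodule T A := LinearMap.range (LinearMap.lsmul T A u)
  haveI : Nontrivial M := by
    refine ⟨⟨⟨u • y₀, y₀, rfl⟩, 0, ?_⟩⟩
    intro h
    exact hu (congrArg Subtype.val h)
  obtain ⟨𝔭, h𝔭⟩ := associatedPrimes.nonempty T M
  rw [AssociatedPrimes.mem_iff, isAssociatedPrime_iff] at h𝔭
  obtain ⟨hprime, ⟨x, b, hb⟩, hx⟩ := h𝔭
  have hxb : x = φ u b := hb.symm
  have hmem : ∀ t : T, t ∈ 𝔭 ↔ φ t (φ u b) = 0 := by
    intro t
    rw [hx, Submodule.mem_colon_singleton, Submodule.mem_bot, ← hxb]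
    constructor
    · intro h
      have := congrArg Subtype.val h
      exact this
    · intro h
      exact Subtype.ext h
  have hne : φ u b ≠ 0 := by
    intro h
    apply hprime.ne_top
    rw [Ideal.eq_top_iff_one, hmem, map_one]
    exact h
  have hinj : Function.Injective (algebraMap 𝒪 (T ⧸ 𝔭)) := by
    rw [injective_iff_map_eq_zero]
    intro c hc
    by_contra hc0
    rw [IsScalarTower.algebraMap_apply 𝒪 T (T ⧸ 𝔭), Ideal.Quotient.algebraMap_eq,
      Ideal.Quotient.eq_zero_iff_mem, hmem, AlgHom.commutes, Module.algebraMap_end_apply] at hc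
    exact hne (htf c hc0 _ hc)
  have hsurj : Function.Surjective (algebraMap 𝒪 (T ⧸ 𝔭)) := by
    intro z
    obtain ⟨t, rfl⟩ := Ideal.Quotient.mk_surjective z
    obtain ⟨c, hc⟩ := hrat (T ⧸ 𝔭) hinj (Ideal.Quotient.mkₐ 𝒪 𝔭) t
    exact ⟨c, hc⟩
  let e : 𝒪 ≃ₐ[𝒪] (T ⧸ 𝔭) := AlgEquiv.ofBijective (Algebra.ofId 𝒪 (T ⧸ 𝔭)) ⟨hinj, hsurj⟩
  let χ : T →ₐ[𝒪] 𝒪 := (e.symm : (T ⧸ 𝔭) →ₐ[𝒪] 𝒪).comp (Ideal.Quotient.mkₐ 𝒪 𝔭)
  refine ⟨χ, b, hne, fun t => ?_⟩
  have h1 : algebraMap 𝒪 (T ⧸ 𝔭) (χ t) = Ideal.Quotient.mk 𝔭 t := by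
    show e (e.symm (Ideal.Quotient.mk 𝔭 t)) = _
    exact e.apply_symm_apply _
  have h2 : t - algebraMap 𝒪 T (χ t) ∈ 𝔭 := by
    rw [← Ideal.Quotient.eq_zero_iff_mem, map_sub, sub_eq_zero, ← h1,
      IsScalarTower.algebraMap_apply 𝒪 T (T ⧸ 𝔭), Ideal.Quotient.algebraMap_eq]
  rw [hmem, map_sub, LinearMap.sub_apply, sub_eq_zero, AlgHom.commutes,
    Module.algebraMap_end_apply] at h2
  exact h2

/-- **the localised Hecke algebra inherits rationality of points** from the Hecke algebra (helper9's (RAT)) -/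
theorem heckeLocal_hrat {N : ℕ} [NeZero N] (S : Set ℕ) [Fact (HasIntegralStructure N 2)]
    (𝒪 : Type) [CommRing 𝒪] [IsDomain 𝒪] [IsDiscreteValuationRing 𝒪]
    [IsAdicComplete (maximalIdeal 𝒪) 𝒪]
    (θ : heckeAlgebra N 2 S →+* ResidueField 𝒪)
    (hR : ∀ (D : Type) [CommRing D] [IsDomain D] [Algebra 𝒪 D],
      Function.Injective (algebraMap 𝒪 D) → ∀ (f : heckeAlgebra N 2 S →+* D)
        (t : heckeAlgebra N 2 S), f t ∈ (algebraMap 𝒪 D).range)
    (D : Type) [CommRing D] [IsDomain D] [Algebra 𝒪 D] (hD : Function.Injective (algebraMap 𝒪 D))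
    (f : heckeLocal N S 𝒪 θ →ₐ[𝒪] D) (t : heckeLocal N S 𝒪 θ) : f t ∈ (algebraMap 𝒪 D).range := by
  -- the base algebra
  have hbase : ∀ x : heckeBaseAlgebra N S 𝒪,
      f (algebraMap _ (heckeLocal N S 𝒪 θ) x) ∈ (algebraMap 𝒪 D).range := by
    intro x
    obtain ⟨y, rfl⟩ := latticeBaseChange_surjective N S 𝒪 x
    induction y using TensorProduct.induction_on with
    | zero =>
      rw [map_zero, map_zero, map_zero]
      exact zero_mem _
    | tmul a t =>
      have h1 : (a ⊗ₜ[ℤ] t : 𝒪 ⊗[ℤ] ↥(heckeAlgebra N 2 S)) =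
          algebraMap 𝒪 _ a * ((1 : 𝒪) ⊗ₜ[ℤ] t) := by
        rw [Algebra.TensorProduct.algebraMap_apply, Algebra.algebraMap_self, RingHom.id_apply,
          Algebra.TensorProduct.tmul_mul_tmul, mul_one, one_mul]
      have h2 : f (algebraMap _ (heckeLocal N S 𝒪 θ) (latticeBaseChange N S 𝒪 (a ⊗ₜ[ℤ] t))) =
          algebraMap 𝒪 D a *
            (f : heckeLocal N S 𝒪 θ →+* D).comp (heckeLocal.π N S 𝒪 θ) t := by
        rw [h1, map_mul, map_mul, map_mul, latticeBaseChange_algebraMap,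
          ← IsScalarTower.algebraMap_apply 𝒪 (heckeBaseAlgebra N S 𝒪) (heckeLocal N S 𝒪 θ),
          AlgHom.commutes]
        rfl
      rw [h2]
      exact mul_mem ⟨a, rfl⟩ (hR D hD _ t)
    | add x y hx hy =>
      rw [map_add, map_add, map_add]
      exact add_mem hx hy
  -- fractions
  obtain ⟨x, s, rfl⟩ := IsLocalization.exists_mk'_eq (heckeLocalSubmonoid N S 𝒪 θ) t
  obtain ⟨d, hd⟩ := hbase x
  obtain ⟨c, hc⟩ := hbase s.1
  have hsu : IsUnit (algebraMap _ (heckeLocal N S 𝒪 θ) s.1) :=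
    IsLocalization.map_units (heckeLocal N S 𝒪 θ) s
  have hcu : IsUnit c := by
    by_contra hcn
    have h1 : algebraMap 𝒪 (heckeLocal N S 𝒪 θ) c ∈ maximalIdeal (heckeLocal N S 𝒪 θ) := by
      rw [mem_maximalIdeal, mem_nonunits_iff]
      intro h
      exact hcn (isUnit_of_map_unit (algebraMap 𝒪 (heckeLocal N S 𝒪 θ)) c h)
    have h2 : IsUnit (algebraMap _ (heckeLocal N S 𝒪 θ) s.1 -
        algebraMap 𝒪 (heckeLocal N S 𝒪 θ) c) := by
      by_contra h3
      have h4 : algebraMap _ (heckeLocal N S 𝒪 θ) s.1 - algebraMap 𝒪 (heckeLocal N S 𝒪 θ) c ∈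
          maximalIdeal (heckeLocal N S 𝒪 θ) := (mem_maximalIdeal _).mpr h3
      have h5 := Ideal.add_mem _ h4 h1
      rw [sub_add_cancel] at h5
      exact (mem_maximalIdeal _).mp h5 hsu
    have h6 := h2.map f
    rw [map_sub, AlgHom.commutes, ← hc, sub_self] at h6
    exact not_isUnit_zero h6
  obtain ⟨c', hc'⟩ := hcu.exists_left_inv
  refine ⟨c' * d, ?_⟩
  have h7 : f (IsLocalization.mk' (heckeLocal N S 𝒪 θ) x s) * algebraMap 𝒪 D c = algebraMap 𝒪 D d := by
    rw [hc, hd, ← map_mul, IsLocalization.mk'_spec]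
  rw [map_mul, ← h7, mul_comm (algebraMap 𝒪 D c'), mul_assoc, ← map_mul, mul_comm c c', hc', map_one,
    mul_one]

end Fermat.Agent.S59lib.R7b
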