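/-
S59lib / R7b / PointRes  (helper4) — Project I, item R7b.

**The residual eigenvalues of a point of the localised Hecke algebra.**  For every `𝒪`-algebra homomorphism
`χ : heckeLocal L S 𝒪 θ → 𝒪` and every `t` in the Hecke algebra, `χ (π t) ≡ θ t` modulo the maximal ideal
(`residue_point`); hence the maximal ideal `ker (ev2 3 t)` of `𝒪[X_ℓ]` is cut out by the system `a ℓ = χ (π T_ℓ)`
(`mem_ker_ev2_iff`, `mem_ker_ev2_iff_point`).
-/
import Mathlib
import Fermat.Agent.S59lib.R7b.Beta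

set_option autoImplicit false
set_option linter.unusedSectionVars false
set_option linter.unusedVariables false
set_option linter.style.haveILetI false

noncomputable section

namespace Fermat.Agent.S59lib.R7b

open CongruenceSubgroup CuspForm IsLocalRing MvPolynomial TensorProduct
open Fermat.Agent.S43lib.B2.Bridge Fermat.Agent.S59lib.S3Proj

/-! ### points are local -/

section Local

variable {𝒪 T : Type*} [CommRing 𝒪] [IsLocalRing 𝒪] [CommRing T] [IsLocalRing T] [Algebra 𝒪 T]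

/-- an `𝒪`-algebra homomorphism `T → 𝒪` from a local ring maps the maximal ideal into the maximal ideal -/
theorem map_mem_maximalIdeal_of_algHom (χ : T →ₐ[𝒪] 𝒪) {x : T} (hx : x ∈ maximalIdeal T) :
    χ x ∈ maximalIdeal 𝒪 := by
  have hsurj : Function.Surjective (χ : T →+* 𝒪) := fun c => ⟨algebraMap 𝒪 T c, by
    show χ (algebraMap 𝒪 T c) = c
    rw [AlgHom.commutes]
    rfl⟩
  haveI : ((maximalIdeal 𝒪).comap (χ : T →+* 𝒪)).IsMaximal :=
    Ideal.comap_isMaximal_of_surjective _ hsurj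
  have h := IsLocalRing.eq_maximalIdeal (inferInstance : ((maximalIdeal 𝒪).comap (χ : T →+* 𝒪)).IsMaximal)
  rw [← h] at hx
  exact hx

end Local

/-! ### the residual eigenvalues of a point -/

section Point

variable {L : ℕ} [NeZero L] {S : Set ℕ} [Fact (HasIntegralStructure L 2)]
variable {𝒪 : Type} [CommRing 𝒪] [IsDomain 𝒪] [IsDiscreteValuationRing 𝒪]
  [IsAdicComplete (maximalIdeal 𝒪) 𝒪]
variable (θ : heckeAlgebra L 2 S →+* ResidueField 𝒪)

/-- `π t - c` lies in the maximal ideal when `c` lifts `θ t` -/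
theorem pi_sub_mem_maximalIdeal (t : heckeAlgebra L 2 S) (c : 𝒪) (hc : residue 𝒪 c = θ t) :
    haveI := heckeLocal.isLocalRing L S 𝒪 θ
    heckeLocal.π L S 𝒪 θ t - algebraMap 𝒪 (heckeLocal L S 𝒪 θ) c ∈ maximalIdeal (heckeLocal L S 𝒪 θ) := by
  haveI := heckeLocal.isLocalRing L S 𝒪 θ
  set z : 𝒪 ⊗[ℤ] ↥(heckeAlgebra L 2 S) :=
    (1 : 𝒪) ⊗ₜ[ℤ] t - algebraMap 𝒪 (𝒪 ⊗[ℤ] ↥(heckeAlgebra L 2 S)) c with hz
  have hzk : z ∈ heckeCharKernel L S 𝒪 θ := by
    rw [mem_heckeCharKernel_iff, hz, map_sub, residualCharacter_tmul, residualCharacter_algebraMap,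
      map_one, one_mul, hc, sub_self]
  have hzI : latticeBaseChange L S 𝒪 z ∈ heckeLocalIdeal L S 𝒪 θ := Ideal.mem_map_of_mem _ hzk
  have h1 := (IsLocalization.AtPrime.to_map_mem_maximal_iff (heckeLocal L S 𝒪 θ)
    (heckeLocalIdeal L S 𝒪 θ) (latticeBaseChange L S 𝒪 z)).mpr hzI
  have h2 : algebraMap (heckeBaseAlgebra L S 𝒪) (heckeLocal L S 𝒪 θ) (latticeBaseChange L S 𝒪 z) =
      heckeLocal.π L S 𝒪 θ t - algebraMap 𝒪 (heckeLocal L S 𝒪 θ) c := by
    rw [hz, map_sub, map_sub, latticeBaseChange_algebraMap,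
      ← IsScalarTower.algebraMap_apply 𝒪 (heckeBaseAlgebra L S 𝒪) (heckeLocal L S 𝒪 θ)]
    rfl
  rw [h2] at h1
  exact h1

/-- **the residual eigenvalues of a point** -/
theorem residue_point (χ : heckeLocal L S 𝒪 θ →ₐ[𝒪] 𝒪) (t : heckeAlgebra L 2 S) :
    residue 𝒪 (χ (heckeLocal.π L S 𝒪 θ t)) = θ t := by
  haveI := heckeLocal.isLocalRing L S 𝒪 θ
  obtain ⟨c, hc⟩ := residue_surjective (θ t)
  have h1 := map_mem_maximalIdeal_of_algHom χ (pi_sub_mem_maximalIdeal θ t c hc)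
  rw [map_sub, AlgHom.commutes, ← residue_eq_zero_iff, map_sub, sub_eq_zero] at h1
  rw [h1, ← hc]
  rfl

end Point

/-! ### the maximal ideal `ker (ev2 p t)` -/

section Ev2

variable {𝒪 : Type} [CommRing 𝒪] [IsLocalRing 𝒪] (p : ℕ) {M : ℕ} [NeZero M]

theorem mem_ker_ev2_iff (t : ℕ → ResidueField 𝒪) (a : I2 p M → 𝒪)
    (ha : ∀ i : I2 p M, residue 𝒪 (a i) = t i.1) (s : MvPolynomial (I2 p M) 𝒪) :
    s ∈ RingHom.ker (ev2 p (M := M) t) ↔ MvPolynomial.eval a s ∈ maximalIdeal 𝒪 := by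
  have h : ev2 p (M := M) t = (residue 𝒪).comp (MvPolynomial.eval a) := by
    apply MvPolynomial.ringHom_ext
    · intro c
      rw [ev2_C, RingHom.comp_apply, MvPolynomial.eval_C]
    · intro i
      rw [ev2_X, RingHom.comp_apply, MvPolynomial.eval_X, ha]
  rw [RingHom.mem_ker, h, RingHom.comp_apply, residue_eq_zero_iff]

end Ev2

/-! ### the combination at level `4 N` -/

section Comb

variable {N : ℕ} [NeZero N] [NeZero (N * 4)] {S : Set ℕ} [Fact (HasIntegralStructure (N * 4) 2)]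
variable {𝒪 : Type} [CommRing 𝒪] [IsDomain 𝒪] [IsDiscreteValuationRing 𝒪]
  [IsAdicComplete (maximalIdeal 𝒪) 𝒪]

/-- the system of a point `χ` of the localised Hecke algebra of level `4 N` cuts out `ker (ev2 3 t)` -/
theorem mem_ker_ev2_iff_point (hSI : ∀ i : I2 3 N, i.1 ∉ S)
    (θ : heckeAlgebra (N * 4) 2 S →+* ResidueField 𝒪) (t : ℕ → ResidueField 𝒪)
    (hθ : ∀ ℓ : GoodPrime (N * 4) S, θ (heckeAlgebra.T ℓ.2.1 ℓ.2.2.1 ℓ.2.2.2) = t ℓ.1)
    (χ : heckeLocal (N * 4) S 𝒪 θ →ₐ[𝒪] 𝒪) (s : MvPolynomial (I2 3 N) 𝒪) :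
    s ∈ RingHom.ker (ev2 3 (M := N) t) ↔
      MvPolynomial.eval (fun i : I2 3 N => χ (heckeLocal.π (N * 4) S 𝒪 θ
        (heckeAlgebra.T i.2.1 i.not_dvd_four (hSI i)))) s ∈ maximalIdeal 𝒪 := by
  refine mem_ker_ev2_iff 3 t _ (fun i => ?_) s
  rw [residue_point θ χ]
  exact hθ ⟨i.1, i.2.1, i.not_dvd_four, hSI i⟩

end Comb

end Fermat.Agent.S59lib.R7b
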