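/-
S59lib / R7b / Count  (helper3) — Project I, item R7b (Mazur's principle at `q = 2` for `p = 3`).

**The counting lemma (pure algebra).**  `T` a commutative ring, `n` a `2 × 2` matrix over `T`, acting on pairs of
elements of `T`-modules (`Matrix.Module.matrixModule`).

* `Exact2 n Z` : on `Z²`, `ker n ⊆ im n`.
* `exact2_quot_of_trace_det` (COUNT-A) : if `tr n = -d`, `det n = d` as operators on `Y` (for us: `n = ρ(τ) - 1` with
  `charpoly ρ(τ) = X² + X + 1`, `d = 3`) and `d` is a non-zero-divisor on `Y`, then `Exact2 n (Y / dY)`.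
  (`adj n = -(n + d)`, `adj n · n = d`: if `n v = d w = n (adj n) w` then `v = adj n w = -(n w) - d w`.)
* `Exact2.of_linearEquiv` : transport along a `T`-linear isomorphism (the matrix action is natural).
* `exact2_of_quot` (COUNT-X) : if `n² = 0` on `X²`, `d` is a non-zero-divisor on `X`, `d` lies in the Jacobson
  radical, `X` is noetherian and `Exact2 n (X / dX)`, then `Exact2 n X`  (saturation of the image of the
  monodromy; Nakayama).
-/
import Mathlib

set_option autoImplicit false
set_option linter.unusedSectionVars false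

noncomputable section

namespace Fermat.Agent.S59lib.R7b

open Matrix.Module Pointwise

variable {T : Type*} [CommRing T]

/-- the matrix action commutes with scalars -/
theorem mat_smul_smul {Y : Type*} [AddCommGroup Y] [Module T Y] (n : Matrix (Fin 2) (Fin 2) T) (c : T)
    (v : Fin 2 → Y) : n • (c • v) = c • (n • v) := by
  ext i
  rw [Matrix.Module.smul_apply, Pi.smul_apply, Matrix.Module.smul_apply, Finset.smul_sum]
  refine Finset.sum_congr rfl fun j _ => ?_
  rw [Pi.smul_apply, smul_comm]

/-- the action of a matrix as a `T`-linear map -/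
def actLin {Y : Type*} [AddCommGroup Y] [Module T Y] (n : Matrix (Fin 2) (Fin 2) T) :
    (Fin 2 → Y) →ₗ[T] (Fin 2 → Y) where
  toFun v := n • v
  map_add' v w := smul_add n v w
  map_smul' c v := mat_smul_smul n c v

@[simp] theorem actLin_apply {Y : Type*} [AddCommGroup Y] [Module T Y] (n : Matrix (Fin 2) (Fin 2) T)
    (v : Fin 2 → Y) : actLin n v = n • v := rfl

/-- naturality of the matrix action -/
theorem mat_smul_comp {Y Z : Type*} [AddCommGroup Y] [Module T Y] [AddCommGroup Z] [Module T Z]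
    (f : Y →ₗ[T] Z) (n : Matrix (Fin 2) (Fin 2) T) (v : Fin 2 → Y) :
    n • (fun i => f (v i)) = fun i => f ((n • v) i) := by
  ext i
  rw [Matrix.Module.smul_apply, Matrix.Module.smul_apply, map_sum]
  refine Finset.sum_congr rfl fun j _ => ?_
  rw [map_smul]

/-- on `Z²`: `ker n ⊆ im n` -/
def Exact2 (n : Matrix (Fin 2) (Fin 2) T) (Z : Type*) [AddCommGroup Z] [Module T Z] : Prop :=
  ∀ v : Fin 2 → Z, n • v = 0 → ∃ u : Fin 2 → Z, v = n • u

/-- transport of `Exact2` along a linear isomorphism -/
theorem Exact2.of_linearEquiv {n : Matrix (Fin 2) (Fin 2) T} {Z Z' : Type*} [AddCommGroup Z]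
    [Module T Z] [AddCommGroup Z'] [Module T Z'] (h : Exact2 n Z) (e : Z ≃ₗ[T] Z') : Exact2 n Z' := by
  intro v hv
  have h1 : n • (fun i => e.symm (v i)) = 0 := by
    have := mat_smul_comp (e.symm : Z' →ₗ[T] Z) n v
    simp only [LinearEquiv.coe_coe] at this
    rw [this, hv]
    ext i
    simp
  obtain ⟨u, hu⟩ := h _ h1
  refine ⟨fun i => e (u i), ?_⟩
  have h2 := mat_smul_comp (e : Z →ₗ[T] Z') n u
  simp only [LinearEquiv.coe_coe] at h2
  rw [h2, ← hu]
  ext i
  simp

/-- the adjugate of a `2 × 2` matrix -/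
theorem adjugate_eq_trace_sub (n : Matrix (Fin 2) (Fin 2) T) :
    n.adjugate = n.trace • (1 : Matrix (Fin 2) (Fin 2) T) - n := by
  rw [Matrix.adjugate_fin_two, Matrix.trace_fin_two]
  ext i j
  fin_cases i <;> fin_cases j <;> simp

section CountA

variable {Y : Type*} [AddCommGroup Y] [Module T Y] (n : Matrix (Fin 2) (Fin 2) T) (d : T)

/-- the matrix `c • 1` acts through the scalar `c` -/
theorem scalar_one_smul (c : T) (v : Fin 2 → Y) :
    (c • (1 : Matrix (Fin 2) (Fin 2) T)) • v = c • v := by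
  ext i
  rw [Matrix.Module.smul_apply, Fin.sum_univ_two, Pi.smul_apply]
  fin_cases i <;> simp

/-- `adj n · n = det n` on `Y²` -/
theorem adjugate_smul_smul (v : Fin 2 → Y) : n.adjugate • (n • v) = n.det • v := by
  rw [← mul_smul, Matrix.adjugate_mul, scalar_one_smul]

/-- `n · adj n = det n` on `Y²` -/
theorem smul_adjugate_smul (v : Fin 2 → Y) : n • (n.adjugate • v) = n.det • v := by
  rw [← mul_smul, Matrix.mul_adjugate, scalar_one_smul]

/-- **COUNT-A, elementwise**: `tr n = -d` and `det n = d` ON `Y`, `d` a non-zero-divisor on `Y`, `n v = d w`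
⟹ `v = n (-w) + d (-w)`. -/
theorem eq_of_smul_eq_smul (hd : ∀ y : Y, d • y = 0 → y = 0) (htr : ∀ y : Y, (n.trace + d) • y = 0)
    (hdet : ∀ y : Y, (n.det - d) • y = 0) (v w : Fin 2 → Y) (h : n • v = d • w) :
    v = n • (-w) + d • (-w) := by
  have hdet' : ∀ u : Fin 2 → Y, n.det • u = d • u := by
    intro u
    ext i
    have := hdet (u i)
    rw [sub_smul, sub_eq_zero] at this
    simpa using this
  have htr' : ∀ u : Fin 2 → Y, n.trace • u = -(d • u) := by
    intro u
    ext i
    have := htr (u i)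
    rw [add_smul, add_eq_zero_iff_eq_neg] at this
    simpa using this
  have h1 : n • (v - n.adjugate • w) = 0 := by
    rw [smul_sub, smul_adjugate_smul, hdet', h, sub_self]
  have h2 : d • (v - n.adjugate • w) = 0 := by
    rw [← hdet', ← adjugate_smul_smul, h1, smul_zero]
  have h3 : v - n.adjugate • w = 0 := by
    ext i
    exact hd _ (by simpa using congrFun h2 i)
  have h4 : n.adjugate • w = -(d • w) - n • w := by
    rw [adjugate_eq_trace_sub, sub_smul, scalar_one_smul, htr']
  rw [sub_eq_zero] at h3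
  rw [h3, h4, smul_neg, smul_neg]
  abel

/-- **COUNT-A**: `Exact2 n (Y / dY)`. -/
theorem exact2_quot_of_trace_det (hd : ∀ y : Y, d • y = 0 → y = 0)
    (htr : ∀ y : Y, (n.trace + d) • y = 0) (hdet : ∀ y : Y, (n.det - d) • y = 0) :
    Exact2 n (Y ⧸ (d • (⊤ : Submodule T Y))) := by
  intro v hv
  -- lift `v`
  have hsurj : ∀ z : Y ⧸ (d • (⊤ : Submodule T Y)), ∃ y : Y, Submodule.Quotient.mk y = z :=
    fun z => Submodule.Quotient.mk_surjective _ z
  choose v₀ hv₀ using fun i => hsurj (v i)
  have hvv : v = fun i => (d • (⊤ : Submodule T Y)).mkQ (v₀ i) := by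
    ext i
    exact (hv₀ i).symm
  have h1 := mat_smul_comp (d • (⊤ : Submodule T Y)).mkQ n v₀
  rw [← hvv, hv] at h1
  -- `n v₀ ∈ d Y²`
  have h2 : ∀ i, ∃ w : Y, (n • v₀) i = d • w := by
    intro i
    have h3 : (d • (⊤ : Submodule T Y)).mkQ ((n • v₀) i) = 0 := (congrFun h1 i).symm
    rw [Submodule.mkQ_apply, Submodule.Quotient.mk_eq_zero] at h3
    obtain ⟨w, -, hw⟩ := (Submodule.mem_smul_pointwise_iff_exists _ _ _).mp h3
    exact ⟨w, hw.symm⟩
  choose w hw using h2
  have h4 : n • v₀ = d • w := by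
    ext i
    exact hw i
  have h5 := eq_of_smul_eq_smul n d hd htr hdet v₀ w h4
  refine ⟨fun i => (d • (⊤ : Submodule T Y)).mkQ ((-w) i), ?_⟩
  rw [mat_smul_comp, hvv]
  ext i
  have h6 : (d • (⊤ : Submodule T Y)).mkQ ((d • (-w)) i) = 0 := by
    rw [Submodule.mkQ_apply, Submodule.Quotient.mk_eq_zero, Pi.smul_apply]
    exact Submodule.smul_mem_pointwise_smul _ _ _ Submodule.mem_top
  have h7 := congrFun h5 i
  rw [Pi.add_apply] at h7
  rw [h7, map_add, h6, add_zero]

end CountA

section CountX

variable {X : Type*} [AddCommGroup X] [Module T X] (n : Matrix (Fin 2) (Fin 2) T) (d : T)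

/-- **COUNT-X**: saturation of the image. -/
theorem exact2_of_quot [IsNoetherian T X] (hd : ∀ x : X, d • x = 0 → x = 0)
    (hjac : d ∈ Ideal.jacobson (⊥ : Ideal T)) (hsq : ∀ v : Fin 2 → X, n • (n • v) = 0)
    (h : Exact2 n (X ⧸ (d • (⊤ : Submodule T X)))) : Exact2 n X := by
  have hle : LinearMap.ker (actLin (Y := X) n) ≤ LinearMap.range (actLin (Y := X) n) := by
    refine Submodule.le_of_le_smul_of_le_jacobson_bot (I := Ideal.span {d})
      (IsNoetherian.noetherian _) ((Ideal.span_singleton_le_iff_mem _).mpr hjac) ?_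
    intro v hv
    rw [LinearMap.mem_ker, actLin_apply] at hv
    -- reduce modulo `d`
    have h1 := mat_smul_comp (d • (⊤ : Submodule T X)).mkQ n v
    rw [hv] at h1
    have h2 : n • (fun i => (d • (⊤ : Submodule T X)).mkQ (v i)) = 0 := by
      rw [h1]
      ext i
      simp
    obtain ⟨u, hu⟩ := h _ h2
    have hsurj : ∀ z : X ⧸ (d • (⊤ : Submodule T X)), ∃ y : X, Submodule.Quotient.mk y = z :=
      fun z => Submodule.Quotient.mk_surjective _ z
    choose u₀ hu₀ using fun i => hsurj (u i)
    have huu : u = fun i => (d • (⊤ : Submodule T X)).mkQ (u₀ i) := by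
      ext i
      exact (hu₀ i).symm
    rw [huu, mat_smul_comp] at hu
    -- `v - n u₀ ∈ d X²`
    have h3 : ∀ i, ∃ w : X, v i - (n • u₀) i = d • w := by
      intro i
      have h4 : (d • (⊤ : Submodule T X)).mkQ (v i - (n • u₀) i) = 0 := by
        rw [map_sub, sub_eq_zero]
        exact congrFun hu i
      rw [Submodule.mkQ_apply, Submodule.Quotient.mk_eq_zero] at h4
      obtain ⟨w, -, hw⟩ := (Submodule.mem_smul_pointwise_iff_exists _ _ _).mp h4
      exact ⟨w, hw.symm⟩
    choose w hw using h3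
    have h5 : v = n • u₀ + d • w := by
      ext i
      rw [Pi.add_apply, Pi.smul_apply, ← hw i]
      abel
    -- `w ∈ ker n`
    have h6 : n • w = 0 := by
      have h7 : d • (n • w) = 0 := by
        rw [← mat_smul_smul]
        have h8 : n • v = n • (n • u₀) + n • (d • w) := by rw [h5, smul_add]
        rw [hv, hsq, zero_add] at h8
        exact h8.symm
      ext i
      exact hd _ (by simpa using congrFun h7 i)
    rw [h5]
    refine Submodule.add_mem_sup ⟨u₀, rfl⟩ ?_
    exact Submodule.smul_mem_smul (Ideal.mem_span_singleton_self d)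
      (by rw [LinearMap.mem_ker, actLin_apply]; exact h6)
  intro v hv
  obtain ⟨u, hu⟩ := hle (by rw [LinearMap.mem_ker, actLin_apply]; exact hv)
  exact ⟨u, hu.symm⟩

end CountX

end Fermat.Agent.S59lib.R7b
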