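/-
S59lib / R7b / Mazur  (helper3) — Project I, item R7b (Mazur's principle at `q = 2` for `p = 3`).

**Mazur's argument (pure algebra).**  `T` a local ring in which `2` is a unit, `X` a finite `T`-module with a
`T`-linear involution `U` (for us: `U = -w₂`, the Atkin–Lehner involution on the Betti cohomology of level `2M'`);
`m = ρ(τ) - 1` and `Φ = ρ(φ)` two `2 × 2` matrices over `T` (`τ` a generator of the tame inertia at `2`, `φ` a
Frobenius), acting on `X²`.  If
* `m ≡ 0` modulo `𝔪_T`                                   (`ρ̄` is unramified at `2`),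
* `ker m ⊆ im m` on `X²`                                  (`Exact2 m X`: saturation, from `R7b/Count`),
* `Φ m = 2 m Φ` on `X²`                                    (`φ τ φ⁻¹ = τ²` and `m² = 0`),
* `Φ = 2 U` on `m X²`                                      (SIGN),
* `det Φ ≡ 2` modulo `𝔪_T`                                 (the determinant is cyclotomic),
then `X = 0`.

Proof.  `m (Φ v - U v) = 0`, so `Φ v - U v ∈ m X² ⊆ 𝔪 X²` for all `v`: modulo `𝔪`, `Φ` acts on `(X/𝔪X)²` as `U`.
If `X ≠ 0` this forces `Φ ≡ a` scalar modulo `𝔪` with `a² ≡ 1` (`U² = 1`), but `a² ≡ det Φ ≡ 2`.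
-/
import Mathlib
import Fermat.Agent.S59lib.R7b.Count

set_option autoImplicit false
set_option linter.unusedSectionVars false

noncomputable section

namespace Fermat.Agent.S59lib.R7b

open Matrix.Module Pointwise IsLocalRing

variable {T : Type*} [CommRing T] [IsLocalRing T]
variable {X : Type*} [AddCommGroup X] [Module T X]

/-- a linear endomorphism preserves `𝔪 X` -/
theorem map_mem_smul_top (U : X →ₗ[T] X) {x : X}
    (hx : x ∈ maximalIdeal T • (⊤ : Submodule T X)) :
    U x ∈ maximalIdeal T • (⊤ : Submodule T X) := by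
  refine Submodule.smul_induction_on hx (fun r hr y _ => ?_) (fun y z hy hz => ?_)
  · rw [map_smul]
    exact Submodule.smul_mem_smul hr Submodule.mem_top
  · rw [map_add]
    exact Submodule.add_mem _ hy hz

/-- a matrix with entries in `𝔪` maps `X²` into `(𝔪 X)²` -/
theorem mat_smul_mem_smul_top (m : Matrix (Fin 2) (Fin 2) T)
    (hm : ∀ i j, m i j ∈ maximalIdeal T) (u : Fin 2 → X) (i : Fin 2) :
    (m • u) i ∈ maximalIdeal T • (⊤ : Submodule T X) := by
  rw [Matrix.Module.smul_apply]
  exact Submodule.sum_mem _ fun j _ => Submodule.smul_mem_smul (hm i j) Submodule.mem_top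

/-- Nakayama: if a unit maps `X` into `𝔪 X` then `X = 0` -/
theorem subsingleton_of_unit_smul_mem [Module.Finite T X] {c : T} (hc : IsUnit c)
    (h : ∀ x : X, c • x ∈ maximalIdeal T • (⊤ : Submodule T X)) : Subsingleton X := by
  have h1 : (⊤ : Submodule T X) ≤ maximalIdeal T • (⊤ : Submodule T X) := by
    intro x _
    obtain ⟨c', hc'⟩ := hc.exists_left_inv
    have h2 := Submodule.smul_mem _ c' (h x)
    rwa [smul_smul, hc', one_smul] at h2
  have h3 : (⊤ : Submodule T X) = ⊥ :=
    Submodule.eq_bot_of_le_smul_of_le_jacobson_bot _ _ Module.Finite.fg_top h1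
      (maximalIdeal_le_jacobson _)
  exact (Submodule.subsingleton_iff T).mp (subsingleton_of_bot_eq_top h3.symm)

/-- **Mazur's argument.** -/
theorem subsingleton_of_mazur [Module.Finite T X] (m Φ : Matrix (Fin 2) (Fin 2) T) (U : X →ₗ[T] X)
    (h2 : IsUnit (2 : T)) (hm : ∀ i j, m i j ∈ maximalIdeal T) (hex : Exact2 m X)
    (hrel : ∀ v : Fin 2 → X, Φ • (m • v) = (2 : T) • (m • (Φ • v)))
    (hsign : ∀ v : Fin 2 → X, Φ • (m • v) = (2 : T) • (fun i => U ((m • v) i)))
    (hU : ∀ x, U (U x) = x) (hdet : Φ.det - 2 ∈ maximalIdeal T) : Subsingleton X := by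
  by_contra hX
  -- a scalar mapping `X` into `𝔪 X` is not a unit
  have hP : ∀ c : T, (∀ x : X, c • x ∈ maximalIdeal T • (⊤ : Submodule T X)) →
      c ∈ maximalIdeal T := by
    intro c hc
    by_contra hcu
    rw [mem_maximalIdeal, mem_nonunits_iff, not_not] at hcu
    exact hX (subsingleton_of_unit_smul_mem hcu hc)
  -- `Φ v ≡ U v` modulo `𝔪 X`
  have hkey : ∀ (v : Fin 2 → X) (i : Fin 2),
      (Φ • v) i - U (v i) ∈ maximalIdeal T • (⊤ : Submodule T X) := by
    intro v i
    have h1 : m • (Φ • v - fun i => U (v i)) = 0 := by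
      have h3 : (2 : T) • (m • (Φ • v - fun i => U (v i))) = 0 := by
        rw [smul_sub, smul_sub, ← hrel, hsign, mat_smul_comp U m v, sub_self]
      obtain ⟨c, hc⟩ := h2.exists_left_inv
      have h4 := congrArg (fun w => c • w) h3
      simp only [smul_zero, smul_smul, hc, one_smul] at h4
      exact h4
    obtain ⟨u, hu⟩ := hex _ h1
    have h5 := mat_smul_mem_smul_top m hm u i
    rw [← hu] at h5
    simpa using h5
  -- the four entries
  have e00 : ∀ x : X, Φ 0 0 • x - U x ∈ maximalIdeal T • (⊤ : Submodule T X) := by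
    intro x
    have := hkey (Pi.single 0 x) 0
    simpa [Matrix.Module.smul_apply, Fin.sum_univ_two] using this
  have e10 : ∀ x : X, Φ 1 0 • x ∈ maximalIdeal T • (⊤ : Submodule T X) := by
    intro x
    have := hkey (Pi.single 0 x) 1
    simpa [Matrix.Module.smul_apply, Fin.sum_univ_two] using this
  have e01 : ∀ x : X, Φ 0 1 • x ∈ maximalIdeal T • (⊤ : Submodule T X) := by
    intro x
    have := hkey (Pi.single 1 x) 0
    simpa [Matrix.Module.smul_apply, Fin.sum_univ_two] using this
  have e11 : ∀ x : X, Φ 1 1 • x - U x ∈ maximalIdeal T • (⊤ : Submodule T X) := by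
    intro x
    have := hkey (Pi.single 1 x) 1
    simpa [Matrix.Module.smul_apply, Fin.sum_univ_two] using this
  have h10 : Φ 1 0 ∈ maximalIdeal T := hP _ e10
  have hab : Φ 0 0 - Φ 1 1 ∈ maximalIdeal T := by
    refine hP _ fun x => ?_
    have := Submodule.sub_mem _ (e00 x) (e11 x)
    rwa [sub_sub_sub_cancel_right, ← sub_smul] at this
  -- `1 - a²`
  have haa : 1 - Φ 0 0 * Φ 0 0 ∈ maximalIdeal T := by
    refine hP _ fun x => ?_
    -- `U x = a x - e`, `U (U x) = a (U x) - e'`
    have h1 := e00 x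
    have h2' := e00 (U x)
    rw [hU] at h2'
    -- `a (a x - U x) + (a U x - x) = a² x - x`
    have h3 := Submodule.add_mem _ (Submodule.smul_mem _ (Φ 0 0) h1) h2'
    have h4 : Φ 0 0 • (Φ 0 0 • x - U x) + (Φ 0 0 • U x - x) = -((1 - Φ 0 0 * Φ 0 0) • x) := by
      rw [smul_sub, sub_smul, one_smul, mul_smul]
      abel
    rw [h4] at h3
    simpa using Submodule.neg_mem _ h3
  -- the determinant
  have hd : Φ.det = Φ 0 0 * Φ 1 1 - Φ 0 1 * Φ 1 0 := Matrix.det_fin_two Φ
  have h6 : (1 : T) ∈ maximalIdeal T := by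
    have h8 : (1 - Φ 0 0 * Φ 0 0) + Φ 0 0 * (Φ 0 0 - Φ 1 1) + Φ 0 1 * Φ 1 0 + (Φ.det - 2)
        ∈ maximalIdeal T :=
      Ideal.add_mem _ (Ideal.add_mem _ (Ideal.add_mem _ haa (Ideal.mul_mem_left _ _ hab))
        (Ideal.mul_mem_left _ _ h10)) hdet
    -- `1 = (element of 𝔪) + 1`?  use instead: `-1 = haa + ... - ` gives `-1 ∈ 𝔪`
    have h9 : (1 - Φ 0 0 * Φ 0 0) + Φ 0 0 * (Φ 0 0 - Φ 1 1) + Φ 0 1 * Φ 1 0 + (Φ.det - 2) = -1 := by
      rw [hd]
      ring
    rw [h9] at h8
    simpa using Ideal.neg_mem_iff _ |>.mp h8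
  exact (Ideal.ne_top_iff_one _).mp (maximalIdeal.isMaximal T).ne_top h6

end Fermat.Agent.S59lib.R7b
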