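/-
S59lib / R7b / Core  (helper3) — Project I, item R7b (Mazur's principle at `q = 2` for `p = 3`).

**The abstract core.**  `T` a local ring with `3 ∈ 𝔪`; `A` (the `sgn`-part) and `X` (level `2M'`) two finite
`T`-modules on which `3` is a non-zero-divisor, with a `T`-linear isomorphism `A/3 ≃ X/3` (the `S₃`-dévissage);
`n = ρ(τ) - 1`, `Φ = ρ(φ)` two `2 × 2` matrices over `T` with
* `n ≡ 0` mod `𝔪`, `det (1 + n) = 1`, `det Φ = 2`, `Φ (1 + n) = (1 + n)² Φ`        (ring identities),
* `tr n = -3` on `A`                                     (`ρ(τ)` has order `3` on the `sgn`-part),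
* `tr n = 0` on `X`                                      (`ρ(τ)` is unipotent at level `2M'`).
Then `X = 0`.

Steps: `Exact2 n (A/3)` (COUNT-A) → `Exact2 n (X/3)` → `Exact2 n X` (COUNT-X) ; `(tr n)(tr Φ) = 0` in `T`, so `tr Φ`
kills `A`, hence `tr Φ · X ⊆ 3X` and `U := tr Φ / 3` is a `T`-linear endomorphism of `X`; helper2's observation
(`sign_of_trace`): Cayley–Hamilton for `Φ` + `Φ n = 2 n Φ` + `ker n = im n` force `Φ = 2U` on `im n` and `U² = 1`;
Mazur's argument (`subsingleton_of_mazur`).
-/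
import Mathlib
import Fermat.Agent.S59lib.R7b.Count
import Fermat.Agent.S59lib.R7b.Mazur

set_option autoImplicit false
set_option linter.unusedSectionVars false
set_option linter.unusedVariables false

noncomputable section

namespace Fermat.Agent.S59lib.R7b

open Matrix.Module Pointwise IsLocalRing

section MatrixIdentities

variable {T : Type*} [CommRing T]

/-- Cayley–Hamilton for `2 × 2` matrices -/
theorem cayley_fin_two (Φ : Matrix (Fin 2) (Fin 2) T) :
    Φ * Φ = Φ.trace • Φ - Φ.det • (1 : Matrix (Fin 2) (Fin 2) T) := by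
  rw [Matrix.trace_fin_two, Matrix.det_fin_two]
  ext i j
  fin_cases i <;> fin_cases j <;>
    simp [Matrix.mul_apply, Fin.sum_univ_two] <;> ring

/-- `det (1 + n) = 1 + tr n + det n` -/
theorem det_one_add_fin_two (n : Matrix (Fin 2) (Fin 2) T) :
    (1 + n).det = 1 + n.trace + n.det := by
  rw [Matrix.trace_fin_two, Matrix.det_fin_two, Matrix.det_fin_two]
  simp only [Matrix.add_apply, Matrix.one_apply_eq, ne_eq, zero_ne_one, one_ne_zero,
    not_false_eq_true, Matrix.one_apply_ne, zero_add]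
  ring

/-- if `det (1 + n) = 1` then `det n = - tr n` -/
theorem det_eq_neg_trace (n : Matrix (Fin 2) (Fin 2) T) (h : (1 + n).det = 1) :
    n.det = - n.trace := by
  rw [det_one_add_fin_two] at h
  linear_combination h

/-- if `det (1 + n) = 1` then `n² = (tr n) (1 + n)` -/
theorem sq_eq_trace_smul (n : Matrix (Fin 2) (Fin 2) T) (h : (1 + n).det = 1) :
    n * n = n.trace • (1 + n) := by
  rw [cayley_fin_two, det_eq_neg_trace n h, smul_add, neg_smul]
  abel

/-- `Φ (1 + n) = (1 + n)² Φ` gives `Φ n = 2 n Φ + n² Φ` -/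
theorem mul_eq_of_tame (n Φ : Matrix (Fin 2) (Fin 2) T)
    (hrel : Φ * (1 + n) = (1 + n) * (1 + n) * Φ) :
    Φ * n = (2 : T) • (n * Φ) + n * n * Φ := by
  have h1 : Φ * (1 + n) = Φ + Φ * n := by rw [mul_add, mul_one]
  have h2 : (1 + n) * (1 + n) * Φ = Φ + ((2 : T) • (n * Φ) + n * n * Φ) := by
    rw [two_smul]
    noncomm_ring
  rw [h1, h2] at hrel
  exact add_left_cancel hrel

/-- **the trace identity**: `det (1 + n) = 1` and `Φ (1 + n) = (1 + n)² Φ` force `(tr n) (tr Φ) = 0`. -/
theorem trace_mul_trace_eq_zero (n Φ : Matrix (Fin 2) (Fin 2) T) (hdet : (1 + n).det = 1)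
    (hrel : Φ * (1 + n) = (1 + n) * (1 + n) * Φ) : n.trace * Φ.trace = 0 := by
  set σ : Matrix (Fin 2) (Fin 2) T := 1 + n with hσ
  set t : T := σ.trace with ht
  have htn : n.trace = t - 2 := by
    rw [ht, hσ, Matrix.trace_add, Matrix.trace_one, Fintype.card_fin]
    push_cast
    ring
  -- `σ² = t σ - 1`
  have hsq : σ * σ = t • σ - 1 := by
    rw [cayley_fin_two, hdet, one_smul]
  set a : T := Φ.trace with ha
  set b : T := (Φ * σ).trace with hb
  -- `tr (Φ σ²) = t b - a`
  have h2 : (Φ * (σ * σ)).trace = t * b - a := by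
    rw [hsq, mul_sub, mul_one, Matrix.mul_smul, Matrix.trace_sub, Matrix.trace_smul, smul_eq_mul]
  -- `tr (Φ σ³) = (t² - 1) b - t a`
  have h3 : (Φ * (σ * (σ * σ))).trace = (t ^ 2 - 1) * b - t * a := by
    have : σ * (σ * σ) = (t ^ 2 - 1) • σ - t • (1 : Matrix (Fin 2) (Fin 2) T) := by
      rw [hsq, mul_sub, mul_one, Matrix.mul_smul, hsq, smul_sub, sub_smul, one_smul, smul_smul]
      rw [show t ^ 2 = t * t from sq t]
      abel
    rw [this, mul_sub, Matrix.mul_smul, Matrix.mul_smul, mul_one, Matrix.trace_sub,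
      Matrix.trace_smul, Matrix.trace_smul, smul_eq_mul, smul_eq_mul]
  -- (i) `b = tr (Φ σ²)`
  have e1 : b = t * b - a := by
    rw [← h2, hb, hrel, Matrix.trace_mul_comm]
  -- (ii) `tr (Φ σ²) = tr (Φ σ³)`
  have e2 : t * b - a = (t ^ 2 - 1) * b - t * a := by
    rw [← h2, ← h3]
    have h4 : σ * (Φ * σ) = σ * (σ * σ) * Φ := by
      rw [hrel]
      noncomm_ring
    calc (Φ * (σ * σ)).trace = ((Φ * σ) * σ).trace := by rw [mul_assoc]
      _ = (σ * (Φ * σ)).trace := Matrix.trace_mul_comm _ _
      _ = (σ * (σ * σ) * Φ).trace := by rw [h4]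
      _ = (Φ * (σ * (σ * σ))).trace := Matrix.trace_mul_comm _ _
  rw [htn]
  linear_combination (t ^ 2 - t - 1) * e1 - (t - 1) * e2

end MatrixIdentities

section Sign

variable {T : Type*} [CommRing T]
variable {X : Type*} [AddCommGroup X] [Module T X]

/-- a linear endomorphism acting componentwise on pairs -/
def compLin (U : X →ₗ[T] X) : (Fin 2 → X) →ₗ[T] (Fin 2 → X) where
  toFun v := fun i => U (v i)
  map_add' v w := by ext i; simp
  map_smul' c v := by ext i; simp

@[simp] theorem compLin_apply (U : X →ₗ[T] X) (v : Fin 2 → X) (i : Fin 2) :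
    compLin U v i = U (v i) := rfl

theorem actLin_mul (a b : Matrix (Fin 2) (Fin 2) T) :
    (actLin (Y := X) (a * b) : Module.End T (Fin 2 → X)) = actLin a * actLin b := by
  refine LinearMap.ext fun v => ?_
  rw [Module.End.mul_apply, actLin_apply, actLin_apply, actLin_apply, mul_smul]

/-- the relations in the endomorphism ring of `X²` that force the sign -/
theorem end_sign_relations {R : Type*} [Ring R] (P M V : R) (hPV : P * V = V * P)
    (hMV : M * V = V * M) (hPM : P * M = 2 * (M * P)) (hCH : P * P = 3 * (V * P) - 2)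
    (h6 : ∀ r : R, 6 * r = 0 → r = 0) : M * P = V * M ∧ V * (V * M) = M := by
  -- `P² M = 4 M P²`
  have h1 : P * P * M = 4 * (M * (P * P)) := by
    calc P * P * M = P * (P * M) := by rw [mul_assoc]
      _ = P * (2 * (M * P)) := by rw [hPM]
      _ = 2 * ((P * M) * P) := by noncomm_ring
      _ = 2 * ((2 * (M * P)) * P) := by rw [hPM]
      _ = 4 * (M * (P * P)) := by noncomm_ring
  rw [hCH] at h1
  have h2 : (3 * (V * P) - 2) * M = 6 * (V * M * P) - 2 * M := by
    calc (3 * (V * P) - 2) * M = 3 * (V * (P * M)) - 2 * M := by noncomm_ring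
      _ = 3 * (V * (2 * (M * P))) - 2 * M := by rw [hPM]
      _ = 6 * (V * M * P) - 2 * M := by noncomm_ring
  have h3 : 4 * (M * (3 * (V * P) - 2)) = 12 * (V * M * P) - 8 * M := by
    calc 4 * (M * (3 * (V * P) - 2)) = 12 * ((M * V) * P) - 8 * M := by noncomm_ring
      _ = 12 * (V * M * P) - 8 * M := by rw [hMV]
  rw [h2, h3] at h1
  have h4 : 6 * (V * M * P - M) = (12 * (V * M * P) - 8 * M) - (6 * (V * M * P) - 2 * M) := by
    noncomm_ring
  -- `V M P = M`
  have h5 : V * M * P = M := by
    have := h6 _ (by rw [h4, ← h1, sub_self])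
    exact sub_eq_zero.mp this
  -- `M P = V M`
  have h7 : M * P = V * M := by
    have h8 : V * M * (P * P) = M * P := by rw [← mul_assoc, h5]
    rw [hCH] at h8
    have h9 : V * M * (3 * (V * P) - 2) = 3 * (V * ((M * V) * P)) - 2 * (V * M) := by
      noncomm_ring
    rw [h9, hMV, h5] at h8
    rw [← h8]
    noncomm_ring
  refine ⟨h7, ?_⟩
  rw [← h7, ← mul_assoc, h5]

/-- **helper2's sign lemma.**  If `tr Φ = 3U` on `X`, then `Φ = 2U` on `im m` and `U² = 1`. -/
theorem sign_of_trace (m Φ : Matrix (Fin 2) (Fin 2) T) (U : X →ₗ[T] X)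
    (h2 : IsUnit (2 : T)) (h3 : ∀ x : X, (3 : T) • x = 0 → x = 0)
    (hsq : ∀ v : Fin 2 → X, m • (m • v) = 0) (hex : Exact2 m X)
    (hrel : ∀ v : Fin 2 → X, Φ • (m • v) = (2 : T) • (m • (Φ • v)))
    (hdet : ∀ x : X, Φ.det • x = (2 : T) • x)
    (htr : ∀ x : X, Φ.trace • x = (3 : T) • U x) :
    (∀ v : Fin 2 → X, Φ • (m • v) = (2 : T) • (fun i => U ((m • v) i))) ∧ ∀ x, U (U x) = x := by
  obtain ⟨c2, hc2⟩ := h2.exists_left_inv
  have h2' : ∀ w : Fin 2 → X, (2 : T) • w = 0 → w = 0 := by
    intro w hw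
    have := congrArg (fun w => c2 • w) hw
    simpa [smul_smul, hc2] using this
  have h3' : ∀ w : Fin 2 → X, (3 : T) • w = 0 → w = 0 := by
    intro w hw
    ext i
    exact h3 _ (by simpa using congrFun hw i)
  set P : Module.End T (Fin 2 → X) := actLin Φ with hP
  set M : Module.End T (Fin 2 → X) := actLin m with hM
  set V : Module.End T (Fin 2 → X) := compLin U with hV
  have e2 : ∀ w : Fin 2 → X, (2 : Module.End T (Fin 2 → X)) w = (2 : T) • w := by
    intro w
    rw [Module.End.ofNat_apply, ofNat_smul_eq_nsmul T]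
  have e3 : ∀ w : Fin 2 → X, (3 : Module.End T (Fin 2 → X)) w = (3 : T) • w := by
    intro w
    rw [Module.End.ofNat_apply, ofNat_smul_eq_nsmul T]
  have hPV : P * V = V * P := by
    refine LinearMap.ext fun v => ?_
    rw [Module.End.mul_apply, Module.End.mul_apply, hP, hV, actLin_apply, actLin_apply]
    exact mat_smul_comp U Φ v
  have hMV : M * V = V * M := by
    refine LinearMap.ext fun v => ?_
    rw [Module.End.mul_apply, Module.End.mul_apply, hM, hV, actLin_apply, actLin_apply]
    exact mat_smul_comp U m v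
  have hPM : P * M = 2 * (M * P) := by
    refine LinearMap.ext fun v => ?_
    rw [Module.End.mul_apply, Module.End.mul_apply, e2, Module.End.mul_apply, hP, hM,
      actLin_apply, actLin_apply, actLin_apply, actLin_apply, hrel]
  have hCH : P * P = 3 * (V * P) - 2 := by
    refine LinearMap.ext fun v => ?_
    rw [LinearMap.sub_apply, Module.End.mul_apply, Module.End.mul_apply, e3, e2,
      Module.End.mul_apply, hP, hV, actLin_apply, actLin_apply, ← mul_smul, cayley_fin_two,
      sub_smul, smul_assoc, smul_assoc, one_smul]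
    congr 1
    · ext i
      rw [Pi.smul_apply, Pi.smul_apply, compLin_apply, htr]
    · ext i
      rw [Pi.smul_apply, Pi.smul_apply, hdet]
  have h6 : ∀ r : Module.End T (Fin 2 → X), 6 * r = 0 → r = 0 := by
    intro r hr
    refine LinearMap.ext fun v => ?_
    have h := LinearMap.congr_fun hr v
    rw [Module.End.mul_apply, LinearMap.zero_apply] at h
    have h' : (2 : T) • ((3 : T) • r v) = 0 := by
      rw [smul_smul, ← h, Module.End.ofNat_apply, ← ofNat_smul_eq_nsmul T]
      norm_num
    rw [LinearMap.zero_apply]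
    exact h3' _ (h2' _ h')
  obtain ⟨hMP, hVVM⟩ := end_sign_relations P M V hPV hMV hPM hCH h6
  -- SIGN
  have hsign : ∀ v : Fin 2 → X, Φ • (m • v) = (2 : T) • (fun i => U ((m • v) i)) := by
    intro v
    have h := LinearMap.congr_fun hPM v
    rw [hMP, Module.End.mul_apply, Module.End.mul_apply, e2, Module.End.mul_apply] at h
    exact h
  refine ⟨hsign, ?_⟩
  -- `U² = 1` on `im m`
  have hUU : ∀ v : Fin 2 → X, (fun i => U (U ((m • v) i))) = m • v := by
    intro v
    have h := LinearMap.congr_fun hVVM v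
    rw [Module.End.mul_apply, Module.End.mul_apply] at h
    exact h
  intro x
  set z : X := U (U x) - x with hz
  -- `(z, 0)` and `(0, z)` lie in `ker m`
  have hker : ∀ j : Fin 2, m • (Pi.single j z : Fin 2 → X) = 0 := by
    intro j
    have h1 : (Pi.single j z : Fin 2 → X)
        = (fun i => U (U ((Pi.single j x : Fin 2 → X) i))) - Pi.single j x := by
      ext i
      by_cases hij : i = j
      · subst hij
        simp [hz]
      · simp [Pi.single_eq_of_ne hij]
    rw [h1, smul_sub]
    have h4 := mat_smul_comp U m (fun i => U ((Pi.single j x : Fin 2 → X) i))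
    have h5 := mat_smul_comp U m (Pi.single j x : Fin 2 → X)
    rw [h4]
    have h6 : (fun i => U ((m • fun i => U ((Pi.single j x : Fin 2 → X) i)) i))
        = fun i => U (U ((m • (Pi.single j x : Fin 2 → X)) i)) := by
      rw [h5]
    rw [h6, hUU, sub_self]
  -- hence `Φ (z e_j) = 2 U z e_j` and `U² z = z`
  have hz1 : ∀ j : Fin 2, Φ • (Pi.single j z : Fin 2 → X) = (2 : T) • Pi.single j (U z)
      ∧ U (U z) = z := by
    intro j
    obtain ⟨u, hu⟩ := hex _ (hker j)
    constructor
    · rw [hu, hsign, ← hu]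
      ext i
      by_cases hij : i = j
      · subst hij
        simp
      · simp [Pi.single_eq_of_ne hij]
    · have := congrFun (hUU u) j
      rw [← hu] at this
      simpa using this
  -- the trace
  have h00 : Φ 0 0 • z = (2 : T) • U z := by
    have := congrFun (hz1 0).1 0
    simpa [Matrix.Module.smul_apply, Fin.sum_univ_two] using this
  have h11 : Φ 1 1 • z = (2 : T) • U z := by
    have := congrFun (hz1 1).1 1
    simpa [Matrix.Module.smul_apply, Fin.sum_univ_two] using this
  have h7 : U z = 0 := by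
    have h8 := htr z
    rw [Matrix.trace_fin_two, add_smul, h00, h11] at h8
    have h9 : (3 : T) • U z = (4 : T) • U z := by
      rw [← h8, ← add_smul]
      norm_num
    have h10 : (1 : T) • U z = 0 := by
      have : (4 : T) • U z - (3 : T) • U z = 0 := by rw [h9, sub_self]
      rw [← sub_smul] at this
      norm_num at this
      simpa using this
    simpa using h10
  have h8 : z = 0 := by
    rw [← (hz1 0).2, h7, map_zero]
  rw [hz, sub_eq_zero] at h8
  exact h8

end Sign

section Core

variable {T : Type*} [CommRing T] [IsLocalRing T]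
variable {A X : Type*} [AddCommGroup A] [Module T A] [AddCommGroup X] [Module T X]

/-- **The abstract core of R7b.** -/
theorem subsingleton_of_core [IsNoetherian T X] (n Φ : Matrix (Fin 2) (Fin 2) T)
    (h3 : (3 : T) ∈ maximalIdeal T)
    (h3A : ∀ a : A, (3 : T) • a = 0 → a = 0) (h3X : ∀ x : X, (3 : T) • x = 0 → x = 0)
    (e : (A ⧸ ((3 : T) • (⊤ : Submodule T A))) ≃ₗ[T] (X ⧸ ((3 : T) • (⊤ : Submodule T X))))
    (hn : ∀ i j, n i j ∈ maximalIdeal T) (hdetn : (1 + n).det = 1) (hdetΦ : Φ.det = 2)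
    (hrel : Φ * (1 + n) = (1 + n) * (1 + n) * Φ)
    (htrA : ∀ a : A, (n.trace + 3) • a = 0) (htrX : ∀ x : X, n.trace • x = 0) :
    Subsingleton X := by
  -- `2` is a unit
  have h2 : IsUnit (2 : T) := by
    by_contra h
    have h' : (2 : T) ∈ maximalIdeal T := h
    have h1 : (3 : T) - 2 ∈ maximalIdeal T := Ideal.sub_mem _ h3 h'
    have h1' : (1 : T) ∈ maximalIdeal T := by
      have e1 : (3 : T) - 2 = 1 := by norm_num
      rwa [e1] at h1
    exact (Ideal.ne_top_iff_one _).mp (maximalIdeal.isMaximal T).ne_top h1'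
  have hjac : (3 : T) ∈ Ideal.jacobson (⊥ : Ideal T) := maximalIdeal_le_jacobson _ h3
  -- `det n = 3` on `A`
  have hdetA : ∀ a : A, (n.det - 3) • a = 0 := by
    intro a
    have h := htrA a
    rw [det_eq_neg_trace n hdetn]
    have e1 : -n.trace - 3 = -(n.trace + 3) := by ring
    rw [e1, neg_smul, h, neg_zero]
  -- COUNT
  have hA3 := exact2_quot_of_trace_det n (3 : T) h3A htrA hdetA
  have hX3 := hA3.of_linearEquiv e
  have hsqX : ∀ v : Fin 2 → X, n • (n • v) = 0 := by
    intro v
    rw [← mul_smul, sq_eq_trace_smul n hdetn, smul_assoc]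
    ext i
    rw [Pi.smul_apply, htrX, Pi.zero_apply]
  have hexX : Exact2 n X := exact2_of_quot n (3 : T) h3X hjac hsqX hX3
  -- `Φ n = 2 n Φ` on `X`
  have hrelX : ∀ v : Fin 2 → X, Φ • (n • v) = (2 : T) • (n • (Φ • v)) := by
    intro v
    rw [← mul_smul, mul_eq_of_tame n Φ hrel, add_smul, smul_assoc, mul_smul n Φ,
      mul_smul (n * n) Φ, mul_smul n n, hsqX, add_zero]
  -- `tr Φ` kills `A`
  have htrΦA : ∀ a : A, Φ.trace • a = 0 := by
    intro a
    have h := trace_mul_trace_eq_zero n Φ hdetn hrel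
    apply h3A
    have h1 := htrA (Φ.trace • a)
    rwa [add_smul, smul_smul, h, zero_smul, zero_add] at h1
  -- `tr Φ · X ⊆ 3 X`
  have hmem : ∀ x : X, ∃ y : X, Φ.trace • x = (3 : T) • y := by
    intro x
    obtain ⟨a, ha⟩ := Submodule.Quotient.mk_surjective _
      (e.symm (Submodule.Quotient.mk x))
    have h1 : (Submodule.Quotient.mk (Φ.trace • x) :
        X ⧸ ((3 : T) • (⊤ : Submodule T X))) = 0 := by
      rw [Submodule.Quotient.mk_smul, ← e.apply_symm_apply (Submodule.Quotient.mk x), ← ha,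
        ← map_smul, ← Submodule.Quotient.mk_smul, htrΦA, Submodule.Quotient.mk_zero, map_zero]
    rw [Submodule.Quotient.mk_eq_zero] at h1
    obtain ⟨y, -, hy⟩ := (Submodule.mem_smul_pointwise_iff_exists _ _ _).mp h1
    exact ⟨y, hy.symm⟩
  choose U₀ hU₀ using hmem
  have h3X' : ∀ x y : X, (3 : T) • x = (3 : T) • y → x = y := by
    intro x y hxy
    have := h3X (x - y) (by rw [smul_sub, hxy, sub_self])
    exact sub_eq_zero.mp this
  let U : X →ₗ[T] X :=
    { toFun := U₀
      map_add' := fun x y => by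
        apply h3X'
        rw [← hU₀, smul_add, smul_add, ← hU₀, ← hU₀]
      map_smul' := fun c x => by
        apply h3X'
        rw [RingHom.id_apply, ← hU₀, smul_comm (3 : T) c, ← hU₀, smul_comm] }
  have hU : ∀ x : X, Φ.trace • x = (3 : T) • U x := hU₀
  obtain ⟨hsign, hUU⟩ := sign_of_trace n Φ U h2 h3X hsqX hexX hrelX
    (fun x => by rw [hdetΦ]) hU
  exact subsingleton_of_mazur n Φ U h2 hn hexX hrelX hsign hUU
    (by rw [hdetΦ, sub_self]; exact zero_mem _)

/-- a surjection with kernel `c • ⊤` identifies the target with the quotient -/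
def quotSmulEquivOfSurjective {A Q : Type*} [AddCommGroup A] [Module T A] [AddCommGroup Q]
    [Module T Q] (c : T) (a : A →ₗ[T] Q) (ha : Function.Surjective a)
    (hka : ∀ y, a y = 0 ↔ ∃ y', c • y' = y) : (A ⧸ (c • (⊤ : Submodule T A))) ≃ₗ[T] Q :=
  (Submodule.quotEquivOfEq _ _ (by
    ext y
    rw [LinearMap.mem_ker, hka, Submodule.mem_smul_pointwise_iff_exists]
    constructor
    · rintro ⟨y', -, hy'⟩
      exact ⟨y', hy'⟩
    · rintro ⟨y', hy'⟩
      exact ⟨y', Submodule.mem_top, hy'⟩)).trans (a.quotKerEquivOfSurjective ha)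

/-- **The abstract core of R7b**, with the congruence given by two surjections onto a common module. -/
theorem subsingleton_of_core' [IsNoetherian T X] (n Φ : Matrix (Fin 2) (Fin 2) T)
    (h3 : (3 : T) ∈ maximalIdeal T)
    (h3A : ∀ a : A, (3 : T) • a = 0 → a = 0) (h3X : ∀ x : X, (3 : T) • x = 0 → x = 0)
    {Q : Type*} [AddCommGroup Q] [Module T Q] (a : A →ₗ[T] Q) (x : X →ₗ[T] Q)
    (ha : Function.Surjective a) (hx : Function.Surjective x)
    (hka : ∀ y, a y = 0 ↔ ∃ y', (3 : T) • y' = y) (hkx : ∀ y, x y = 0 ↔ ∃ y', (3 : T) • y' = y)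
    (hn : ∀ i j, n i j ∈ maximalIdeal T) (hdetn : (1 + n).det = 1) (hdetΦ : Φ.det = 2)
    (hrel : Φ * (1 + n) = (1 + n) * (1 + n) * Φ)
    (htrA : ∀ a : A, (n.trace + 3) • a = 0) (htrX : ∀ x : X, n.trace • x = 0) :
    Subsingleton X :=
  subsingleton_of_core n Φ h3 h3A h3X
    ((quotSmulEquivOfSurjective (3 : T) a ha hka).trans
      (quotSmulEquivOfSurjective (3 : T) x hx hkx).symm)
    hn hdetn hdetΦ hrel htrA htrX

end Core

end Fermat.Agent.S59lib.R7b
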