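/-
S59lib / R7b / Ring  (helper3) — Project I, item R7b (Mazur's principle at `q = 2` for `p = 3`).

**The Hecke ring of a localised module and the assembly of the core.**
`P` a commutative ring (for us `𝒪[X_I]`), `𝔪` a prime ideal, `R₀ = P_𝔪`, `Y` an `R₀`-module.
* `HRing 𝔪 Y := R₀ ⧸ Ann Y` : the image of `R₀` in `End Y`; a local ring if `Y ≠ 0`; every `R₀`-module `M` with
  `Ann Y ≤ Ann M` (submodules and quotients of `Y`, and their quotients) is a module over it (`hmodule`),
  and `P`-linear maps between such modules are linear over it (`hlin`).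
* `subsingleton_of_assembly` : the core (`R7b/Core`) for `T = HRing 𝔪 Y`, the matrices being the images under a ring
  homomorphism `β : T_h → HRing 𝔪 Y` of matrices over a ring `T_h` (the Hecke algebra carrying the Galois
  representation) in which the ring identities hold.
-/
import Mathlib
import Fermat.Agent.S59lib.R7b.Core

set_option autoImplicit false
set_option linter.unusedSectionVars false
set_option linter.unusedVariables false
set_option linter.style.haveILetI false

noncomputable section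

namespace Fermat.Agent.S59lib.R7b

open IsLocalRing

section HRing

variable {P : Type*} [CommRing P] (𝔪 : Ideal P) [𝔪.IsPrime]
variable (Y : Type*) [AddCommGroup Y] [Module (Localization.AtPrime 𝔪) Y]

/-- the Hecke ring of `Y`: the image of `P_𝔪` in `End Y` -/
abbrev HRing : Type _ :=
  Localization.AtPrime 𝔪 ⧸ Module.annihilator (Localization.AtPrime 𝔪) Y

/-- the quotient map -/
abbrev hmk : Localization.AtPrime 𝔪 →+* HRing 𝔪 Y :=
  Ideal.Quotient.mk (Module.annihilator (Localization.AtPrime 𝔪) Y)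

theorem hmk_surjective : Function.Surjective (hmk 𝔪 Y) := Ideal.Quotient.mk_surjective

theorem hmk_eq_zero_iff (r : Localization.AtPrime 𝔪) : hmk 𝔪 Y r = 0 ↔ ∀ y : Y, r • y = 0 := by
  rw [Ideal.Quotient.eq_zero_iff_mem, Module.mem_annihilator]

instance nontrivial_HRing [Nontrivial Y] : Nontrivial (HRing 𝔪 Y) := by
  refine Ideal.Quotient.nontrivial_iff.mpr ?_
  intro h
  obtain ⟨y, hy⟩ := exists_ne (0 : Y)
  have h1 : (1 : Localization.AtPrime 𝔪) ∈ Module.annihilator (Localization.AtPrime 𝔪) Y := by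
    rw [h]; exact Submodule.mem_top
  rw [Module.mem_annihilator] at h1
  exact hy (by simpa using h1 y)

instance isLocalRing_HRing [Nontrivial Y] : IsLocalRing (HRing 𝔪 Y) :=
  IsLocalRing.of_surjective' (hmk 𝔪 Y) (hmk_surjective 𝔪 Y)

/-- the image of the maximal ideal lies in the maximal ideal -/
theorem hmk_mem_maximalIdeal [Nontrivial Y] {r : Localization.AtPrime 𝔪}
    (hr : r ∈ maximalIdeal (Localization.AtPrime 𝔪)) : hmk 𝔪 Y r ∈ maximalIdeal (HRing 𝔪 Y) := by
  rw [mem_maximalIdeal, mem_nonunits_iff]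
  intro hu
  obtain ⟨s, hs⟩ := hu.exists_right_inv
  obtain ⟨s', rfl⟩ := hmk_surjective 𝔪 Y s
  rw [← map_mul, ← sub_eq_zero, ← map_one (hmk 𝔪 Y), ← map_sub,
    Ideal.Quotient.eq_zero_iff_mem] at hs
  have hle : Module.annihilator (Localization.AtPrime 𝔪) Y ≤
      maximalIdeal (Localization.AtPrime 𝔪) := by
    apply le_maximalIdeal
    intro h
    have h1 : (1 : Localization.AtPrime 𝔪) ∈ Module.annihilator (Localization.AtPrime 𝔪) Y := by
      rw [h]; exact Submodule.mem_top
    rw [Module.mem_annihilator] at h1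
    obtain ⟨y, hy⟩ := exists_ne (0 : Y)
    exact hy (by simpa using h1 y)
  have h2 := hle hs
  have h3 : r * s' ∈ maximalIdeal (Localization.AtPrime 𝔪) := Ideal.mul_mem_right _ _ hr
  have h4 : (1 : Localization.AtPrime 𝔪) ∈ maximalIdeal (Localization.AtPrime 𝔪) := by
    have := Ideal.sub_mem _ h3 h2
    simp at this
  exact (Ideal.ne_top_iff_one _).mp (maximalIdeal.isMaximal _).ne_top h4

/-- elements of `𝔪` go to the maximal ideal of the Hecke ring -/
theorem hmk_algebraMap_mem [Nontrivial Y] {s : P} (hs : s ∈ 𝔪) :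
    hmk 𝔪 Y (algebraMap P (Localization.AtPrime 𝔪) s) ∈ maximalIdeal (HRing 𝔪 Y) := by
  apply hmk_mem_maximalIdeal
  rw [← Localization.AtPrime.map_eq_maximalIdeal]
  exact Ideal.mem_map_of_mem _ hs

variable {Y}

/-- the module structure of an `R₀`-module killed by `Ann Y` -/
@[reducible] def hmodule {M : Type*} [AddCommGroup M] [Module (Localization.AtPrime 𝔪) M]
    (hM : ∀ r : Localization.AtPrime 𝔪, (∀ y : Y, r • y = 0) → ∀ m : M, r • m = 0) :
    Module (HRing 𝔪 Y) M :=
  Module.IsTorsionBySet.module (I := Module.annihilator (Localization.AtPrime 𝔪) Y)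
    (fun m r => hM r.1 (fun y => Module.mem_annihilator.mp r.2 y) m)

theorem hmk_smul {M : Type*} [AddCommGroup M] [Module (Localization.AtPrime 𝔪) M]
    (hM : ∀ r : Localization.AtPrime 𝔪, (∀ y : Y, r • y = 0) → ∀ m : M, r • m = 0)
    (r : Localization.AtPrime 𝔪) (m : M) :
    letI := hmodule 𝔪 hM
    hmk 𝔪 Y r • m = r • m := rfl

end HRing

/-! ### The assembly -/

section Assembly

open Matrix

variable {P : Type*} [CommRing P] (𝔪 : Ideal P) [𝔪.IsPrime]
variable {Y : Type*} [AddCommGroup Y] [Module P Y] [Module (Localization.AtPrime 𝔪) Y]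
  [IsScalarTower P (Localization.AtPrime 𝔪) Y]
variable {A : Type*} [AddCommGroup A] [Module P A] [Module (Localization.AtPrime 𝔪) A]
  [IsScalarTower P (Localization.AtPrime 𝔪) A]
variable {X : Type*} [AddCommGroup X] [Module P X] [Module (Localization.AtPrime 𝔪) X]
  [IsScalarTower P (Localization.AtPrime 𝔪) X]
variable {Q : Type*} [AddCommGroup Q] [Module P Q] [Module (Localization.AtPrime 𝔪) Q]
  [IsScalarTower P (Localization.AtPrime 𝔪) Q]

/-- a `P`-linear map of `P_𝔪`-modules is `P_𝔪`-linear -/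
theorem map_loc_smul {M N : Type*} [AddCommGroup M] [Module P M] [Module (Localization.AtPrime 𝔪) M]
    [IsScalarTower P (Localization.AtPrime 𝔪) M] [AddCommGroup N] [Module P N]
    [Module (Localization.AtPrime 𝔪) N] [IsScalarTower P (Localization.AtPrime 𝔪) N]
    (f : M →ₗ[P] N) (r : Localization.AtPrime 𝔪) (m : M) : f (r • m) = r • f m :=
  (LinearMap.extendScalarsOfIsLocalization 𝔪.primeCompl (Localization.AtPrime 𝔪) f).map_smul r m

/-- submodules of `Y` are killed by the annihilator of `Y` -/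
theorem ann_of_injective (j : A →ₗ[P] Y) (hj : Function.Injective j)
    (r : Localization.AtPrime 𝔪) (hr : ∀ y : Y, r • y = 0) (m : A) : r • m = 0 := by
  apply hj
  rw [map_loc_smul 𝔪 j, hr, map_zero]

/-- quotients of `Y` are killed by the annihilator of `Y` -/
theorem ann_of_surjective (π : Y →ₗ[P] X) (hπ : Function.Surjective π)
    (r : Localization.AtPrime 𝔪) (hr : ∀ y : Y, r • y = 0) (m : X) : r • m = 0 := by
  obtain ⟨y, rfl⟩ := hπ m
  rw [← map_loc_smul 𝔪 π, hr, map_zero]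

/-- a `P`-linear map is linear over the Hecke ring -/
def hlin {M N : Type*} [AddCommGroup M] [Module P M] [Module (Localization.AtPrime 𝔪) M]
    [IsScalarTower P (Localization.AtPrime 𝔪) M] [AddCommGroup N] [Module P N]
    [Module (Localization.AtPrime 𝔪) N] [IsScalarTower P (Localization.AtPrime 𝔪) N]
    (hM : ∀ r : Localization.AtPrime 𝔪, (∀ y : Y, r • y = 0) → ∀ m : M, r • m = 0)
    (hN : ∀ r : Localization.AtPrime 𝔪, (∀ y : Y, r • y = 0) → ∀ m : N, r • m = 0)
    (f : M →ₗ[P] N) :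
    letI := hmodule 𝔪 hM
    letI := hmodule 𝔪 hN
    M →ₗ[HRing 𝔪 Y] N :=
  letI := hmodule 𝔪 hM
  letI := hmodule 𝔪 hN
  { toFun := f
    map_add' := f.map_add
    map_smul' := by
      intro e m
      obtain ⟨r, rfl⟩ := hmk_surjective 𝔪 Y e
      exact map_loc_smul 𝔪 f r m }

/-- the action of a natural number through the Hecke ring -/
theorem hring_ofNat_smul {M : Type*} [AddCommGroup M] [Module P M]
    [Module (Localization.AtPrime 𝔪) M] [IsScalarTower P (Localization.AtPrime 𝔪) M]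
    (hM : ∀ r : Localization.AtPrime 𝔪, (∀ y : Y, r • y = 0) → ∀ m : M, r • m = 0) (m : M) :
    letI := hmodule 𝔪 hM
    (3 : HRing 𝔪 Y) • m = (3 : P) • m := by
  letI := hmodule 𝔪 hM
  have h1 : (3 : HRing 𝔪 Y) = hmk 𝔪 Y (algebraMap P (Localization.AtPrime 𝔪) 3) := by
    rw [map_ofNat, map_ofNat]
  rw [h1, hmk_smul, algebraMap_smul]

variable [Nontrivial Y]

/-- **The assembly of the core.**  `Y ⊇ A`, `Y ↠ X` modules over `P_𝔪` (`P`-linear maps), `A/3 ≃ X/3` through
surjections onto a common module; `T_h` a ring with a homomorphism `β` to the Hecke ring of `Y` and matrices `n`, `Φ`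
satisfying the tame relations; `tr n = -3` on `A`, `tr n = 0` on `X`.  Then `X = 0`. -/
theorem subsingleton_of_assembly [IsNoetherian P X]
    (j : A →ₗ[P] Y) (hj : Function.Injective j) (π : Y →ₗ[P] X) (hπ : Function.Surjective π)
    (h3 : (3 : P) ∈ 𝔪)
    (h3A : ∀ y : A, (3 : P) • y = 0 → y = 0) (h3X : ∀ y : X, (3 : P) • y = 0 → y = 0)
    (a : A →ₗ[P] Q) (x : X →ₗ[P] Q) (ha : Function.Surjective a) (hx : Function.Surjective x)
    (hka : ∀ y, a y = 0 ↔ ∃ y', (3 : P) • y' = y) (hkx : ∀ y, x y = 0 ↔ ∃ y', (3 : P) • y' = y)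
    {Th : Type*} [CommRing Th] (β : Th →+* HRing 𝔪 Y) (n Φ : Matrix (Fin 2) (Fin 2) Th)
    (hn : ∀ i j, β (n i j) ∈ maximalIdeal (HRing 𝔪 Y))
    (hdetn : (1 + n).det = 1) (hdetΦ : Φ.det = 2)
    (hrel : Φ * (1 + n) = (1 + n) * (1 + n) * Φ)
    (htrA : ∀ r : Localization.AtPrime 𝔪, hmk 𝔪 Y r = β (n.trace + 3) → ∀ y : A, r • y = 0)
    (htrX : ∀ r : Localization.AtPrime 𝔪, hmk 𝔪 Y r = β n.trace → ∀ y : X, r • y = 0) :
    Subsingleton X := by
  have hA := ann_of_injective 𝔪 j hj
  have hX := ann_of_surjective 𝔪 π hπ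
  have hQ : ∀ r : Localization.AtPrime 𝔪, (∀ y : Y, r • y = 0) → ∀ m : Q, r • m = 0 := by
    intro r hr m
    obtain ⟨y, rfl⟩ := ha m
    rw [← map_loc_smul 𝔪 a, hA r hr, map_zero]
  letI iA := hmodule 𝔪 hA
  letI iX := hmodule 𝔪 hX
  letI iQ := hmodule 𝔪 hQ
  -- noetherianity over the Hecke ring
  haveI : IsNoetherian (HRing 𝔪 Y) X := by
    haveI : IsScalarTower P (HRing 𝔪 Y) X := by
      refine ⟨fun p e m => ?_⟩
      obtain ⟨r, rfl⟩ := hmk_surjective 𝔪 Y e
      have h1 : p • hmk 𝔪 Y r = hmk 𝔪 Y (p • r) := rfl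
      rw [h1, hmk_smul, hmk_smul, smul_assoc]
    exact isNoetherian_of_tower P inferInstance
  -- the matrices
  set n' : Matrix (Fin 2) (Fin 2) (HRing 𝔪 Y) := n.map β with hn'
  set Φ' : Matrix (Fin 2) (Fin 2) (HRing 𝔪 Y) := Φ.map β with hΦ'
  have hmap1 : (1 + n).map β = 1 + n' := by
    rw [Matrix.map_add _ (map_add β), Matrix.map_one _ (map_zero β) (map_one β)]
  have hdetn' : (1 + n').det = 1 := by
    rw [← hmap1, ← RingHom.mapMatrix_apply, ← RingHom.map_det, hdetn, map_one]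
  have hdetΦ' : Φ'.det = 2 := by
    rw [hΦ', ← RingHom.mapMatrix_apply, ← RingHom.map_det, hdetΦ, map_ofNat]
  have hrel' : Φ' * (1 + n') = (1 + n') * (1 + n') * Φ' := by
    rw [← hmap1, hΦ', ← Matrix.map_mul, ← Matrix.map_mul, ← Matrix.map_mul, hrel]
  have htr' : n'.trace = β n.trace := by
    rw [hn', Matrix.trace_fin_two, Matrix.trace_fin_two, map_add]
    rfl
  have h3E : (3 : HRing 𝔪 Y) ∈ maximalIdeal (HRing 𝔪 Y) := by
    have h1 : (3 : HRing 𝔪 Y) = hmk 𝔪 Y (algebraMap P (Localization.AtPrime 𝔪) 3) := by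
      rw [map_ofNat, map_ofNat]
    rw [h1]
    exact hmk_algebraMap_mem 𝔪 Y h3
  refine subsingleton_of_core' (T := HRing 𝔪 Y) (A := A) (X := X) n' Φ' h3E ?_ ?_
    (hlin 𝔪 hA hQ a) (hlin 𝔪 hX hQ x) ha hx ?_ ?_ (fun i j => hn i j) hdetn' hdetΦ' hrel' ?_ ?_
  · intro y hy
    rw [hring_ofNat_smul 𝔪 hA] at hy
    exact h3A y hy
  · intro y hy
    rw [hring_ofNat_smul 𝔪 hX] at hy
    exact h3X y hy
  · intro y
    show a y = 0 ↔ _
    rw [hka y]
    constructor
    · rintro ⟨y', rfl⟩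
      exact ⟨y', hring_ofNat_smul 𝔪 hA y'⟩
    · rintro ⟨y', rfl⟩
      exact ⟨y', (hring_ofNat_smul 𝔪 hA y').symm⟩
  · intro y
    show x y = 0 ↔ _
    rw [hkx y]
    constructor
    · rintro ⟨y', rfl⟩
      exact ⟨y', hring_ofNat_smul 𝔪 hX y'⟩
    · rintro ⟨y', rfl⟩
      exact ⟨y', (hring_ofNat_smul 𝔪 hX y').symm⟩
  · intro y
    obtain ⟨r, hr⟩ := hmk_surjective 𝔪 Y (β (n.trace + 3))
    have h1 : n'.trace + 3 = hmk 𝔪 Y r := by
      rw [hr, htr', map_add, map_ofNat]
    rw [h1, hmk_smul]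
    exact htrA r hr y
  · intro y
    obtain ⟨r, hr⟩ := hmk_surjective 𝔪 Y (β n.trace)
    rw [htr', ← hr, hmk_smul]
    exact htrX r hr y

end Assembly

end Fermat.Agent.S59lib.R7b
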