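/-
S59lib / R7b / Sh  (helper3) — Project I, item R7b.

**Shapiro's isomorphisms with plain coefficients.**  `R` any commutative ring, `M` odd, `sys2 p hM` the Hecke
system on `Γ₀(M)` over `G2 = SL₂(𝔽₂)`:

* `shF4 : H¹(Γ₀(M), Fun(G2, R)) ≃ H¹(Γ₀(4 M), R)`   (values in `H1 (levelPi χ) R (Reg G' R)`, `G'` trivial),
* `shF2 : H¹(Γ₀(M), Fun(X2, R)) ≃ H¹(Γ₀(2 M), R)`,

bijective and compatible with the operators `T_ℓ` (`ℓ ∤ 2 p M`).
-/
import Fermat.Agent.S59lib.S3Proj.Transfer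

set_option autoImplicit false
set_option linter.unusedSectionVars false
set_option linter.unusedVariables false
set_option linter.style.haveILetI false

noncomputable section

namespace Fermat.Agent.S59lib.R7b

open CongruenceSubgroup Fermat.Agent.S43lib.B1 Fermat.Agent.S59lib.S3Proj MvPolynomial
open Fermat.Agent.S31lib.PET
open scoped MatrixGroups

local notation "𝟙" => (1 : G2 →* ℤˣ)

variable (R : Type) [CommRing R] (p : ℕ) {M : ℕ} [NeZero M] (hM : Odd M)
variable {G' : Type} [CommGroup G'] [Subsingleton G']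

/-- constants, as an equivariant map of coefficients -/
theorem cstEquivar (X : Type) [MulAction G2 X] :
    IsEquivar G2 (mapCoef 𝟙 X R (cstReg G' R)) := isEquivar_mapCoef 𝟙 X R _

theorem evlEquivar (X : Type) [MulAction G2 X] :
    IsEquivar G2 (mapCoef 𝟙 X R (evlReg G' R)) := isEquivar_mapCoef 𝟙 X R _

theorem evl_cst (X : Type) [MulAction G2 X] (w : FunTw 𝟙 X R) :
    mapCoef 𝟙 X R (evlReg G' R) (mapCoef 𝟙 X R (cstReg G' R) w) = w := by
  apply FunTw.ext
  intro x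
  rfl

theorem cst_evl (X : Type) [MulAction G2 X] (w : FunTw 𝟙 X (Reg G' R)) :
    mapCoef 𝟙 X R (cstReg G' R) (mapCoef 𝟙 X R (evlReg G' R) w) = w := by
  apply FunTw.ext
  intro x
  exact cstReg_evlReg G' R (w x)

/-! ### level `4 M` -/

include hM in
theorem sh4_inj (A : Type) [AddCommGroup A] [Module R A] [DistribMulAction G' A]
    [SMulCommClass G' R A] (χ : (ZMod (M * 4))ˣ →* G') :
    Function.Injective (sh4 (M := M) R A χ) :=
  shH_injective (pi2 M) (levelPi χ) (kap M) G2 1 R A (unit_smul_eq A) stab4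
    (fun x => by
      obtain ⟨γ, hγ⟩ := pi2_surjective M hM x
      exact ⟨γ, by rw [hγ, smul_eq_mul, mul_one]⟩)
    (im4 hM)

/-- Shapiro's map to the level `4 M`, plain coefficients -/
def shF4 (χ : (ZMod (M * 4))ˣ →* G') :
    (sys2 p hM).Coh R (FunTw 𝟙 G2 R) →ₗ[R] H1 (levelPi χ) R (Reg G' R) :=
  (sh4 (M := M) R (Reg G' R) χ).comp
    (((sys2 p hM).map (mapCoef 𝟙 G2 R (cstReg G' R)) (cstEquivar R G2)).restrictScalars R)

theorem shF4_apply (χ : (ZMod (M * 4))ˣ →* G') (y : (sys2 p hM).Coh R (FunTw 𝟙 G2 R)) :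
    shF4 R p hM χ y = sh4 (M := M) R (Reg G' R) χ
      ((sys2 p hM).map (mapCoef 𝟙 G2 R (cstReg G' R)) (cstEquivar R G2) y) := rfl

theorem shF4_T (χ : (ZMod (M * 4))ˣ →* G') (i : I2 p M)
    (y : (sys2 p hM).Coh R (FunTw 𝟙 G2 R)) :
    shF4 R p hM χ ((sys2 p hM).T R (FunTw 𝟙 G2 R) i y) =
      lvlOp χ R (Reg G' R) (Sum.inl (Sum.inl ⟨i.1, i.2.1, i.not_dvd_four⟩)) (shF4 R p hM χ y) := by
  rw [shF4_apply, shF4_apply, ← HeckeSys.X_smul, map_smul, HeckeSys.X_smul]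
  exact sh4_T hM R (Reg G' R) χ i _

theorem shF4_injective (χ : (ZMod (M * 4))ˣ →* G') : Function.Injective (shF4 R p hM χ) := by
  intro y y' h
  rw [shF4_apply, shF4_apply] at h
  have h1 := sh4_inj R hM (Reg G' R) χ h
  have h2 := congrArg ((sys2 p hM).map (mapCoef 𝟙 G2 R (evlReg G' R)) (evlEquivar R G2)) h1
  rw [map_leftInverse (sys2 p hM) (cstEquivar R G2) (evlEquivar R G2) (evl_cst R G2),
    map_leftInverse (sys2 p hM) (cstEquivar R G2) (evlEquivar R G2) (evl_cst R G2)] at h2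
  exact h2

theorem shF4_surjective (χ : (ZMod (M * 4))ˣ →* G') : Function.Surjective (shF4 R p hM χ) := by
  intro z
  obtain ⟨y', hy'⟩ := sh4_surjective hM R (Reg G' R) χ z
  refine ⟨(sys2 p hM).map (mapCoef 𝟙 G2 R (evlReg G' R)) (evlEquivar R G2) y', ?_⟩
  rw [shF4_apply,
    map_leftInverse (sys2 p hM) (evlEquivar R G2) (cstEquivar R G2) (cst_evl R G2) y']
  exact hy'

/-! ### level `2 M` -/

include hM in
theorem sh2_surj (A : Type) [AddCommGroup A] [Module R A] [DistribMulAction G' A]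
    [SMulCommClass G' R A] (χ : (ZMod (M * 2))ˣ →* G') :
    Function.Surjective (sh2 (M := M) R A χ) :=
  shH_surjective (pi2 M) (levelPi χ) (inclMul M 2) X2 e1 R A (unit_smul_eq A) stab2
    (fun x => by
      obtain ⟨g, hg⟩ := X2_trans x
      obtain ⟨γ, hγ⟩ := pi2_surjective M hM g
      exact ⟨γ, by rw [hγ, hg]⟩)
    (im2 hM) inj2

/-- Shapiro's map to the level `2 M`, plain coefficients -/
def shF2 (χ : (ZMod (M * 2))ˣ →* G') :
    (sys2 p hM).Coh R (FunTw 𝟙 X2 R) →ₗ[R] H1 (levelPi χ) R (Reg G' R) :=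
  (sh2 (M := M) R (Reg G' R) χ).comp
    (((sys2 p hM).map (mapCoef 𝟙 X2 R (cstReg G' R)) (cstEquivar R X2)).restrictScalars R)

theorem shF2_apply (χ : (ZMod (M * 2))ˣ →* G') (y : (sys2 p hM).Coh R (FunTw 𝟙 X2 R)) :
    shF2 R p hM χ y = sh2 (M := M) R (Reg G' R) χ
      ((sys2 p hM).map (mapCoef 𝟙 X2 R (cstReg G' R)) (cstEquivar R X2) y) := rfl

theorem shF2_T (χ : (ZMod (M * 2))ˣ →* G') (i : I2 p M)
    (y : (sys2 p hM).Coh R (FunTw 𝟙 X2 R)) :
    shF2 R p hM χ ((sys2 p hM).T R (FunTw 𝟙 X2 R) i y) =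
      lvlOp χ R (Reg G' R) (Sum.inl (Sum.inl ⟨i.1, i.2.1, i.2.2.1⟩)) (shF2 R p hM χ y) := by
  rw [shF2_apply, shF2_apply, ← HeckeSys.X_smul, map_smul, HeckeSys.X_smul]
  exact sh2_T hM R (Reg G' R) χ i _

theorem shF2_injective (χ : (ZMod (M * 2))ˣ →* G') : Function.Injective (shF2 R p hM χ) := by
  intro y y' h
  rw [shF2_apply, shF2_apply] at h
  have h1 := sh2_injective hM R (Reg G' R) χ h
  have h2 := congrArg ((sys2 p hM).map (mapCoef 𝟙 X2 R (evlReg G' R)) (evlEquivar R X2)) h1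
  rw [map_leftInverse (sys2 p hM) (cstEquivar R X2) (evlEquivar R X2) (evl_cst R X2),
    map_leftInverse (sys2 p hM) (cstEquivar R X2) (evlEquivar R X2) (evl_cst R X2)] at h2
  exact h2

theorem shF2_surjective (χ : (ZMod (M * 2))ˣ →* G') : Function.Surjective (shF2 R p hM χ) := by
  intro z
  obtain ⟨y', hy'⟩ := sh2_surj R hM (Reg G' R) χ z
  refine ⟨(sys2 p hM).map (mapCoef 𝟙 X2 R (evlReg G' R)) (evlEquivar R X2) y', ?_⟩
  rw [shF2_apply,
    map_leftInverse (sys2 p hM) (evlEquivar R X2) (cstEquivar R X2) (cst_evl R X2) y']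
  exact hy'

end Fermat.Agent.S59lib.R7b
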