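/-
S59lib / R7b / Beta  (helper3) — Project I, item R7b.

**The Hecke algebra of level `4 N` acts on `Y = H¹(Γ₀(N), Fun(G2, 𝒪))_𝔪`.**
`N` odd, `S ∋ 3` containing the primes of `4 N`, `θ : 𝕋(4N)^S → k` with `θ(T_ℓ) = t ℓ`, `𝔪 = ker (ev2 t)` a
non-Eisenstein maximal ideal of `𝒪[X_ℓ : ℓ ∤ 6N]` (`ℓ₀ ≡ 1 mod 4N`, `t ℓ₀ ≠ 1 + ℓ₀`).  Then there is an `𝒪`-algebra
homomorphism `β : heckeLocal (N * 4) S 𝒪 θ → HRing 𝔪 Y` with `β (π T_ℓ) = X_ℓ`
(`exists_beta`; relations by helper5's `bridge_H1_triv` through Shapiro's isomorphism `shF4`).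
-/
import Fermat.Agent.S59lib.R7b.Ring
import Fermat.Agent.S59lib.R7b.Sh
import Fermat.Agent.S43lib.B2.Bridge.Lift
import Fermat.Agent.S43lib.B2.Bridge.ToB1Triv

set_option autoImplicit false
set_option linter.unusedSectionVars false
set_option linter.unusedVariables false
set_option linter.style.haveILetI false

noncomputable section

namespace Fermat.Agent.S59lib.R7b

open CongruenceSubgroup CuspForm IsLocalRing MvPolynomial
open Fermat.Agent.S43lib.B1 Fermat.Agent.S43lib.B2 Fermat.Agent.S43lib.B2.Bridge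
open Fermat.Agent.S59lib.S3Proj
open scoped MatrixGroups

local notation "𝟙" => (1 : G2 →* ℤˣ)

/-! ### generalities -/

/-- a ring homomorphism from a local ring to a local ring with finite residue field is local -/
theorem isLocalHom_of_finite_residue {R A : Type*} [CommRing R] [IsLocalRing R] [CommRing A]
    [IsLocalRing A] [Finite (ResidueField A)] (f : R →+* A) : IsLocalHom f := by
  refine ⟨fun r hu => ?_⟩
  by_contra hr
  have hrm : r ∈ maximalIdeal R := (mem_maximalIdeal _).2 hr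
  have hne : residue A (f r) ≠ 0 := by
    rw [Ne, residue_eq_zero_iff]
    exact fun h => (mem_maximalIdeal _).1 h hu
  haveI : Fintype (ResidueField A) := Fintype.ofFinite _
  have hpow : (residue A (f r)) ^ (Fintype.card (ResidueField A) - 1) = 1 :=
    FiniteField.pow_card_sub_one_eq_one _ hne
  set n := Fintype.card (ResidueField A) - 1 with hn
  have hn0 : n ≠ 0 := by
    have := Fintype.one_lt_card (α := ResidueField A)
    omega
  have h1 : IsUnit (1 - r ^ n) := by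
    have hrn : r ^ n ∈ maximalIdeal R := Ideal.pow_mem_of_mem _ hrm n (Nat.pos_of_ne_zero hn0)
    by_contra h
    have h2 : 1 - r ^ n ∈ maximalIdeal R := (mem_maximalIdeal _).2 h
    have h3 : (1 : R) ∈ maximalIdeal R := by
      have : (1 : R) = (1 - r ^ n) + r ^ n := by ring
      rw [this]
      exact Ideal.add_mem _ h2 hrn
    exact (Ideal.ne_top_iff_one _).1 (maximalIdeal.isMaximal R).ne_top h3
  have h2 : IsUnit (f (1 - r ^ n)) := h1.map f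
  have h3 : residue A (f (1 - r ^ n)) = 0 := by
    rw [map_sub, map_sub, map_one, map_one, map_pow, map_pow, hpow, sub_self]
  rw [residue_eq_zero_iff] at h3
  exact (mem_maximalIdeal _).1 h3 h2

theorem isAddTorsionFree_reg (G' : Type) (𝒪 : Type) [CommRing 𝒪] [IsDomain 𝒪] [CharZero 𝒪] :
    IsAddTorsionFree (Reg G' 𝒪) := by
  refine ⟨fun n hn f g h => ?_⟩
  apply Reg.ext
  intro x
  have h1 : n • f x = n • g x := congrArg (fun F : Reg G' 𝒪 => F x) h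
  rw [nsmul_eq_mul, nsmul_eq_mul] at h1
  exact mul_left_cancel₀ (Nat.cast_ne_zero.mpr hn) h1

/-! ### the polynomial of a noncommutative polynomial in the Hecke operators -/

section poly

variable {N : ℕ} [NeZero N] (hN : Odd N) {S : Set ℕ} (h3S : 3 ∈ S)

/-- the index of a good prime of level `4 N` -/
def goodToI2 (ℓ : GoodPrime (N * 4) S) : I2 3 N :=
  ⟨ℓ.1, ℓ.2.1, fun h => ℓ.2.2.1 (h.trans (Nat.mul_dvd_mul_left N (by norm_num : 2 ∣ 4))),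
    fun h => ℓ.2.2.2 (h ▸ h3S)⟩

variable (𝒪 : Type) [CommRing 𝒪]

/-- `P ↦ P(X_ℓ)` -/
def qPoly : FreeAlgebra ℤ (GoodPrime (N * 4) S) →ₐ[ℤ] MvPolynomial (I2 3 N) 𝒪 :=
  FreeAlgebra.lift ℤ (fun ℓ => (X (goodToI2 h3S ℓ) : MvPolynomial (I2 3 N) 𝒪))

variable {𝒪}
variable (W : Type) [AddCommGroup W] [Module 𝒪 W] [DistribMulAction G2 W] [SMulCommClass G2 𝒪 W]

/-- the operators `T_ℓ` of `sys2` as `ℤ`-linear maps -/
def tZ (ℓ : GoodPrime (N * 4) S) : Module.End ℤ ((sys2 3 hN).Coh 𝒪 W) :=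
  ((sys2 3 hN).T 𝒪 W (goodToI2 h3S ℓ)).toAddMonoidHom.toIntLinearMap

theorem qPoly_smul (P : FreeAlgebra ℤ (GoodPrime (N * 4) S)) (x : (sys2 3 hN).Coh 𝒪 W) :
    qPoly h3S 𝒪 P • x = FreeAlgebra.lift ℤ (tZ hN h3S W) P x := by
  induction P using FreeAlgebra.induction generalizing x with
  | grade0 r =>
    rw [AlgHom.commutes, AlgHom.commutes, Module.algebraMap_end_apply]
    have h1 : (algebraMap ℤ (MvPolynomial (I2 3 N) 𝒪) r) = C ((r : ℤ) : 𝒪) := by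
      rw [eq_intCast, map_intCast]
    rw [h1, HeckeSys.C_smul, Int.cast_smul_eq_zsmul]
  | grade1 ℓ =>
    unfold qPoly
    rw [FreeAlgebra.lift_ι_apply, FreeAlgebra.lift_ι_apply, HeckeSys.X_smul]
    rfl
  | mul P Q hP hQ =>
    rw [map_mul, map_mul, mul_smul, Module.End.mul_apply, hQ, hP]
  | add P Q hP hQ =>
    rw [map_add, map_add, add_smul, LinearMap.add_apply, hP, hQ]

end poly

/-! ### the relations -/

section rel

variable {𝒪 : Type} [CommRing 𝒪] [IsDomain 𝒪] [CharZero 𝒪]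
variable {N : ℕ} [NeZero N] (hN : Odd N) [NeZero (N * 4)] {S : Set ℕ} (h3S : 3 ∈ S)
variable {G' : Type} [CommGroup G'] [Subsingleton G']

/-- **the relations of the Hecke algebra of level `4 N` hold on `(T_{ℓ₀} - 1 - ℓ₀) H¹(Γ₀(N), Fun(G2, 𝒪))`** -/
theorem qPoly_smul_eq_zero (χ : (ZMod (N * 4))ˣ →* G')
    (P : FreeAlgebra ℤ (GoodPrime (N * 4) S))
    (hP : (evalForms P : ↥(CuspForm.heckeAlgebra (N * 4) 2 S)) = 0)
    (ℓ₀ : GoodPrime (N * 4) S) (h1 : ((N * 4 : ℕ) : ℤ) ∣ (ℓ₀.1 : ℤ) - 1)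
    (x : (sys2 3 hN).Coh 𝒪 (FunTw 𝟙 G2 𝒪)) :
    qPoly h3S 𝒪 P • ((X (goodToI2 h3S ℓ₀) - C ((1 + ℓ₀.1 : ℕ) : 𝒪) : MvPolynomial (I2 3 N) 𝒪) • x) = 0 := by
  haveI : Fact ℓ₀.1.Prime := ⟨ℓ₀.2.1⟩
  haveI := isAddTorsionFree_reg G' 𝒪
  apply shF4_injective 𝒪 3 hN χ
  rw [map_zero, qPoly_smul hN h3S]
  -- intertwine
  have hint : ∀ (ℓ : GoodPrime (N * 4) S) (v : (sys2 3 hN).Coh 𝒪 (FunTw 𝟙 G2 𝒪)),
      (shF4 𝒪 3 hN χ).toAddMonoidHom (tZ hN h3S (FunTw 𝟙 G2 𝒪) ℓ v) =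
        heckeHOp₀ χ 𝒪 (Reg G' 𝒪) ℓ ((shF4 𝒪 3 hN χ).toAddMonoidHom v) := by
    intro ℓ v
    haveI : Fact ℓ.1.Prime := ⟨ℓ.2.1⟩
    show shF4 𝒪 3 hN χ ((sys2 3 hN).T 𝒪 (FunTw 𝟙 G2 𝒪) (goodToI2 h3S ℓ) v) = _
    rw [shF4_T]
    show heckeH 𝒪 (Reg G' 𝒪) _ _ = heckeH 𝒪 (Reg G' 𝒪) (nData_equi₀ (χ := χ) ℓ.2.2.1) _
    congr!
  have h2 := lift_intertwine (tZ hN h3S (FunTw 𝟙 G2 𝒪)) (heckeHOp₀ χ 𝒪 (Reg G' 𝒪))
    (shF4 𝒪 3 hN χ).toAddMonoidHom hint P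
    ((X (goodToI2 h3S ℓ₀) - C ((1 + ℓ₀.1 : ℕ) : 𝒪) : MvPolynomial (I2 3 N) 𝒪) • x)
  have h3 : (shF4 𝒪 3 hN χ)
      ((X (goodToI2 h3S ℓ₀) - C ((1 + ℓ₀.1 : ℕ) : 𝒪) : MvPolynomial (I2 3 N) 𝒪) • x) =
      heckeH 𝒪 (Reg G' 𝒪) (nData_equi₀ (χ := χ) ℓ₀.2.2.1) (shF4 𝒪 3 hN χ x) -
        (1 + ℓ₀.1) • shF4 𝒪 3 hN χ x := by
    rw [sub_smul, HeckeSys.X_smul, HeckeSys.C_smul, map_sub, shF4_T, map_smul,
      Nat.cast_smul_eq_nsmul]
    congr 1
  have h4 := bridge_H1_triv (χ := χ) (R := 𝒪) (W := Reg G' 𝒪) (unit_smul_eq (Reg G' 𝒪)) P hP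
    ℓ₀.2.2.1 h1 (shF4 𝒪 3 hN χ x)
  show (shF4 𝒪 3 hN χ).toAddMonoidHom _ = 0
  rw [h2]
  show FreeAlgebra.lift ℤ (heckeHOp₀ χ 𝒪 (Reg G' 𝒪)) P (shF4 𝒪 3 hN χ _) = 0
  rw [h3]
  exact h4

end rel

/-! ### the residue field of the Hecke ring -/

section resfield

variable {P : Type*} [CommRing P] (𝔪 : Ideal P) [h𝔪 : 𝔪.IsMaximal]
variable (Y : Type*) [AddCommGroup Y] [Module (Localization.AtPrime 𝔪) Y] [Nontrivial Y]

/-- the residue field of the Hecke ring is a quotient of `P ⧸ 𝔪` -/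
theorem exists_residue_HRing (e : HRing 𝔪 Y) :
    ∃ p s : P, s ∉ 𝔪 ∧
      residue (HRing 𝔪 Y) e * residue (HRing 𝔪 Y) (hmk 𝔪 Y (algebraMap P _ s)) =
        residue (HRing 𝔪 Y) (hmk 𝔪 Y (algebraMap P _ p)) := by
  obtain ⟨r, rfl⟩ := hmk_surjective 𝔪 Y e
  obtain ⟨p, s, rfl⟩ := IsLocalization.exists_mk'_eq 𝔪.primeCompl r
  refine ⟨p, s.1, s.2, ?_⟩
  rw [← map_mul, ← map_mul, IsLocalization.mk'_spec]

theorem finite_residueField_HRing [Finite (P ⧸ 𝔪)] : Finite (ResidueField (HRing 𝔪 Y)) := by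
  letI : Field (P ⧸ 𝔪) := Ideal.Quotient.field 𝔪
  let φ : P →+* ResidueField (HRing 𝔪 Y) :=
    (residue (HRing 𝔪 Y)).comp ((hmk 𝔪 Y).comp (algebraMap P (Localization.AtPrime 𝔪)))
  have hφ : ∀ s ∈ 𝔪, φ s = 0 := by
    intro s hs
    show residue (HRing 𝔪 Y) (hmk 𝔪 Y (algebraMap P _ s)) = 0
    rw [residue_eq_zero_iff]
    exact hmk_algebraMap_mem 𝔪 Y hs
  let φ' : P ⧸ 𝔪 →+* ResidueField (HRing 𝔪 Y) := Ideal.Quotient.lift 𝔪 φ hφ
  have hsurj : Function.Surjective φ' := by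
    intro z
    obtain ⟨e, rfl⟩ := residue_surjective z
    obtain ⟨p, s, hs, hps⟩ := exists_residue_HRing 𝔪 Y e
    have hs0 : (Ideal.Quotient.mk 𝔪 s) ≠ 0 := by
      rw [Ne, Ideal.Quotient.eq_zero_iff_mem]
      exact hs
    refine ⟨Ideal.Quotient.mk 𝔪 p / Ideal.Quotient.mk 𝔪 s, ?_⟩
    rw [map_div₀]
    have h1 : φ' (Ideal.Quotient.mk 𝔪 s) ≠ 0 := (map_ne_zero φ').mpr hs0
    rw [div_eq_iff h1]
    exact hps.symm
  exact Finite.of_surjective φ' hsurj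

end resfield

/-! ### the homomorphism `β` -/

section beta

variable {𝒪 : Type} [CommRing 𝒪] [IsDomain 𝒪] [IsDiscreteValuationRing 𝒪]
  [IsAdicComplete (maximalIdeal 𝒪) 𝒪] [CharZero 𝒪] [Finite (ResidueField 𝒪)]
variable {N : ℕ} [NeZero N] (hN : Odd N) [NeZero (N * 4)] {S : Set ℕ} (h3S : 3 ∈ S)
variable (t : ℕ → ResidueField 𝒪)

instance finite_quot_ker_ev2 : Finite (MvPolynomial (I2 3 N) 𝒪 ⧸ RingHom.ker (ev2 3 (M := N) t)) :=
  Finite.of_equiv _ (RingHom.quotientKerEquivOfSurjective (ev2_surjective 3 t)).symm.toEquiv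

variable [hY : Nontrivial ((sys2 3 hN).F 𝒪 (FunTw 𝟙 G2 𝒪) (RingHom.ker (ev2 3 (M := N) t)))]

/-- the Hecke ring of `Y = H¹(Γ₀(N), Fun(G2, 𝒪))_𝔪` -/
abbrev EY : Type := HRing (RingHom.ker (ev2 3 (M := N) t))
  ((sys2 3 hN).F 𝒪 (FunTw 𝟙 G2 𝒪) (RingHom.ker (ev2 3 (M := N) t)))

instance finite_residueField_EY : Finite (ResidueField (EY hN t)) :=
  finite_residueField_HRing _ _

instance isLocalHom_algebraMap_EY : IsLocalHom (algebraMap 𝒪 (EY hN t)) :=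
  isLocalHom_of_finite_residue _

/-- the image of the variable `X_i` in the Hecke ring -/
def xE (i : I2 3 N) : EY hN t :=
  hmk _ _ (algebraMap (MvPolynomial (I2 3 N) 𝒪) (Localization.AtPrime (RingHom.ker (ev2 3 (M := N) t)))
    (X i))

/-- the image of a polynomial in the Hecke ring -/
def polyE : MvPolynomial (I2 3 N) 𝒪 →+* EY hN t :=
  (hmk _ _).comp (algebraMap (MvPolynomial (I2 3 N) 𝒪)
    (Localization.AtPrime (RingHom.ker (ev2 3 (M := N) t))))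

theorem polyE_X (i : I2 3 N) : polyE hN t (X i) = xE hN t i := rfl

theorem polyE_C (a : 𝒪) : polyE hN t (C a) = algebraMap 𝒪 (EY hN t) a := by
  show hmk _ _ (algebraMap _ _ (C a)) = _
  rw [← MvPolynomial.algebraMap_eq, ← IsScalarTower.algebraMap_apply]
  rfl

theorem polyE_eq_zero_iff (q : MvPolynomial (I2 3 N) 𝒪) :
    polyE hN t q = 0 ↔
      ∀ y : (sys2 3 hN).F 𝒪 (FunTw 𝟙 G2 𝒪) (RingHom.ker (ev2 3 (M := N) t)), q • y = 0 := by
  show hmk _ _ (algebraMap _ _ q) = 0 ↔ _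
  rw [hmk_eq_zero_iff]
  constructor
  · intro h y
    rw [← h y, algebraMap_smul]
  · intro h y
    rw [algebraMap_smul]
    exact h y

theorem polyE_mem_maximalIdeal {q : MvPolynomial (I2 3 N) 𝒪} (hq : q ∈ RingHom.ker (ev2 3 (M := N) t)) :
    polyE hN t q ∈ maximalIdeal (EY hN t) :=
  hmk_algebraMap_mem _ _ hq

omit [IsDomain 𝒪] [IsDiscreteValuationRing 𝒪] [IsAdicComplete (maximalIdeal 𝒪) 𝒪] [CharZero 𝒪]
  [Finite (ResidueField 𝒪)] [NeZero (N * 4)] hY in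
theorem lift_poly {E : Type*} [CommRing E] (f : MvPolynomial (I2 3 N) 𝒪 →+* E)
    (P : FreeAlgebra ℤ (GoodPrime (N * 4) S)) :
    FreeAlgebra.lift ℤ (fun ℓ => f (X (goodToI2 h3S ℓ))) P = f (qPoly h3S 𝒪 P) := by
  induction P using FreeAlgebra.induction with
  | grade0 r => rw [AlgHom.commutes, AlgHom.commutes, eq_intCast, eq_intCast, map_intCast]
  | grade1 ℓ =>
    unfold qPoly
    rw [FreeAlgebra.lift_ι_apply, FreeAlgebra.lift_ι_apply]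
  | mul P Q hP hQ => rw [map_mul, map_mul, map_mul, hP, hQ]
  | add P Q hP hQ => rw [map_add, map_add, map_add, hP, hQ]

/-- **the homomorphism `β`** from the localised Hecke algebra of level `4 N` to the Hecke ring of `Y` -/
theorem exists_beta [hint : Fact (HasIntegralStructure (N * 4) 2)]
    (hS : ∀ q : ℕ, q.Prime → q ∣ N * 4 → q ∈ S)
    (θ : CuspForm.heckeAlgebra (N * 4) 2 S →+* ResidueField 𝒪)
    (hθ : ∀ ℓ : GoodPrime (N * 4) S, θ (heckeAlgebra.T ℓ.2.1 ℓ.2.2.1 ℓ.2.2.2) = t ℓ.1)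
    (ℓ₀ : GoodPrime (N * 4) S) (h1 : ((N * 4 : ℕ) : ℤ) ∣ (ℓ₀.1 : ℤ) - 1)
    (hne : t ℓ₀.1 ≠ ((1 + ℓ₀.1 : ℕ) : ResidueField 𝒪)) :
    ∃ β : heckeLocal (N * 4) S 𝒪 θ →ₐ[𝒪] EY hN t, ∀ ℓ : GoodPrime (N * 4) S,
      β (heckeLocal.π (N * 4) S 𝒪 θ (heckeAlgebra.T ℓ.2.1 ℓ.2.2.1 ℓ.2.2.2)) =
        xE hN t (goodToI2 h3S ℓ) := by
  refine exists_heckeLocal_pushforward (N * 4) S 𝒪 θ hS (EY hN t)
    (fun ℓ => xE hN t (goodToI2 h3S ℓ)) ?_ ?_
  · -- the relations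
    intro P hP
    refine (lift_poly h3S (polyE hN t) P).trans ?_
    rw [polyE_eq_zero_iff]
    -- the non-Eisenstein unit
    set u : MvPolynomial (I2 3 N) 𝒪 := X (goodToI2 h3S ℓ₀) - C ((1 + ℓ₀.1 : ℕ) : 𝒪) with hu
    have hu𝔪 : u ∉ RingHom.ker (ev2 3 (M := N) t) := by
      rw [RingHom.mem_ker, hu, map_sub, ev2_X, ev2_C, map_natCast]
      exact sub_ne_zero.mpr hne
    intro y
    induction y using LocalizedModule.induction_on with
    | h x s =>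
      have h2 := qPoly_smul_eq_zero hN h3S (1 : (ZMod (N * 4))ˣ →* (ZMod 1)ˣ) P hP ℓ₀ h1 x
      rw [LocalizedModule.smul'_mk, ← LocalizedModule.zero_mk 1, LocalizedModule.mk_eq]
      refine ⟨⟨u, hu𝔪⟩, ?_⟩
      rw [smul_zero, smul_zero, one_smul]
      show u • (qPoly h3S 𝒪 P • x) = 0
      rw [smul_comm]
      exact h2
  · -- the residual eigenvalues
    intro ℓ
    obtain ⟨c, hc⟩ := residue_surjective (t ℓ.1)
    have h2 : (X (goodToI2 h3S ℓ) - C c : MvPolynomial (I2 3 N) 𝒪) ∈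
        RingHom.ker (ev2 3 (M := N) t) := by
      rw [RingHom.mem_ker, map_sub, ev2_X, ev2_C, hc]
      exact sub_self _
    have h3 := polyE_mem_maximalIdeal hN t h2
    rw [map_sub, polyE_X, polyE_C, ← residue_eq_zero_iff, map_sub, sub_eq_zero] at h3
    rw [h3, hθ ℓ, ← hc, ResidueField.map_residue]

end beta

end Fermat.Agent.S59lib.R7b
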