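/-
S59lib / R7b / BetaGen  (helper3) — Project I, item R7b.

**The Hecke algebra of a level `L` acts on a localised cohomology module of `sys2`**, general form: `W` a coefficient
module of `sys2 3 hN`, `sh : H¹(Γ₀(N), W) → H¹(Γ₀(L), 𝒪)` an injective map intertwining the operators `T_ℓ`
(`ℓ` a good prime of level `L`, `g ℓ` its index for `sys2`).  Then there is an `𝒪`-algebra homomorphism
`β : heckeLocal L S 𝒪 θ → HRing 𝔪 (F W)` with `β (π T_ℓ) = X_{g ℓ}`.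
Instances: `W = Fun(X2, 𝒪)`, `L = 2 N` (`exists_beta_two`).
-/
import Fermat.Agent.S59lib.R7b.Beta

set_option autoImplicit false
set_option linter.unusedSectionVars false
set_option linter.unusedVariables false
set_option linter.style.haveILetI false

noncomputable section

namespace Fermat.Agent.S59lib.R7b

open CongruenceSubgroup CuspForm IsLocalRing MvPolynomial
open Fermat.Agent.S43lib.B1 Fermat.Agent.S43lib.B2 Fermat.Agent.S43lib.B2.Bridge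
open Fermat.Agent.S59lib.S3Proj
open scoped MatrixGroups

local notation "𝟙" => (1 : G2 →* ℤˣ)

section gen

variable {𝒪 : Type} [CommRing 𝒪] [IsDomain 𝒪] [IsDiscreteValuationRing 𝒪]
  [IsAdicComplete (maximalIdeal 𝒪) 𝒪] [CharZero 𝒪] [Finite (ResidueField 𝒪)]
variable {N : ℕ} [NeZero N] (hN : Odd N) {L : ℕ} [NeZero L] {S : Set ℕ}
variable (g : GoodPrime L S → I2 3 N)
variable (W : Type) [AddCommGroup W] [Module 𝒪 W] [DistribMulAction G2 W] [SMulCommClass G2 𝒪 W]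
variable (t : ℕ → ResidueField 𝒪)

/-- `P ↦ P(X_{g ℓ})` -/
def qPolyG : FreeAlgebra ℤ (GoodPrime L S) →ₐ[ℤ] MvPolynomial (I2 3 N) 𝒪 :=
  FreeAlgebra.lift ℤ (fun ℓ => (X (g ℓ) : MvPolynomial (I2 3 N) 𝒪))

/-- the operators `T_{g ℓ}` of `sys2` as `ℤ`-linear maps -/
def tZG (ℓ : GoodPrime L S) : Module.End ℤ ((sys2 3 hN).Coh 𝒪 W) :=
  ((sys2 3 hN).T 𝒪 W (g ℓ)).toAddMonoidHom.toIntLinearMap

theorem qPolyG_smul (P : FreeAlgebra ℤ (GoodPrime L S)) (x : (sys2 3 hN).Coh 𝒪 W) :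
    qPolyG (𝒪 := 𝒪) g P • x = FreeAlgebra.lift ℤ (tZG hN g W) P x := by
  induction P using FreeAlgebra.induction generalizing x with
  | grade0 r =>
    rw [AlgHom.commutes, AlgHom.commutes, Module.algebraMap_end_apply]
    have h1 : (algebraMap ℤ (MvPolynomial (I2 3 N) 𝒪) r) = C ((r : ℤ) : 𝒪) := by
      rw [eq_intCast, map_intCast]
    rw [h1, HeckeSys.C_smul, Int.cast_smul_eq_zsmul]
  | grade1 ℓ =>
    unfold qPolyG
    rw [FreeAlgebra.lift_ι_apply, FreeAlgebra.lift_ι_apply, HeckeSys.X_smul]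
    rfl
  | mul P Q hP hQ =>
    rw [map_mul, map_mul, mul_smul, Module.End.mul_apply, hQ, hP]
  | add P Q hP hQ =>
    rw [map_add, map_add, add_smul, LinearMap.add_apply, hP, hQ]

theorem lift_polyG {E : Type*} [CommRing E] (f : MvPolynomial (I2 3 N) 𝒪 →+* E)
    (P : FreeAlgebra ℤ (GoodPrime L S)) :
    FreeAlgebra.lift ℤ (fun ℓ => f (X (g ℓ))) P = f (qPolyG (𝒪 := 𝒪) g P) := by
  induction P using FreeAlgebra.induction with
  | grade0 r => rw [AlgHom.commutes, AlgHom.commutes, eq_intCast, eq_intCast, map_intCast]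
  | grade1 ℓ =>
    unfold qPolyG
    rw [FreeAlgebra.lift_ι_apply, FreeAlgebra.lift_ι_apply]
  | mul P Q hP hQ => rw [map_mul, map_mul, map_mul, hP, hQ]
  | add P Q hP hQ => rw [map_add, map_add, map_add, hP, hQ]

variable {G' : Type} [CommGroup G'] [Subsingleton G'] (χ : (ZMod L)ˣ →* G')
variable (sh : (sys2 3 hN).Coh 𝒪 W →ₗ[𝒪] H1 (levelPi χ) 𝒪 (Reg G' 𝒪))

/-- the relations of the Hecke algebra of level `L` hold on `(T_{ℓ₀} - 1 - ℓ₀) H¹(Γ₀(N), W)` -/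
theorem qPolyG_smul_eq_zero
    (hshT : ∀ (ℓ : GoodPrime L S) (y : (sys2 3 hN).Coh 𝒪 W),
      sh ((sys2 3 hN).T 𝒪 W (g ℓ) y) = heckeHOp₀ χ 𝒪 (Reg G' 𝒪) ℓ (sh y))
    (hinj : Function.Injective sh)
    (P : FreeAlgebra ℤ (GoodPrime L S))
    (hP : (evalForms P : ↥(CuspForm.heckeAlgebra L 2 S)) = 0)
    (ℓ₀ : GoodPrime L S) (h1 : ((L : ℕ) : ℤ) ∣ (ℓ₀.1 : ℤ) - 1)
    (x : (sys2 3 hN).Coh 𝒪 W) :
    qPolyG (𝒪 := 𝒪) g P •
      ((X (g ℓ₀) - C ((1 + ℓ₀.1 : ℕ) : 𝒪) : MvPolynomial (I2 3 N) 𝒪) • x) = 0 := by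
  haveI : Fact ℓ₀.1.Prime := ⟨ℓ₀.2.1⟩
  haveI := isAddTorsionFree_reg G' 𝒪
  apply hinj
  rw [map_zero, qPolyG_smul hN g W]
  have h2 := lift_intertwine (tZG hN g W) (heckeHOp₀ χ 𝒪 (Reg G' 𝒪))
    sh.toAddMonoidHom (fun ℓ v => hshT ℓ v) P
    ((X (g ℓ₀) - C ((1 + ℓ₀.1 : ℕ) : 𝒪) : MvPolynomial (I2 3 N) 𝒪) • x)
  have h3 : sh ((X (g ℓ₀) - C ((1 + ℓ₀.1 : ℕ) : 𝒪) : MvPolynomial (I2 3 N) 𝒪) • x) =
      heckeH 𝒪 (Reg G' 𝒪) (nData_equi₀ (χ := χ) ℓ₀.2.2.1) (sh x) - (1 + ℓ₀.1) • sh x := by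
    rw [sub_smul, HeckeSys.X_smul, HeckeSys.C_smul, map_sub, hshT, map_smul,
      Nat.cast_smul_eq_nsmul]
    rfl
  have h4 := bridge_H1_triv (χ := χ) (R := 𝒪) (W := Reg G' 𝒪) (unit_smul_eq (Reg G' 𝒪)) P hP
    ℓ₀.2.2.1 h1 (sh x)
  show sh.toAddMonoidHom _ = 0
  rw [h2]
  show FreeAlgebra.lift ℤ (heckeHOp₀ χ 𝒪 (Reg G' 𝒪)) P (sh _) = 0
  rw [h3]
  exact h4

variable [hY : Nontrivial ((sys2 3 hN).F 𝒪 W (RingHom.ker (ev2 3 (M := N) t)))]

/-- the Hecke ring of `F(W)` -/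
abbrev EW : Type := HRing (RingHom.ker (ev2 3 (M := N) t))
  ((sys2 3 hN).F 𝒪 W (RingHom.ker (ev2 3 (M := N) t)))

instance finite_residueField_EW : Finite (ResidueField (EW hN W t)) :=
  finite_residueField_HRing _ _

instance isLocalHom_algebraMap_EW : IsLocalHom (algebraMap 𝒪 (EW hN W t)) :=
  isLocalHom_of_finite_residue _

/-- the image of a polynomial in the Hecke ring -/
def polyW : MvPolynomial (I2 3 N) 𝒪 →+* EW hN W t :=
  (hmk _ _).comp (algebraMap (MvPolynomial (I2 3 N) 𝒪)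
    (Localization.AtPrime (RingHom.ker (ev2 3 (M := N) t))))

theorem polyW_C (a : 𝒪) : polyW hN W t (C a) = algebraMap 𝒪 (EW hN W t) a := by
  show hmk _ _ (algebraMap _ _ (C a)) = _
  rw [← MvPolynomial.algebraMap_eq, ← IsScalarTower.algebraMap_apply]
  rfl

theorem polyW_eq_zero_iff (q : MvPolynomial (I2 3 N) 𝒪) :
    polyW hN W t q = 0 ↔
      ∀ y : (sys2 3 hN).F 𝒪 W (RingHom.ker (ev2 3 (M := N) t)), q • y = 0 := by
  show hmk _ _ (algebraMap _ _ q) = 0 ↔ _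
  rw [hmk_eq_zero_iff]
  constructor
  · intro h y
    rw [← h y, algebraMap_smul]
  · intro h y
    rw [algebraMap_smul]
    exact h y

theorem polyW_smul (q : MvPolynomial (I2 3 N) 𝒪)
    (r : Localization.AtPrime (RingHom.ker (ev2 3 (M := N) t)))
    (hr : hmk _ ((sys2 3 hN).F 𝒪 W (RingHom.ker (ev2 3 (M := N) t))) r = polyW hN W t q)
    (y : (sys2 3 hN).F 𝒪 W (RingHom.ker (ev2 3 (M := N) t))) : r • y = q • y := by
  have h1 : hmk _ ((sys2 3 hN).F 𝒪 W (RingHom.ker (ev2 3 (M := N) t)))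
      (r - algebraMap _ _ q) = 0 := by
    rw [map_sub, hr]
    exact sub_self _
  rw [hmk_eq_zero_iff] at h1
  have h2 := h1 y
  rw [sub_smul, sub_eq_zero, algebraMap_smul] at h2
  exact h2

theorem polyW_mem_maximalIdeal {q : MvPolynomial (I2 3 N) 𝒪}
    (hq : q ∈ RingHom.ker (ev2 3 (M := N) t)) :
    polyW hN W t q ∈ maximalIdeal (EW hN W t) :=
  hmk_algebraMap_mem _ _ hq

/-- **the homomorphism `β`, general form** -/
theorem exists_beta_gen [hint : Fact (HasIntegralStructure L 2)]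
    (hshT : ∀ (ℓ : GoodPrime L S) (y : (sys2 3 hN).Coh 𝒪 W),
      sh ((sys2 3 hN).T 𝒪 W (g ℓ) y) = heckeHOp₀ χ 𝒪 (Reg G' 𝒪) ℓ (sh y))
    (hinj : Function.Injective sh)
    (hg : ∀ ℓ, (g ℓ).1 = ℓ.1)
    (hS : ∀ q : ℕ, q.Prime → q ∣ L → q ∈ S)
    (θ : CuspForm.heckeAlgebra L 2 S →+* ResidueField 𝒪)
    (hθ : ∀ ℓ : GoodPrime L S, θ (heckeAlgebra.T ℓ.2.1 ℓ.2.2.1 ℓ.2.2.2) = t ℓ.1)
    (ℓ₀ : GoodPrime L S) (h1 : ((L : ℕ) : ℤ) ∣ (ℓ₀.1 : ℤ) - 1)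
    (hne : t ℓ₀.1 ≠ ((1 + ℓ₀.1 : ℕ) : ResidueField 𝒪)) :
    ∃ β : heckeLocal L S 𝒪 θ →ₐ[𝒪] EW hN W t, ∀ ℓ : GoodPrime L S,
      β (heckeLocal.π L S 𝒪 θ (heckeAlgebra.T ℓ.2.1 ℓ.2.2.1 ℓ.2.2.2)) =
        polyW hN W t (X (g ℓ)) := by
  refine exists_heckeLocal_pushforward L S 𝒪 θ hS (EW hN W t)
    (fun ℓ => polyW hN W t (X (g ℓ))) ?_ ?_
  · intro P hP
    refine (lift_polyG g (polyW hN W t) P).trans ?_
    rw [polyW_eq_zero_iff]
    set u : MvPolynomial (I2 3 N) 𝒪 := X (g ℓ₀) - C ((1 + ℓ₀.1 : ℕ) : 𝒪) with hu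
    have hu𝔪 : u ∉ RingHom.ker (ev2 3 (M := N) t) := by
      rw [RingHom.mem_ker, hu, map_sub, ev2_X, ev2_C, map_natCast, hg]
      exact sub_ne_zero.mpr hne
    intro y
    induction y using LocalizedModule.induction_on with
    | h x s =>
      have h2 := qPolyG_smul_eq_zero hN g W χ sh hshT hinj P hP ℓ₀ h1 x
      rw [LocalizedModule.smul'_mk, ← LocalizedModule.zero_mk 1, LocalizedModule.mk_eq]
      refine ⟨⟨u, hu𝔪⟩, ?_⟩
      rw [smul_zero, smul_zero, one_smul]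
      show u • (qPolyG (𝒪 := 𝒪) g P • x) = 0
      rw [smul_comm]
      exact h2
  · intro ℓ
    obtain ⟨c, hc⟩ := residue_surjective (t ℓ.1)
    have h2 : (X (g ℓ) - C c : MvPolynomial (I2 3 N) 𝒪) ∈
        RingHom.ker (ev2 3 (M := N) t) := by
      rw [RingHom.mem_ker, map_sub, ev2_X, ev2_C, hc, hg]
      exact sub_self _
    have h3 := polyW_mem_maximalIdeal hN W t h2
    rw [map_sub, polyW_C, ← residue_eq_zero_iff, map_sub, sub_eq_zero] at h3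
    rw [h3, hθ ℓ, ← hc, ResidueField.map_residue]

end gen

end Fermat.Agent.S59lib.R7b
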