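/-
S59lib / R7b / Gal  (helper9, for helper3's R7b) — Project I, item R7b (Mazur's principle at `q = 2` for `p = 3`):
**the Galois input of the abstract core** `R7b.subsingleton_of_core`.

`ρ` a based adic Galois representation over a separated local ring `A` with `p ∈ 𝔪`, determinant cyclotomic, residually
unramified at the prime `v ≠ p`; `τ = globGenAt v p` (the chosen generator of the `p`-part of tame inertia at `v`),
`φ = globFrobAt v` (the chosen Frobenius element):

* `tameN ρ b v p = ρ(τ) − 1`, `tamePhi ρ b v = ρ(φ)`;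
* `tame_pair`      : `tameN ≡ 0 mod 𝔪`, `det (1 + tameN) = 1`, `det tamePhi = v`, `Φ (1 + n) = (1 + n)^v Φ`;
* `tame_pair_two_map` : the same for the images under a local ring homomorphism `β : A → E`, `v = 2`
  (the binders `hn`, `hdetn`, `hdetΦ`, `hrel` of `subsingleton_of_core`);
* `charpoly_map_of_trace_tameN_eq_zero` : a point `χ : A → O` killing `tr n` is unipotent on all inertia groups at `v`
  (`hunip` of Block U);
* `trace_tameN`, `trace_tameN_eq_zero` (unipotent inertia at `v` ⇒ `tr n = 0`), `map_trace_tameN_eq_zero` (the same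
  through a trace-compatible ring homomorphism to a representation with unipotent inertia at `v`: `htrX`).
-/
import Mathlib
import Fermat.Agent.S43lib.B3.AdicTame
import Fermat.Agent.S43lib.B3.HeckeTr
import Fermat.Agent.S59lib.R7b.G1.Tame2

set_option autoImplicit false
set_option linter.unusedSectionVars false
set_option linter.style.haveILetI false

noncomputable section

namespace Fermat.Agent.S59lib.R7b

open IsLocalRing Polynomial Fermat.Agent.TeamA.Rep ExtCitation Fermat.Agent.S43lib.B3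

/-- `ℚ̄` -/
local notation "Qb" => AlgebraicClosure ℚ

variable {A : Type} [CommRing A] [IsLocalRing A]

/-- `ρ(τ) − 1`, `τ` the chosen generator of the `p`-part of tame inertia at `v` -/
def tameN (ρ : GaloisRepAdic A) (b : Module.Basis (Fin 2) A ρ.V) (v : Nat.Primes) (p : ℕ) :
    Matrix (Fin 2) (Fin 2) A :=
  matOf ρ b (globGenAt v p) - 1

/-- `ρ(φ)`, `φ` the chosen Frobenius element at `v` -/
def tamePhi (ρ : GaloisRepAdic A) (b : Module.Basis (Fin 2) A ρ.V) (v : Nat.Primes) :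
    Matrix (Fin 2) (Fin 2) A :=
  matOf ρ b (globFrobAt v)

theorem one_add_tameN (ρ : GaloisRepAdic A) (b : Module.Basis (Fin 2) A ρ.V) (v : Nat.Primes) (p : ℕ) :
    1 + tameN ρ b v p = matOf ρ b (globGenAt v p) := by
  unfold tameN
  abel

/-- residually unramified at `v`: the matrices of inertia are congruent to `1` -/
theorem matOf_sub_one_mem_of_unramified (ρ : GaloisRepAdic A) (b : Module.Basis (Fin 2) A ρ.V)
    {q : ℕ} (hur : ρ.residual.IsUnramifiedAt q) {P : ValuationSubring Qb} (hP : P.LiesOverPrime q)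
    {s : Qb ≃ₐ[ℚ] Qb} (hs : s ∈ P.inertiaSubgroupIn ℚ) (i j : Fin 2) :
    (matOf ρ b s - 1) i j ∈ maximalIdeal A := by
  have h1 : matOfRes ρ.residual (residualBasis ρ b) s = 1 := by
    unfold matOfRes
    rw [hur _ hP s hs]
    exact LinearMap.toMatrix_one _
  rw [matOfRes_residual] at h1
  have h2 := congrFun (congrFun h1 i) j
  rw [Matrix.map_apply] at h2
  rw [Matrix.sub_apply, ← residue_eq_zero_iff, map_sub, h2]
  by_cases hij : i = j
  · subst hij; simp
  · simp [hij]

/-- `ρ(τ) ≡ 1` modulo the maximal ideal -/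
theorem tameN_mem (ρ : GaloisRepAdic A) (b : Module.Basis (Fin 2) A ρ.V) (v : Nat.Primes) (p : ℕ)
    (hur : ρ.residual.IsUnramifiedAt (v : ℕ)) (i j : Fin 2) : tameN ρ b v p i j ∈ maximalIdeal A :=
  matOf_sub_one_mem_of_unramified ρ b hur
    (Fermat.Agent.S56lib.TWSel.primeLocalPlace_liesOverPrime v) (globGenAt_mem_inertia v p) i j

/-- the trace of `ρ(τ) − 1` -/
theorem trace_tameN (ρ : GaloisRepAdic A) (b : Module.Basis (Fin 2) A ρ.V) (v : Nat.Primes) (p : ℕ) :
    (tameN ρ b v p).trace = ρ.trace (globGenAt v p) - 2 := by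
  unfold tameN matOf
  rw [Matrix.trace_sub, Matrix.trace_one, Fintype.card_fin, ← LinearMap.trace_eq_matrix_trace A b]
  rfl

/-- the trace of an element with characteristic polynomial `(X − 1)²` -/
theorem trace_eq_two_of_charpoly (ρ : GaloisRepAdic A) {s : Qb ≃ₐ[ℚ] Qb}
    (h : LinearMap.charpoly (ρ.ρ s) = (X - 1) ^ 2) : ρ.trace s = 2 := by
  refine trace_eq_of_charpoly (t := 2) (d := 1) ρ.finrank_eq (ρ.ρ s) ?_
  rw [h]
  simp only [map_ofNat, map_one]
  ring

/-- **unipotent inertia at `v` forces `tr n = 0`** -/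
theorem trace_tameN_eq_zero (ρ : GaloisRepAdic A) (b : Module.Basis (Fin 2) A ρ.V) (v : Nat.Primes) (p : ℕ)
    (hunip : ρ.IsUnipotentOnInertiaAt (v : ℕ)) : (tameN ρ b v p).trace = 0 := by
  rw [trace_tameN, trace_eq_two_of_charpoly ρ
    (hunip _ (Fermat.Agent.S56lib.TWSel.primeLocalPlace_liesOverPrime v) _ (globGenAt_mem_inertia v p)),
    sub_self]

/-- **`htrX`**: the trace of `n` dies under a ring homomorphism which carries the trace of `ρ(τ)` to the trace of a
representation with unipotent inertia at `v` (level `2M'`, S34). -/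
theorem map_trace_tameN_eq_zero (ρ : GaloisRepAdic A) (b : Module.Basis (Fin 2) A ρ.V) (v : Nat.Primes) (p : ℕ)
    {A' : Type} [CommRing A'] [IsLocalRing A'] (ν : A →+* A') (ρ' : GaloisRepAdic A')
    (hν : ν (ρ.trace (globGenAt v p)) = ρ'.trace (globGenAt v p))
    (hunip : ρ'.IsUnipotentOnInertiaAt (v : ℕ)) : ν (tameN ρ b v p).trace = 0 := by
  rw [trace_tameN, map_sub, hν, map_ofNat, trace_eq_two_of_charpoly ρ'
    (hunip _ (Fermat.Agent.S56lib.TWSel.primeLocalPlace_liesOverPrime v) _ (globGenAt_mem_inertia v p)),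
    sub_self]

section Pair

variable (p : ℕ) [hp : Fact p.Prime]

/-- **the tame pair** `(n, Φ) = (ρ(τ) − 1, ρ(φ))` at `v ≠ p` -/
theorem tame_pair [IsHausdorff (maximalIdeal A) A] (hpA : (p : A) ∈ maximalIdeal A)
    (ρ : GaloisRepAdic A) (hdet : ρ.DetIsCyclotomic p) (b : Module.Basis (Fin 2) A ρ.V) (v : Nat.Primes)
    (hpv : p ≠ (v : ℕ)) (hur : ρ.residual.IsUnramifiedAt (v : ℕ)) :
    (∀ i j, tameN ρ b v p i j ∈ maximalIdeal A) ∧ (1 + tameN ρ b v p).det = 1 ∧
      (tamePhi ρ b v).det = ((v : ℕ) : A) ∧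
      tamePhi ρ b v * (1 + tameN ρ b v p) = (1 + tameN ρ b v p) ^ (v : ℕ) * tamePhi ρ b v := by
  refine ⟨tameN_mem ρ b v p hur, ?_, det_matOf_globFrobAt p ρ hdet b v hpv, ?_⟩
  · rw [one_add_tameN]
    exact det_matOf_globGenAt p ρ hdet b v hpv
  · rw [one_add_tameN]
    exact matOf_tame_relation p hpA ρ b v hpv hur

/-- **the tame pair at `v = 2`, pushed to a local ring `E`**: the binders `hn`, `hdetn`, `hdetΦ`, `hrel` of
`R7b.subsingleton_of_core`. -/
theorem tame_pair_two_map [IsHausdorff (maximalIdeal A) A] (hpA : (p : A) ∈ maximalIdeal A)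
    (ρ : GaloisRepAdic A) (hdet : ρ.DetIsCyclotomic p) (b : Module.Basis (Fin 2) A ρ.V)
    (hp2 : p ≠ 2) (hur : ρ.residual.IsUnramifiedAt 2)
    {E : Type*} [CommRing E] [IsLocalRing E] (β : A →+* E) [IsLocalHom β] :
    (∀ i j, (tameN ρ b ⟨2, Nat.prime_two⟩ p).map β i j ∈ maximalIdeal E) ∧
      (1 + (tameN ρ b ⟨2, Nat.prime_two⟩ p).map β).det = 1 ∧
      ((tamePhi ρ b ⟨2, Nat.prime_two⟩).map β).det = 2 ∧
      (tamePhi ρ b ⟨2, Nat.prime_two⟩).map β * (1 + (tameN ρ b ⟨2, Nat.prime_two⟩ p).map β) =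
        (1 + (tameN ρ b ⟨2, Nat.prime_two⟩ p).map β) * (1 + (tameN ρ b ⟨2, Nat.prime_two⟩ p).map β) *
          (tamePhi ρ b ⟨2, Nat.prime_two⟩).map β := by
  obtain ⟨h1, h2, h3, h4⟩ := tame_pair p hpA ρ hdet b ⟨2, Nat.prime_two⟩ hp2 hur
  set n := tameN ρ b ⟨2, Nat.prime_two⟩ p with hn
  set Φ := tamePhi ρ b ⟨2, Nat.prime_two⟩ with hΦ
  have hone : (1 : Matrix (Fin 2) (Fin 2) E) + n.map β = (1 + n).map β := by
    rw [Matrix.map_add β β.map_add, Matrix.map_one β β.map_zero β.map_one]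
  refine ⟨fun i j => ?_, ?_, ?_, ?_⟩
  · rw [Matrix.map_apply]
    exact map_nonunit β _ (h1 i j)
  · rw [hone, ← RingHom.mapMatrix_apply, ← RingHom.map_det, h2, map_one]
  · rw [← RingHom.mapMatrix_apply, ← RingHom.map_det, h3]
    show β ((2 : ℕ) : A) = 2
    rw [map_natCast]
    rfl
  · rw [hone, ← Matrix.map_mul, ← Matrix.map_mul, ← Matrix.map_mul, h4]
    simp only [pow_two]

end Pair

section Point

open Fermat.Agent.S59lib.R7b.G1
open scoped Pointwise

variable (p : ℕ) [hp : Fact p.Prime]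

/-- the image of an adically continuous matrix representation under a local homomorphism is adically continuous -/
theorem matCont_map {O : Type} [CommRing O] [IsLocalRing O] (χ : A →+* O) [IsLocalHom χ]
    (r : (Qb ≃ₐ[ℚ] Qb) →* Matrix (Fin 2) (Fin 2) A) (hr : MatCont r) :
    MatCont ((χ.mapMatrix : Matrix (Fin 2) (Fin 2) A →+* Matrix (Fin 2) (Fin 2) O).toMonoidHom.comp r) := by
  intro n
  obtain ⟨L, hL, h⟩ := hr n
  refine ⟨L, hL, fun σ hσ i j => ?_⟩
  have h1 := h σ hσ i j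
  have h2 : ((χ.mapMatrix : Matrix (Fin 2) (Fin 2) A →+* Matrix (Fin 2) (Fin 2) O).toMonoidHom.comp r σ - 1) i j
      = χ ((r σ - 1) i j) := by
    show ((r σ).map χ - 1) i j = _
    rw [Matrix.sub_apply, Matrix.sub_apply, Matrix.map_apply, map_sub]
    by_cases hij : i = j
    · subst hij; simp
    · simp [hij]
  rw [h2]
  have hle : (maximalIdeal A ^ n).map χ ≤ maximalIdeal O ^ n := by
    rw [Ideal.map_pow]
    refine Ideal.pow_right_mono (Ideal.map_le_iff_le_comap.mpr fun x hx => ?_) n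
    exact Ideal.mem_comap.mpr (map_nonunit χ x hx)
  exact hle (Ideal.mem_map_of_mem χ h1)

/-- **a point killing `tr n` is unipotent on the inertia groups at `v`** (the hypothesis `hunip` of Block U). -/
theorem charpoly_map_of_trace_tameN_eq_zero [IsHausdorff (maximalIdeal A) A]
    (hpA : (p : A) ∈ maximalIdeal A) (ρ : GaloisRepAdic A) (hdet : ρ.DetIsCyclotomic p)
    (b : Module.Basis (Fin 2) A ρ.V) (v : Nat.Primes) (hpv : p ≠ (v : ℕ))
    (hur : ρ.residual.IsUnramifiedAt (v : ℕ))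
    {O : Type} [CommRing O] [IsLocalRing O] [IsHausdorff (maximalIdeal O) O] (χ : A →+* O) [IsLocalHom χ]
    (hχ : χ (tameN ρ b v p).trace = 0) :
    ∀ P : ValuationSubring Qb, P.LiesOverPrime (v : ℕ) → ∀ σ ∈ P.inertiaSubgroupIn ℚ,
      (LinearMap.charpoly (ρ.ρ σ)).map χ = (X - 1) ^ 2 := by
  set r : (Qb ≃ₐ[ℚ] Qb) →* Matrix (Fin 2) (Fin 2) O :=
    (χ.mapMatrix : Matrix (Fin 2) (Fin 2) A →+* Matrix (Fin 2) (Fin 2) O).toMonoidHom.comp (matOfHom ρ b)
    with hr
  have hrapp : ∀ s, r s = (matOf ρ b s).map χ := fun s => rfl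
  have hpO : (p : O) ∈ maximalIdeal O := by
    rw [← map_natCast χ]
    exact map_nonunit χ _ hpA
  have hent : ∀ s ∈ (primeLocalPlace v).inertiaSubgroupIn ℚ, EntIn (maximalIdeal O) (r s - 1) := by
    intro s hs i j
    have h1 := matOf_sub_one_mem_of_unramified ρ b hur
      (Fermat.Agent.S56lib.TWSel.primeLocalPlace_liesOverPrime v) hs i j
    have h2 : (r s - 1) i j = χ ((matOf ρ b s - 1) i j) := by
      rw [hrapp, Matrix.sub_apply, Matrix.sub_apply, Matrix.map_apply, map_sub]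
      by_cases hij : i = j
      · subst hij; simp
      · simp [hij]
    rw [h2]
    exact map_nonunit χ _ h1
  have ht : (r (globGenAt v p)).trace = 2 := by
    have h1 : (tameN ρ b v p).trace = (matOf ρ b (globGenAt v p)).trace - 2 := by
      unfold tameN
      rw [Matrix.trace_sub, Matrix.trace_one, Fintype.card_fin]
      rfl
    rw [h1, map_sub, sub_eq_zero] at hχ
    rw [hrapp, Matrix.trace_fin_two, Matrix.map_apply, Matrix.map_apply, ← map_add, ← Matrix.trace_fin_two,
      hχ, map_ofNat]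
  have hd : (r (globGenAt v p)).det = 1 := by
    rw [hrapp, ← RingHom.mapMatrix_apply, ← RingHom.map_det, det_matOf_globGenAt p ρ hdet b v hpv, map_one]
  have h0 := trace_det_inertia_of_trace_two p hpO r (matCont_map χ _ (matCont_matOf ρ b)) v hpv hent ht hd
  intro P hP σ hσ
  obtain ⟨g, hg⟩ : ∃ g : Qb ≃ₐ[ℚ] Qb, P = g • primeLocalPlace v :=
    Fermat.Agent.S56lib.TWSel.exists_smul_eq_of_liesOverPrime v.2
      (Fermat.Agent.S56lib.TWSel.primeLocalPlace_liesOverPrime v) hP
  have h1 : g⁻¹ * σ * g⁻¹⁻¹ ∈ (g⁻¹ • P).inertiaSubgroupIn ℚ :=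
    Fermat.Agent.S56lib.TWSel.conj_mem_inertia hσ
  rw [inv_inv, hg, inv_smul_smul] at h1
  obtain ⟨h2, h3⟩ := h0 _ h1
  have h4 : σ = g * (g⁻¹ * σ * g) * g⁻¹ := by group
  have hG : r g * r g⁻¹ = 1 := by rw [← map_mul, mul_inv_cancel, map_one]
  have hG' : r g⁻¹ * r g = 1 := by rw [← map_mul, inv_mul_cancel, map_one]
  have h5 : (r σ).trace = 2 := by
    rw [h4, map_mul, map_mul, Matrix.trace_mul_comm, ← mul_assoc, hG', one_mul, h2]
  have h6 : (r σ).det = 1 := by
    rw [h4, map_mul, map_mul, Matrix.det_mul, Matrix.det_mul, h3, mul_one, ← Matrix.det_mul, hG,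
      Matrix.det_one]
  have h7 : (matOf ρ b σ).charpoly = LinearMap.charpoly (ρ.ρ σ) :=
    LinearMap.charpoly_toMatrix (ρ.ρ σ) b
  rw [← h7, ← Matrix.charpoly_map, ← hrapp, Matrix.charpoly_fin_two, h5, h6]
  simp only [map_ofNat, map_one]
  ring

end Point

end Fermat.Agent.S59lib.R7b
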