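/-
S59lib / R7b / TraceX  (helper3) — Project I, item R7b.

**`tr n = 0` on `X = F(Fun(X2, 𝒪))`** (the binder `htrX` of `subsingleton_of_assembly`).
`β₄ : 𝕋(4N)_𝔪 → E_Y`, `β₂ : 𝕋(2N)_𝔪 → E_X` (`exists_beta_four`, `exists_beta_two`), `c : E_Y → E_X` the factor map
(`X` is a quotient of `Y`), `ν : 𝕋(4N)_𝔪 → 𝕋(2N)_𝔪` (helper6).  The two `𝒪`-algebra maps `c ∘ β₄` and `β₂ ∘ ν` agree
on the `T_ℓ`, hence are equal; `ν (tr n₄) = 0` because the inertia at `2` is unipotent at level `2N` (S34).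
-/
import Fermat.Agent.S59lib.R7b.BetaGen
import Fermat.Agent.S59lib.R7b.Gal
import Fermat.Agent.S59lib.Nu.Main

set_option autoImplicit false
set_option linter.unusedSectionVars false
set_option linter.unusedVariables false
set_option linter.style.haveILetI false

noncomputable section

namespace Fermat.Agent.S59lib.R7b

open CongruenceSubgroup CuspForm IsLocalRing MvPolynomial
open Fermat.Agent.S43lib.B1 Fermat.Agent.S43lib.B2 Fermat.Agent.S43lib.B2.Bridge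
open Fermat.Agent.S59lib.S3Proj
open scoped MatrixGroups

local notation "𝟙" => (1 : G2 →* ℤˣ)

/-! ### the factor map between Hecke rings -/

section factor

variable {P : Type*} [CommRing P] (𝔪 : Ideal P) [𝔪.IsPrime] (R : Type*) [CommRing R] [Algebra R P]
variable (Y X : Type*) [AddCommGroup Y] [Module (Localization.AtPrime 𝔪) Y]
  [AddCommGroup X] [Module (Localization.AtPrime 𝔪) X]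

/-- the factor map `E_Y → E_X` for a module `X` killed by the annihilator of `Y` -/
def hfactor (h : ∀ r : Localization.AtPrime 𝔪, (∀ y : Y, r • y = 0) → ∀ m : X, r • m = 0) :
    HRing 𝔪 Y →ₐ[R] HRing 𝔪 X :=
  Ideal.Quotient.factorₐ R (fun r hr =>
    Module.mem_annihilator.mpr (h r (Module.mem_annihilator.mp hr)))

theorem hfactor_hmk (h : ∀ r : Localization.AtPrime 𝔪, (∀ y : Y, r • y = 0) → ∀ m : X, r • m = 0)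
    (r : Localization.AtPrime 𝔪) : hfactor 𝔪 R Y X h (hmk 𝔪 Y r) = hmk 𝔪 X r := rfl

end factor

section main

variable {𝒪 : Type} [CommRing 𝒪] [IsDomain 𝒪] [IsDiscreteValuationRing 𝒪]
  [IsAdicComplete (maximalIdeal 𝒪) 𝒪] [CharZero 𝒪] [Finite (ResidueField 𝒪)]
variable {N : ℕ} [NeZero N] (hN : Odd N) {S : Set ℕ} (h3S : 3 ∈ S)
variable (t : ℕ → ResidueField 𝒪)

/-- the index of a good prime of level `2 N` -/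
def goodToI2' (ℓ : GoodPrime (N * 2) S) : I2 3 N :=
  ⟨ℓ.1, ℓ.2.1, ℓ.2.2.1, fun h => ℓ.2.2.2 (h ▸ h3S)⟩

/-- **`β₂`** -/
theorem exists_beta_two
    [Nontrivial ((sys2 3 hN).F 𝒪 (FunTw 𝟙 X2 𝒪) (RingHom.ker (ev2 3 (M := N) t)))]
    [Fact (HasIntegralStructure (N * 2) 2)]
    (hS : ∀ q : ℕ, q.Prime → q ∣ N * 2 → q ∈ S)
    (θ : CuspForm.heckeAlgebra (N * 2) 2 S →+* ResidueField 𝒪)
    (hθ : ∀ ℓ : GoodPrime (N * 2) S, θ (heckeAlgebra.T ℓ.2.1 ℓ.2.2.1 ℓ.2.2.2) = t ℓ.1)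
    (ℓ₀ : GoodPrime (N * 2) S) (h1 : ((N * 2 : ℕ) : ℤ) ∣ (ℓ₀.1 : ℤ) - 1)
    (hne : t ℓ₀.1 ≠ ((1 + ℓ₀.1 : ℕ) : ResidueField 𝒪)) :
    ∃ β : heckeLocal (N * 2) S 𝒪 θ →ₐ[𝒪] EW hN (FunTw 𝟙 X2 𝒪) t, ∀ ℓ : GoodPrime (N * 2) S,
      β (heckeLocal.π (N * 2) S 𝒪 θ (heckeAlgebra.T ℓ.2.1 ℓ.2.2.1 ℓ.2.2.2)) =
        polyW hN (FunTw 𝟙 X2 𝒪) t (X (goodToI2' h3S ℓ)) := by
  refine exists_beta_gen hN (goodToI2' h3S) (FunTw 𝟙 X2 𝒪) t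
    (1 : (ZMod (N * 2))ˣ →* (ZMod 1)ˣ) (shF2 𝒪 3 hN _) ?_ (shF2_injective 𝒪 3 hN _)
    (fun _ => rfl) hS θ hθ ℓ₀ h1 hne
  intro ℓ y
  haveI : Fact ℓ.1.Prime := ⟨ℓ.2.1⟩
  rw [shF2_T]
  show heckeH 𝒪 (Reg _ 𝒪) _ _ = heckeH 𝒪 (Reg _ 𝒪) (nData_equi₀ (χ := _) ℓ.2.2.1) _
  congr!

/-- **`β₄`** -/
theorem exists_beta_four
    [Nontrivial ((sys2 3 hN).F 𝒪 (FunTw 𝟙 G2 𝒪) (RingHom.ker (ev2 3 (M := N) t)))]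
    [Fact (HasIntegralStructure (N * 4) 2)]
    (hS : ∀ q : ℕ, q.Prime → q ∣ N * 4 → q ∈ S)
    (θ : CuspForm.heckeAlgebra (N * 4) 2 S →+* ResidueField 𝒪)
    (hθ : ∀ ℓ : GoodPrime (N * 4) S, θ (heckeAlgebra.T ℓ.2.1 ℓ.2.2.1 ℓ.2.2.2) = t ℓ.1)
    (ℓ₀ : GoodPrime (N * 4) S) (h1 : ((N * 4 : ℕ) : ℤ) ∣ (ℓ₀.1 : ℤ) - 1)
    (hne : t ℓ₀.1 ≠ ((1 + ℓ₀.1 : ℕ) : ResidueField 𝒪)) :
    ∃ β : heckeLocal (N * 4) S 𝒪 θ →ₐ[𝒪] EW hN (FunTw 𝟙 G2 𝒪) t, ∀ ℓ : GoodPrime (N * 4) S,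
      β (heckeLocal.π (N * 4) S 𝒪 θ (heckeAlgebra.T ℓ.2.1 ℓ.2.2.1 ℓ.2.2.2)) =
        polyW hN (FunTw 𝟙 G2 𝒪) t (X (goodToI2 h3S ℓ)) := by
  refine exists_beta_gen hN (goodToI2 h3S) (FunTw 𝟙 G2 𝒪) t
    (1 : (ZMod (N * 4))ˣ →* (ZMod 1)ˣ) (shF4 𝒪 3 hN _) ?_ (shF4_injective 𝒪 3 hN _)
    (fun _ => rfl) hS θ hθ ℓ₀ h1 hne
  intro ℓ y
  haveI : Fact ℓ.1.Prime := ⟨ℓ.2.1⟩
  rw [shF4_T]
  show heckeH 𝒪 (Reg _ 𝒪) _ _ = heckeH 𝒪 (Reg _ 𝒪) (nData_equi₀ (χ := _) ℓ.2.2.1) _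
  congr!

/-- **`htrX`**: `β₄ (tr n)` acts as `0` on `X = F(Fun(X2, 𝒪))`. -/
theorem smul_eq_zero_of_trace_tameN
    [Nontrivial ((sys2 3 hN).F 𝒪 (FunTw 𝟙 G2 𝒪) (RingHom.ker (ev2 3 (M := N) t)))]
    [Nontrivial ((sys2 3 hN).F 𝒪 (FunTw 𝟙 X2 𝒪) (RingHom.ker (ev2 3 (M := N) t)))]
    [Fact (HasIntegralStructure (N * 4) 2)] [Fact (HasIntegralStructure (N * 2) 2)]
    (hSfin : S.Finite) (hS : ∀ q : ℕ, q.Prime → q ∣ N * 4 → q ∈ S)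
    (θ₄ : CuspForm.heckeAlgebra (N * 4) 2 S →+* ResidueField 𝒪)
    (hθ₄ : ∀ ℓ : GoodPrime (N * 4) S, θ₄ (heckeAlgebra.T ℓ.2.1 ℓ.2.2.1 ℓ.2.2.2) = t ℓ.1)
    (θ₂ : CuspForm.heckeAlgebra (N * 2) 2 S →+* ResidueField 𝒪)
    (hθ₂ : ∀ ℓ : GoodPrime (N * 2) S, θ₂ (heckeAlgebra.T ℓ.2.1 ℓ.2.2.1 ℓ.2.2.2) = t ℓ.1)
    (β₄ : heckeLocal (N * 4) S 𝒪 θ₄ →ₐ[𝒪] EW hN (FunTw 𝟙 G2 𝒪) t)
    (hβ₄ : ∀ ℓ : GoodPrime (N * 4) S,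
      β₄ (heckeLocal.π (N * 4) S 𝒪 θ₄ (heckeAlgebra.T ℓ.2.1 ℓ.2.2.1 ℓ.2.2.2)) =
        polyW hN (FunTw 𝟙 G2 𝒪) t (X (goodToI2 h3S ℓ)))
    (β₂ : heckeLocal (N * 2) S 𝒪 θ₂ →ₐ[𝒪] EW hN (FunTw 𝟙 X2 𝒪) t)
    (hβ₂ : ∀ ℓ : GoodPrime (N * 2) S,
      β₂ (heckeLocal.π (N * 2) S 𝒪 θ₂ (heckeAlgebra.T ℓ.2.1 ℓ.2.2.1 ℓ.2.2.2)) =
        polyW hN (FunTw 𝟙 X2 𝒪) t (X (goodToI2' h3S ℓ)))
    (hXY : ∀ r : Localization.AtPrime (RingHom.ker (ev2 3 (M := N) t)),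
      (∀ y : (sys2 3 hN).F 𝒪 (FunTw 𝟙 G2 𝒪) (RingHom.ker (ev2 3 (M := N) t)), r • y = 0) →
      ∀ x : (sys2 3 hN).F 𝒪 (FunTw 𝟙 X2 𝒪) (RingHom.ker (ev2 3 (M := N) t)), r • x = 0)
    (H₄ : HeckeGaloisRepDatum (N * 4) S 𝒪 θ₄ (heckeLocal (N * 4) S 𝒪 θ₄))
    (hH₄ : H₄.π = heckeLocal.π (N * 4) S 𝒪 θ₄)
    (H₂ : HeckeGaloisRepDatum (N * 2) S 𝒪 θ₂ (heckeLocal (N * 2) S 𝒪 θ₂))
    (hH₂ : H₂.π = heckeLocal.π (N * 2) S 𝒪 θ₂)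
    (b : Module.Basis (Fin 2) (heckeLocal (N * 4) S 𝒪 θ₄) H₄.ρ.V)
    (hunip : H₂.ρ.IsUnipotentOnInertiaAt 2)
    (r : Localization.AtPrime (RingHom.ker (ev2 3 (M := N) t)))
    (hr : hmk _ ((sys2 3 hN).F 𝒪 (FunTw 𝟙 G2 𝒪) (RingHom.ker (ev2 3 (M := N) t))) r =
      β₄ (tameN H₄.ρ b ⟨2, Nat.prime_two⟩ 3).trace)
    (x : (sys2 3 hN).F 𝒪 (FunTw 𝟙 X2 𝒪) (RingHom.ker (ev2 3 (M := N) t))) : r • x = 0 := by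
  have hdvd : N * 2 ∣ N * 4 := Nat.mul_dvd_mul_left N (by norm_num)
  have hcompat : Fermat.Agent.S59lib.Nu.Compat S S 𝒪 θ₄ θ₂ := by
    intro ℓ hℓ hℓN hℓS hℓM hℓS'
    rw [hθ₄ ⟨ℓ, hℓ, hℓN, hℓS⟩, hθ₂ ⟨ℓ, hℓ, hℓM, hℓS'⟩]
  set ν := Fermat.Agent.S59lib.Nu.nu hdvd S S subset_rfl hS 𝒪 θ₄ θ₂ hcompat with hν
  set c := hfactor (RingHom.ker (ev2 3 (M := N) t)) 𝒪
    ((sys2 3 hN).F 𝒪 (FunTw 𝟙 G2 𝒪) (RingHom.ker (ev2 3 (M := N) t)))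
    ((sys2 3 hN).F 𝒪 (FunTw 𝟙 X2 𝒪) (RingHom.ker (ev2 3 (M := N) t))) hXY with hc
  -- the two algebra maps agree
  have heq : c.comp β₄ = β₂.comp ν := by
    refine Fermat.Agent.S59lib.Nu.heckeLocal_algHom_ext S hS 𝒪 θ₄ fun ℓ hℓ hℓN hℓS => ?_
    have hℓM : ¬ ℓ ∣ N * 2 := fun hd => hℓN (hd.trans hdvd)
    rw [AlgHom.comp_apply, AlgHom.comp_apply, hβ₄ ⟨ℓ, hℓ, hℓN, hℓS⟩, hν,
      Fermat.Agent.S59lib.Nu.nu_π_T hdvd S S subset_rfl hS 𝒪 θ₄ θ₂ hcompat hℓ hℓN hℓS hℓM hℓS,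
      hβ₂ ⟨ℓ, hℓ, hℓM, hℓS⟩]
    rfl
  -- the trace dies at level `2N`
  have h0 : ν (tameN H₄.ρ b ⟨2, Nat.prime_two⟩ 3).trace = 0 := by
    refine map_trace_tameN_eq_zero H₄.ρ b ⟨2, Nat.prime_two⟩ 3
      (ν : heckeLocal (N * 4) S 𝒪 θ₄ →+* heckeLocal (N * 2) S 𝒪 θ₂) H₂.ρ ?_ hunip
    exact (Fermat.Agent.S59lib.Nu.nu_trace hdvd S S subset_rfl hS 𝒪 θ₄ θ₂ hcompat hSfin
      H₄ hH₄ H₂ hH₂ _).symm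
  have h1 : hmk _ ((sys2 3 hN).F 𝒪 (FunTw 𝟙 X2 𝒪) (RingHom.ker (ev2 3 (M := N) t))) r = 0 := by
    have h2 := congrArg c hr
    rw [hc, hfactor_hmk] at h2
    rw [h2, ← hc, ← AlgHom.comp_apply, heq, AlgHom.comp_apply, h0, map_zero]
  exact (hmk_eq_zero_iff _ _ r).mp h1 x

end main

end Fermat.Agent.S59lib.R7b
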