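/-
S59lib / R7b / Asm  (helper3) — Project I, item R7b.

**The core assembly**: in the situation of `sys2 3 hN` (`N` odd), with Hecke–Galois data of levels `4N` and `2N`, if
`H¹(Γ₀(N), 𝒪)_𝔪 = 0` then `H¹(Γ₀(N), Fun(X2, 𝒪))_𝔪 = H¹(Γ₀(2N), 𝒪)_𝔪 = 0` provided `tr n + 3` kills
`A = H¹(Γ₀(N), 𝒪(sgn))_𝔪` (`htrA`, proved in `TraceA`).
-/
import Fermat.Agent.S59lib.R7b.TraceX
import Fermat.Agent.S59lib.R7b.Devissage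
import Fermat.Agent.S59lib.R7b.Ring

set_option autoImplicit false
set_option linter.unusedSectionVars false
set_option linter.unusedVariables false
set_option linter.style.haveILetI false

noncomputable section

namespace Fermat.Agent.S59lib.R7b

open CongruenceSubgroup CuspForm IsLocalRing MvPolynomial
open Fermat.Agent.S43lib.B1 Fermat.Agent.S43lib.B2 Fermat.Agent.S43lib.B2.Bridge
open Fermat.Agent.S59lib.S3Proj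
open scoped MatrixGroups

local notation "𝟙" => (1 : G2 →* ℤˣ)
local notation "sg" => permSign G2 X2

section asm

variable {𝒪 : Type} [CommRing 𝒪] [IsDomain 𝒪] [IsDiscreteValuationRing 𝒪]
  [IsAdicComplete (maximalIdeal 𝒪) 𝒪] [CharZero 𝒪] [Finite (ResidueField 𝒪)]
variable {N : ℕ} [NeZero N] (hN : Odd N) {S : Set ℕ} (h3S : 3 ∈ S)
variable (t : ℕ → ResidueField 𝒪)

local notation "𝔪" => RingHom.ker (ev2 3 (M := N) (𝒪 := 𝒪) t)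

/-- the coefficient map `𝒪(sgn) → Fun(G2, 𝒪)` -/
def jA : TwMod sg 𝒪 →ₗ[𝒪] FunTw 𝟙 G2 𝒪 :=
  (jMap sg X2 e1 𝒪 𝒪).comp (constMap sg X2 𝒪 𝒪)

theorem isEquivar_jA : IsEquivar G2 (jA (𝒪 := 𝒪)) :=
  (isEquivar_constMap sg X2 𝒪 𝒪).comp (isEquivar_jMap sg X2 e1 𝒪 𝒪)

theorem jA_injective : Function.Injective (jA (𝒪 := 𝒪)) := by
  haveI : Nonempty X2 := ⟨e1⟩
  exact (jMap_injective sg X2 e1 𝒪 𝒪 X2_trans).comp (constMap_injective sg X2 𝒪 𝒪)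

theorem three_mem_ker_ev2 (h3 : (3 : 𝒪) ∈ maximalIdeal 𝒪) :
    (3 : MvPolynomial (I2 3 N) 𝒪) ∈ RingHom.ker (ev2 3 (M := N) t) := by
  have h1 : (3 : MvPolynomial (I2 3 N) 𝒪) = C (3 : 𝒪) := by rw [map_ofNat]
  rw [RingHom.mem_ker, h1, ev2_C, residue_eq_zero_iff]
  exact h3

/-- the non-Eisenstein condition from a good prime -/
theorem nonEis_of_good' {𝒪 : Type} [CommRing 𝒪] [IsLocalRing 𝒪] (p : ℕ) {M : ℕ} [NeZero M]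
    (hM : Odd M) (t : ℕ → ResidueField 𝒪) (i : I2 p M)
    (hne : t i.1 ≠ ((i.1 + 1 : ℕ) : ResidueField 𝒪)) :
    (sys2 p hM).NonEis (RingHom.ker (ev2 p (M := M) (𝒪 := 𝒪) t)) := by
  refine ⟨i, ?_⟩
  rw [RingHom.mem_ker, map_sub, ev2_X, ev2_C, map_natCast]
  have hcard : Fintype.card ((sys2 p hM).ι i) = i.1 + 1 := by
    haveI : NeZero i.1 := ⟨i.2.1.ne_zero⟩
    rw [Fintype.card_eq_nat_card]
    show Nat.card (OnePoint (ZMod i.1)) = i.1 + 1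
    rw [show OnePoint (ZMod i.1) = Option (ZMod i.1) from rfl, Finite.card_option,
      Nat.card_zmod]
  rw [hcard]
  exact sub_ne_zero.mpr hne

theorem nonEis_of_good (i : I2 3 N) (hne : t i.1 ≠ ((1 + i.1 : ℕ) : ResidueField 𝒪)) :
    (sys2 3 hN).NonEis (RingHom.ker (ev2 3 (M := N) (𝒪 := 𝒪) t)) :=
  nonEis_of_good' 3 hN t i (by rw [Nat.add_comm]; exact hne)

/-- **The core assembly**, modulo `htrA`. -/
theorem subsingleton_X_of_htrA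
    [Fact (HasIntegralStructure (N * 4) 2)] [Fact (HasIntegralStructure (N * 2) 2)]
    (h3 : (3 : 𝒪) ∈ maximalIdeal 𝒪)
    (hRE : (sys2 3 hN).RightExact 𝒪)
    (hSfin : S.Finite) (hS : ∀ q : ℕ, q.Prime → q ∣ N * 4 → q ∈ S)
    (θ₄ : CuspForm.heckeAlgebra (N * 4) 2 S →+* ResidueField 𝒪)
    (hθ₄ : ∀ ℓ : GoodPrime (N * 4) S, θ₄ (heckeAlgebra.T ℓ.2.1 ℓ.2.2.1 ℓ.2.2.2) = t ℓ.1)
    (θ₂ : CuspForm.heckeAlgebra (N * 2) 2 S →+* ResidueField 𝒪)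
    (hθ₂ : ∀ ℓ : GoodPrime (N * 2) S, θ₂ (heckeAlgebra.T ℓ.2.1 ℓ.2.2.1 ℓ.2.2.2) = t ℓ.1)
    (H₄ : HeckeGaloisRepDatum (N * 4) S 𝒪 θ₄ (heckeLocal (N * 4) S 𝒪 θ₄))
    (hH₄ : H₄.π = heckeLocal.π (N * 4) S 𝒪 θ₄)
    (H₂ : HeckeGaloisRepDatum (N * 2) S 𝒪 θ₂ (heckeLocal (N * 2) S 𝒪 θ₂))
    (hH₂ : H₂.π = heckeLocal.π (N * 2) S 𝒪 θ₂)
    (b : Module.Basis (Fin 2) (heckeLocal (N * 4) S 𝒪 θ₄) H₄.ρ.V)
    (hdet : H₄.ρ.DetIsCyclotomic 3) (hur : H₄.ρ.residual.IsUnramifiedAt 2)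
    (hunip : H₂.ρ.IsUnipotentOnInertiaAt 2)
    (hZ : Subsingleton ((sys2 3 hN).F 𝒪 (TwMod 𝟙 𝒪) (RingHom.ker (ev2 3 (M := N) t))))
    (ℓ₀ : GoodPrime (N * 4) S) (h1 : ((N * 4 : ℕ) : ℤ) ∣ (ℓ₀.1 : ℤ) - 1)
    (hne : t ℓ₀.1 ≠ ((1 + ℓ₀.1 : ℕ) : ResidueField 𝒪))
    (htrA : ∀ [Nontrivial ((sys2 3 hN).F 𝒪 (FunTw 𝟙 G2 𝒪) (RingHom.ker (ev2 3 (M := N) t)))]
      (β₄ : heckeLocal (N * 4) S 𝒪 θ₄ →ₐ[𝒪] EW hN (FunTw 𝟙 G2 𝒪) t),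
      (∀ ℓ : GoodPrime (N * 4) S,
        β₄ (heckeLocal.π (N * 4) S 𝒪 θ₄ (heckeAlgebra.T ℓ.2.1 ℓ.2.2.1 ℓ.2.2.2)) =
          polyW hN (FunTw 𝟙 G2 𝒪) t (X (goodToI2 h3S ℓ))) →
      (∀ r : Localization.AtPrime (RingHom.ker (ev2 3 (M := N) t)),
        (∀ y : (sys2 3 hN).F 𝒪 (FunTw 𝟙 G2 𝒪) (RingHom.ker (ev2 3 (M := N) t)), r • y = 0) →
        ∀ x : (sys2 3 hN).F 𝒪 (TwMod sg 𝒪) (RingHom.ker (ev2 3 (M := N) t)), r • x = 0) →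
      ∀ (r : Localization.AtPrime (RingHom.ker (ev2 3 (M := N) t))),
        hmk _ ((sys2 3 hN).F 𝒪 (FunTw 𝟙 G2 𝒪) (RingHom.ker (ev2 3 (M := N) t))) r =
          β₄ ((tameN H₄.ρ b ⟨2, Nat.prime_two⟩ 3).trace + 3) →
        ∀ x : (sys2 3 hN).F 𝒪 (TwMod sg 𝒪) (RingHom.ker (ev2 3 (M := N) t)), r • x = 0) :
    Subsingleton ((sys2 3 hN).F 𝒪 (FunTw 𝟙 X2 𝒪) (RingHom.ker (ev2 3 (M := N) t))) := by
  classical
  haveI : Fact (Nat.Prime 3) := ⟨Nat.prime_three⟩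
  by_contra hX
  rw [not_subsingleton_iff_nontrivial] at hX
  haveI := hX
  have hnE : (sys2 3 hN).NonEis 𝔪 := nonEis_of_good hN t (goodToI2 h3S ℓ₀) hne
  -- the maps `j`, `π`
  set j := (sys2 3 hN).Fmap 𝔪 (jA (𝒪 := 𝒪)) isEquivar_jA with hj
  have hjinj : Function.Injective j := (sys2 3 hN).Fmap_injective hnE isEquivar_jA jA_injective
  set π := (sys2 3 hN).Fmap 𝔪 (pushMap (G := G2) X2 e1 𝒪 𝒪) (isEquivar_pushMap X2 e1 𝒪 𝒪) with hπ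
  have hπsurj : Function.Surjective π :=
    (sys2 3 hN).Fmap_surjective 𝔪 hRE (isEquivar_pushMap X2 e1 𝒪 𝒪)
      (pushMap_surjective X2 e1 𝒪 𝒪 uu uu_ne_one X2_fib X2_trans)
  haveI hY : Nontrivial ((sys2 3 hN).F 𝒪 (FunTw 𝟙 G2 𝒪) 𝔪) := by
    obtain ⟨x, x', hxx'⟩ := exists_pair_ne ((sys2 3 hN).F 𝒪 (FunTw 𝟙 X2 𝒪) 𝔪)
    obtain ⟨y, rfl⟩ := hπsurj x
    obtain ⟨y', rfl⟩ := hπsurj x'
    exact ⟨⟨y, y', fun h => hxx' (by rw [h])⟩⟩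
  -- torsion
  have h3P : ∀ {W : Type} [AddCommGroup W] [Module 𝒪 W] [DistribMulAction G2 W]
      [SMulCommClass G2 𝒪 W] (y : (sys2 3 hN).F 𝒪 W 𝔪),
      (3 : MvPolynomial (I2 3 N) 𝒪) • y = (3 : 𝒪) • y := by
    intro W _ _ _ _ y
    have h1 : (3 : MvPolynomial (I2 3 N) 𝒪) = algebraMap 𝒪 _ (3 : 𝒪) := by rw [map_ofNat]
    rw [h1, algebraMap_smul]
  have h30 : (3 : 𝒪) ≠ 0 := by
    have h4 : ((3 : ℕ) : 𝒪) ≠ 0 := Nat.cast_ne_zero.mpr (by norm_num)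
    rwa [Nat.cast_ofNat] at h4
  have h3A : ∀ y : (sys2 3 hN).F 𝒪 (TwMod sg 𝒪) 𝔪, (3 : MvPolynomial (I2 3 N) 𝒪) • y = 0 → y = 0 := by
    intro y hy
    rw [h3P] at hy
    refine smul_eq_zero_of_nonEis (sys2 3 hN) 𝔪 hnE (3 : 𝒪) ?_ y hy
    intro w hw
    have h2 : (3 : 𝒪) * TwMod.out w = 0 := hw
    rcases mul_eq_zero.1 h2 with h | h
    · exact absurd h h30
    · exact h
  have h3X : ∀ y : (sys2 3 hN).F 𝒪 (FunTw 𝟙 X2 𝒪) 𝔪, (3 : MvPolynomial (I2 3 N) 𝒪) • y = 0 → y = 0 := by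
    intro y hy
    rw [h3P] at hy
    refine smul_eq_zero_of_nonEis (sys2 3 hN) 𝔪 hnE (3 : 𝒪) ?_ y hy
    intro w hw
    apply FunTw.ext
    intro x
    have h2 : (3 : 𝒪) * w x = 0 := congrArg (fun f : FunTw 𝟙 X2 𝒪 => f x) hw
    rcases mul_eq_zero.1 h2 with h | h
    · exact absurd h h30
    · exact h
  -- the dévissage
  obtain ⟨a, x, ha, hx, hka, hkx⟩ := exists_devissage (sys2 3 hN) 𝔪 X2 eX2 hRE hnE hZ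
  have hka' : ∀ y, a y = 0 ↔ ∃ y', (3 : MvPolynomial (I2 3 N) 𝒪) • y' = y := by
    intro y
    rw [hka y]
    constructor
    · rintro ⟨y', hy'⟩
      exact ⟨y', by rw [h3P]; exact hy'⟩
    · rintro ⟨y', hy'⟩
      exact ⟨y', by rw [← h3P]; exact hy'⟩
  have hkx' : ∀ y, x y = 0 ↔ ∃ y', (3 : MvPolynomial (I2 3 N) 𝒪) • y' = y := by
    intro y
    rw [hkx y]
    constructor
    · rintro ⟨y', hy'⟩
      exact ⟨y', by rw [h3P]; exact hy'⟩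
    · rintro ⟨y', hy'⟩
      exact ⟨y', by rw [← h3P]; exact hy'⟩
  -- noetherianity
  haveI : IsNoetherian (MvPolynomial (I2 3 N) 𝒪) ((sys2 3 hN).F 𝒪 (FunTw 𝟙 X2 𝒪) 𝔪) := by
    haveI : Module.Finite 𝒪 𝒪 := Module.Finite.self 𝒪
    haveI : Module.Finite 𝒪 (FunTw 𝟙 X2 𝒪) := inferInstance
    haveI : Module.Finite 𝒪 ((sys2 3 hN).F 𝒪 (FunTw 𝟙 X2 𝒪) 𝔪) :=
      HeckeSys.F_module_finite (sys2 3 hN) _ 𝔪
    haveI : IsNoetherian 𝒪 ((sys2 3 hN).F 𝒪 (FunTw 𝟙 X2 𝒪) 𝔪) := isNoetherian_of_isNoetherianRing_of_finite _ _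
    exact isNoetherian_of_tower 𝒪 inferInstance
  -- the homomorphisms `β`
  have hS2 : ∀ q : ℕ, q.Prime → q ∣ N * 2 → q ∈ S := fun q hq hd =>
    hS q hq (hd.trans (Nat.mul_dvd_mul_left N (by norm_num)))
  obtain ⟨β₄, hβ₄⟩ := exists_beta_four hN h3S t hS θ₄ hθ₄ ℓ₀ h1 hne
  have hℓ₀2 : ¬ ℓ₀.1 ∣ N * 2 := fun h =>
    ℓ₀.2.2.1 (h.trans (Nat.mul_dvd_mul_left N (by norm_num)))
  have h12 : ((N * 2 : ℕ) : ℤ) ∣ (ℓ₀.1 : ℤ) - 1 := by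
    refine dvd_trans ?_ h1
    exact_mod_cast (Nat.mul_dvd_mul_left N (by norm_num : 2 ∣ 4))
  obtain ⟨β₂, hβ₂⟩ := exists_beta_two hN h3S t hS2 θ₂ hθ₂ ⟨ℓ₀.1, ℓ₀.2.1, hℓ₀2, ℓ₀.2.2.2⟩ h12 hne
  -- annihilators
  have hAY := ann_of_injective 𝔪 j hjinj
  have hXY := ann_of_surjective 𝔪 π hπsurj
  -- the tame pair
  have h3T : ((3 : ℕ) : heckeLocal (N * 4) S 𝒪 θ₄) ∈ maximalIdeal (heckeLocal (N * 4) S 𝒪 θ₄) := by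
    have h4 : ((3 : ℕ) : heckeLocal (N * 4) S 𝒪 θ₄) =
        algebraMap 𝒪 (heckeLocal (N * 4) S 𝒪 θ₄) (3 : 𝒪) := by
      rw [map_ofNat]; rfl
    rw [h4, mem_maximalIdeal, mem_nonunits_iff]
    intro hu
    exact (mem_maximalIdeal _).1 h3 (isUnit_of_map_unit _ _ hu)
  haveI hcomp : IsAdicComplete (maximalIdeal (heckeLocal (N * 4) S 𝒪 θ₄)) (heckeLocal (N * 4) S 𝒪 θ₄) :=
    heckeLocal.instIsAdicComplete (N * 4) S 𝒪 θ₄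
  haveI : IsHausdorff (maximalIdeal (heckeLocal (N * 4) S 𝒪 θ₄)) (heckeLocal (N * 4) S 𝒪 θ₄) :=
    hcomp.toIsHausdorff
  obtain ⟨hn1, hn2, hn3, hn4⟩ := tame_pair 3 h3T H₄.ρ hdet b ⟨2, Nat.prime_two⟩ (by norm_num) hur
  haveI : IsLocalHom (β₄ : heckeLocal (N * 4) S 𝒪 θ₄ →+* EW hN (FunTw 𝟙 G2 𝒪) t) :=
    isLocalHom_of_finite_residue _
  have hX0 := subsingleton_of_assembly 𝔪 j hjinj π hπsurj (three_mem_ker_ev2 t h3) h3A h3X a x ha hx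
    hka' hkx' (β₄ : heckeLocal (N * 4) S 𝒪 θ₄ →+* EW hN (FunTw 𝟙 G2 𝒪) t)
    (tameN H₄.ρ b ⟨2, Nat.prime_two⟩ 3) (tamePhi H₄.ρ b ⟨2, Nat.prime_two⟩)
    (fun i k => map_nonunit _ _ (hn1 i k)) hn2 (by rw [hn3]; rfl) (by rw [hn4, pow_two])
    (fun r hr y => htrA β₄ hβ₄ hAY r hr y)
    (fun r hr y => smul_eq_zero_of_trace_tameN hN h3S t hSfin hS θ₄ hθ₄ θ₂ hθ₂ β₄ hβ₄ β₂ hβ₂ hXY
      H₄ hH₄ H₂ hH₂ b hunip r hr y)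
  exact not_subsingleton _ hX0

end asm

end Fermat.Agent.S59lib.R7b
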