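/-
S59lib / R7b / Rat  (helper9, for helper3's R7b) — **(RAT): a coefficient ring over which every point of a finite
`ℤ`-algebra is rational.**

`B` a commutative ring, finite as a `ℤ`-module (a Hecke algebra), `𝒪₀` a complete discrete valuation ring of
characteristic zero with finite residue field.  There is a finite extension `O₁` of `𝒪₀` of the same kind such that for
every domain `D` containing `O₁` every ring homomorphism `B → D` takes its values in `O₁`.

Proof: `B` is spanned over `ℤ` by finitely many `t`, each killed by a monic `P_t ∈ ℤ[X]`; `O₁` is the integral closure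
of `𝒪₀` in the field generated by all the roots of the `P_t` in an algebraic closure; `P_t` splits over `O₁`, so in a
domain the image of `t` is one of the roots.
-/
import Mathlib
import Fermat.Agent.S29lib.Dvr.IntegralClosure
import Fermat.Agent.S22

set_option autoImplicit false
set_option linter.unusedSectionVars false
set_option linter.style.haveILetI false

noncomputable section

namespace Fermat.Agent.S59lib.R7b

open IsLocalRing Polynomial Fermat.Agent.S29lib.Dvr

/-- a multiset all of whose elements are in the range of `ι` is the image of a multiset -/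
theorem exists_multiset_map_eq {X Y : Type*} (ι : X → Y) (R : Multiset Y)
    (h : ∀ r ∈ R, r ∈ Set.range ι) : ∃ R' : Multiset X, R'.map ι = R := by
  induction R using Multiset.induction_on with
  | empty => exact ⟨0, rfl⟩
  | cons a s ih =>
    obtain ⟨s', hs'⟩ := ih fun r hr => h r (Multiset.mem_cons_of_mem hr)
    obtain ⟨x, hx⟩ := h a (Multiset.mem_cons_self a s)
    exact ⟨x ::ₘ s', by rw [Multiset.map_cons, hx, hs']⟩

/-- a monic integral polynomial which is a product of linear factors over `O`: in a domain containing... the image of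
a root of `P` under a ring homomorphism is one of the roots. -/
theorem map_mem_range_of_prod {B O D : Type*} [CommRing B] [CommRing O] [CommRing D] [IsDomain D]
    (g : O →+* D) (P : ℤ[X]) (R' : Multiset O)
    (hP : P.map (Int.castRingHom O) = (R'.map fun r => X - C r).prod)
    (f : B →+* D) (t : B) (ht : eval₂ (Int.castRingHom B) t P = 0) : f t ∈ g.range := by
  have h1 : eval (f t) (P.map (Int.castRingHom D)) = 0 := by
    rw [eval_map, ← (RingHom.ext_int (f.comp (Int.castRingHom B)) (Int.castRingHom D)),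
      ← hom_eval₂, ht, map_zero]
  have h2 : P.map (Int.castRingHom D) = ((R'.map g).map fun r => X - C r).prod := by
    rw [← (RingHom.ext_int (g.comp (Int.castRingHom O)) (Int.castRingHom D)), ← Polynomial.map_map,
      hP, Polynomial.map_multiset_prod, Multiset.map_map, Multiset.map_map]
    congr 1
    refine Multiset.map_congr rfl fun r _ => ?_
    simp
  rw [h2, eval_multiset_prod, Multiset.map_map, Multiset.prod_eq_zero_iff] at h1
  obtain ⟨r, hr, h0⟩ := Multiset.mem_map.mp h1
  obtain ⟨r', -, rfl⟩ := Multiset.mem_map.mp hr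
  refine ⟨r', ?_⟩
  simp only [Function.comp_apply, eval_sub, eval_X, eval_C] at h0
  exact (sub_eq_zero.mp h0).symm

/-- **(RAT)** -/
theorem exists_dvr_rational (B : Type) [CommRing B] [Module.Finite ℤ B]
    (𝒪₀ : Type) [CommRing 𝒪₀] [IsDomain 𝒪₀] [IsDiscreteValuationRing 𝒪₀] [CharZero 𝒪₀]
    [IsAdicComplete (maximalIdeal 𝒪₀) 𝒪₀] [Finite (ResidueField 𝒪₀)] :
    ∃ (O₁ : Type) (_ : CommRing O₁) (_ : IsDomain O₁)
      (_ : IsDiscreteValuationRing O₁) (_ : IsAdicComplete (maximalIdeal O₁) O₁)
      (_ : Finite (ResidueField O₁)) (_ : CharZero O₁) (_ : Algebra 𝒪₀ O₁)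
      (_ : Module.Finite 𝒪₀ O₁) (_ : IsLocalHom (algebraMap 𝒪₀ O₁)),
      Function.Injective (algebraMap 𝒪₀ O₁) ∧
      ∀ (D : Type) [CommRing D] [IsDomain D] [Algebra O₁ D],
        Function.Injective (algebraMap O₁ D) → ∀ (f : B →+* D) (t : B), f t ∈ (algebraMap O₁ D).range := by
  classical
  let K := FractionRing 𝒪₀
  let Ω := AlgebraicClosure K
  haveI : CharZero K := charZero_of_injective_algebraMap (IsFractionRing.injective 𝒪₀ K)
  haveI : CharZero Ω := charZero_of_injective_algebraMap (algebraMap K Ω).injective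
  -- generators and their polynomials
  obtain ⟨s, hs⟩ := (Module.Finite.fg_top : (⊤ : Submodule ℤ B).FG)
  have hint : ∀ t : B, IsIntegral ℤ t := fun t => Algebra.IsIntegral.isIntegral t
  choose P hPm hP using hint
  have hP' : ∀ t : B, eval₂ (Int.castRingHom B) t (P t) = 0 := by
    intro t
    have := hP t
    rwa [algebraMap_int_eq] at this
  -- the roots
  let E : Set Ω := ⋃ t ∈ (s : Set B), {r | r ∈ ((P t).map (Int.castRingHom Ω)).roots}
  have hEfin : E.Finite := by
    refine Set.Finite.biUnion (Finset.finite_toSet s) fun t _ => ?_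
    exact (Multiset.finite_toSet _)
  have hrootint : ∀ (t : B) (r : Ω), r ∈ ((P t).map (Int.castRingHom Ω)).roots → IsIntegral ℤ r := by
    intro t r hr
    refine ⟨P t, hPm t, ?_⟩
    have h1 := (mem_roots'.mp hr).2
    rw [IsRoot.def, eval_map] at h1
    show eval₂ (algebraMap ℤ Ω) r (P t) = 0
    rw [RingHom.ext_int (algebraMap ℤ Ω) (Int.castRingHom Ω)]
    exact h1
  have hEint : ∀ x ∈ E, IsIntegral K x := by
    intro x hx
    obtain ⟨t, ht, hr⟩ := Set.mem_iUnion₂.mp hx
    exact (hrootint t x hr).tower_top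
  let K₁ : IntermediateField K Ω := IntermediateField.adjoin K E
  haveI : Finite E := hEfin.to_subtype
  haveI : FiniteDimensional K K₁ := IntermediateField.finiteDimensional_adjoin hEint
  obtain ⟨hdom, hdvr, hcompl, hfin, hchar, hmf, hloc, hinj⟩ := exists_dvr_structure 𝒪₀ K K₁
  haveI : IsScalarTower 𝒪₀ K₁ Ω := IsScalarTower.of_algebraMap_eq fun _ => rfl
  refine ⟨OL 𝒪₀ K₁, inferInstance, hdom, hdvr, hcompl, hfin, hchar, inferInstance, hmf, hloc, hinj, ?_⟩
  intro D _ _ _ hD f t
  -- the inclusion of `O₁` in `Ω`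
  let ι : OL 𝒪₀ K₁ →+* Ω := (algebraMap K₁ Ω).comp (OL 𝒪₀ K₁).val.toRingHom
  have hι : Function.Injective ι :=
    (algebraMap K₁ Ω).injective.comp Subtype.val_injective
  -- the generators
  have hgen : ∀ t ∈ (s : Set B), f t ∈ (algebraMap (OL 𝒪₀ K₁) D).range := by
    intro t ht
    have hsplit := IsAlgClosed.splits ((P t).map (Int.castRingHom Ω))
    have hmonic : ((P t).map (Int.castRingHom Ω)).Monic := (hPm t).map _
    have hprod := hsplit.eq_prod_roots_of_monic hmonic
    obtain ⟨R', hR'⟩ := exists_multiset_map_eq ι ((P t).map (Int.castRingHom Ω)).roots (by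
      intro r hr
      have hrK₁ : r ∈ K₁ := IntermediateField.subset_adjoin K E (Set.mem_iUnion₂.mpr ⟨t, ht, hr⟩)
      have hrint : IsIntegral 𝒪₀ (⟨r, hrK₁⟩ : K₁) := by
        have h1 : IsIntegral 𝒪₀ r := (hrootint t r hr).tower_top
        exact (isIntegral_algHom_iff (IsScalarTower.toAlgHom 𝒪₀ K₁ Ω)
          (algebraMap K₁ Ω).injective).mp h1
      exact ⟨⟨⟨r, hrK₁⟩, hrint⟩, rfl⟩)
    refine map_mem_range_of_prod (algebraMap (OL 𝒪₀ K₁) D) (P t) R' ?_ f t (hP' t)
    apply Polynomial.map_injective ι hι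
    rw [Polynomial.map_map, RingHom.ext_int (ι.comp (Int.castRingHom (OL 𝒪₀ K₁))) (Int.castRingHom Ω),
      hprod, Polynomial.map_multiset_prod, Multiset.map_map, ← hR', Multiset.map_map]
    congr 1
    refine Multiset.map_congr rfl fun r _ => ?_
    simp
  -- all elements
  have htop : t ∈ Submodule.span ℤ (s : Set B) := by
    rw [hs]
    exact Submodule.mem_top
  induction htop using Submodule.span_induction with
  | mem x hx => exact hgen x hx
  | zero =>
    rw [map_zero]
    exact zero_mem _
  | add x y _ _ hx hy =>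
    rw [map_add]
    exact add_mem hx hy
  | smul c x _ hx =>
    rw [zsmul_eq_mul, map_mul, map_intCast]
    exact mul_mem (intCast_mem _ c) hx

/-- **(RAT) for a Hecke algebra** -/
theorem exists_dvr_rational_hecke (N : ℕ) [NeZero N] (k : ℤ) (S : Set ℕ)
    (𝒪₀ : Type) [CommRing 𝒪₀] [IsDomain 𝒪₀] [IsDiscreteValuationRing 𝒪₀] [CharZero 𝒪₀]
    [IsAdicComplete (maximalIdeal 𝒪₀) 𝒪₀] [Finite (ResidueField 𝒪₀)] :
    ∃ (O₁ : Type) (_ : CommRing O₁) (_ : IsDomain O₁)
      (_ : IsDiscreteValuationRing O₁) (_ : IsAdicComplete (maximalIdeal O₁) O₁)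
      (_ : Finite (ResidueField O₁)) (_ : CharZero O₁) (_ : Algebra 𝒪₀ O₁)
      (_ : Module.Finite 𝒪₀ O₁) (_ : IsLocalHom (algebraMap 𝒪₀ O₁)),
      Function.Injective (algebraMap 𝒪₀ O₁) ∧
      ∀ (D : Type) [CommRing D] [IsDomain D] [Algebra O₁ D],
        Function.Injective (algebraMap O₁ D) → ∀ (f : CuspForm.heckeAlgebra N k S →+* D)
          (t : CuspForm.heckeAlgebra N k S), f t ∈ (algebraMap O₁ D).range := by
  haveI : Module.Finite ℤ (CuspForm.heckeAlgebra N k S) := Fermat.Agent.S22.result N k S
  exact exists_dvr_rational (CuspForm.heckeAlgebra N k S) 𝒪₀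

end Fermat.Agent.S59lib.R7b
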