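/-
S59lib / R7b / LevelOne  (helper3) — Project I, item R7b.

**The level `M` itself.**  `sys2 p hM` lives on `Γ₀(M)`; the module `H¹(Γ₀(M), R)` with trivial coefficients
(`TwMod 𝟙 R`) is the cohomology of level `M`:
* `shF1 : H¹(Γ₀(M), TwMod 𝟙 R) → H1 (levelPi χ) R (Reg G' R)` (`G'` trivial), injective and compatible with the
  operators `T_ℓ`, `ℓ ∤ 2 p M` (Shapiro's map for the one-point `G2`-set).
-/
import Fermat.Agent.S59lib.R7b.BetaGen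

set_option autoImplicit false
set_option linter.unusedSectionVars false
set_option linter.unusedVariables false
set_option linter.style.haveILetI false

noncomputable section

namespace Fermat.Agent.S59lib.R7b

open CongruenceSubgroup Matrix.SpecialLinearGroup Fermat.Agent.S43lib.B1 Fermat.Agent.S59lib.S3Proj
open Fermat.Agent.S16lib.LH Fermat.Agent.S41lib.HC Fermat.Agent.S48lib.W1
open Fermat.Agent.S31lib.PET MvPolynomial CuspForm IsLocalRing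
open Fermat.Agent.S43lib.B2 Fermat.Agent.S43lib.B2.Bridge
open scoped MatrixGroups

local notation "𝟙" => (1 : G2 →* ℤˣ)

/-! ### The coset data -/

section lvl1

variable {p M : ℕ} [NeZero M] (hM : Odd M)

theorem stab1 (γ' : ↥(Gamma0 M)) :
    pi2 M ((MonoidHom.id ↥(Gamma0 M)) γ') • (PUnit.unit : PUnit.{1}) = PUnit.unit := rfl

theorem im1 (γ : ↥(Gamma0 M)) (h : pi2 M γ • (PUnit.unit : PUnit.{1}) = PUnit.unit) :
    ∃ γ' : ↥(Gamma0 M), (MonoidHom.id ↥(Gamma0 M)) γ' = γ := ⟨γ, rfl⟩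

theorem inj1 : Function.Injective (MonoidHom.id ↥(Gamma0 M)) := fun _ _ h => h

/-- the datum of `T_ℓ`, pulled back along the identity -/
def pD1 (i : I2 p M) : CosetData ↥(Gamma0 M) ↥(Gamma0 M) (OnePoint (ZMod i.1)) :=
  pullData (pi2 M) (MonoidHom.id ↥(Gamma0 M)) PUnit.{1} PUnit.unit stab1 im1 inj1 (sysD hM i)
    (sysD_equivariant hM i)

theorem pD1_c (i : I2 p M) (γ' : ↥(Gamma0 M)) (x : OnePoint (ZMod i.1)) :
    (pD1 hM i).c γ' x = (sysD hM i).c γ' x :=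
  pullData_c (pi2 M) (MonoidHom.id ↥(Gamma0 M)) PUnit.{1} PUnit.unit stab1 im1 inj1 (sysD hM i)
    (sysD_equivariant hM i) γ' x

theorem pD1_rel (i : I2 p M) (γ' : ↥(Gamma0 M)) (x : OnePoint (ZMod i.1)) :
    (sysFam hM i).P x * toMZ γ' =
      toMZ ((pD1 hM i).c γ' x) * (sysFam hM i).P ((pD1 hM i).σ γ' x) := by
  have h := sysFam_rel hM i γ' x
  rw [← pD1_c] at h
  exact h

/-- the datum is conjugate to the normalised datum of `T_ℓ` of level `M` -/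
theorem pD1_conj (i : I2 p M) :
    haveI : Fact i.1.Prime := ⟨i.2.1⟩
    ∃ (e : OnePoint (ZMod i.1) ≃ OnePoint (ZMod i.1)) (d : OnePoint (ZMod i.1) → ↥(Gamma0 M)),
      ∀ γ x, (nData (M := M) (ℓ := i.1) i.not_dvd).c γ (e x) =
        (d x)⁻¹ * (pD1 hM i).c γ x * ((d ((pD1 hM i).σ γ x))⁻¹)⁻¹ := by
  haveI : Fact i.1.Prime := ⟨i.2.1⟩
  have hn : ((i.1 : ℕ) : ℤ) ≠ 0 := by exact_mod_cast i.2.1.ne_zero
  obtain ⟨e, d, -, h⟩ := exists_conj_of_fam (tFam (M := M) (ℓ := i.1) i.not_dvd)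
    (tFam_rel (M := M) (ℓ := i.1) i.not_dvd) hn (sysFam hM i).P
    (fun x => ((sysFam hM i).shape x).shapeU)
    (sysFam hM i).det_eq (D' := pD1 hM i) (pD1_rel hM i)
    (fun c c' x x' h => (sysFam hM i).uniq (toMZ c) (toMZ c') x x'
      (by rw [toMZ_det]; exact isCoprime_one_left) (by rw [toMZ_det]; exact isCoprime_one_left) h)
    rfl
  exact ⟨e, d, h⟩

section op1

variable {G' : Type} [CommGroup G'] [Subsingleton G']
variable (𝒪 : Type) [CommRing 𝒪] (A : Type) [AddCommGroup A] [Module 𝒪 A] [DistribMulAction G' A]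
  [SMulCommClass G' 𝒪 A]

/-- Shapiro's map for the one-point set: the cohomology of level `M` -/
def sh1 (χ : (ZMod M)ˣ →* G') :
    H1 (pi2 M) 𝒪 (FunTw (1 : G2 →* ℤˣ) PUnit.{1} A) →ₗ[𝒪] H1 (levelPi χ) 𝒪 A :=
  shH (pi2 M) (levelPi χ) (MonoidHom.id ↥(Gamma0 M)) PUnit.{1} PUnit.unit 𝒪 A (unit_smul_eq A) stab1

theorem sh1_T (χ : (ZMod M)ˣ →* G') (i : I2 p M)
    (y : H1 (pi2 M) 𝒪 (FunTw (1 : G2 →* ℤˣ) PUnit.{1} A)) :
    sh1 𝒪 A χ ((sys2 p hM).T 𝒪 (FunTw (1 : G2 →* ℤˣ) PUnit.{1} A) i y) =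
      lvlOp χ 𝒪 A (Sum.inl (Sum.inl ⟨i.1, i.2.1, i.not_dvd⟩)) (sh1 𝒪 A χ y) := by
  haveI : Fact i.1.Prime := ⟨i.2.1⟩
  have hD' : CosetData.IsEquivariant (levelPi χ) (pD1 hM i) := fun _ _ => Subsingleton.elim _ _
  have h1 := shH_heckeH (pi2 M) (levelPi χ) (MonoidHom.id ↥(Gamma0 M)) PUnit.{1} PUnit.unit 𝒪 A
    (unit_smul_eq A) stab1 (sysD_equivariant hM i) hD' (pD1_c hM i) y
  obtain ⟨e, d, h⟩ := pD1_conj hM i
  have h2 := heckeH_eq_of_conj 𝒪 A hD'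
    (isEquivariant_levelPi χ (nData_equivariant (M := M) (ℓ := i.1) i.not_dvd)) e
    (fun x => (d x)⁻¹) (fun _ => Subsingleton.elim _ _) h (sh1 𝒪 A χ y)
  exact h1.trans h2.symm

theorem sh1_injective (χ : (ZMod M)ˣ →* G') : Function.Injective (sh1 (M := M) 𝒪 A χ) :=
  shH_injective (pi2 M) (levelPi χ) (MonoidHom.id ↥(Gamma0 M)) PUnit.{1} PUnit.unit 𝒪 A
    (unit_smul_eq A) stab1 (fun x => ⟨1, rfl⟩) im1

end op1

end lvl1

/-! ### plain coefficients -/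

section plain

variable (R : Type) [CommRing R] (p : ℕ) {M : ℕ} [NeZero M] (hM : Odd M)
variable {G' : Type} [CommGroup G'] [Subsingleton G']

/-- evaluation at the point -/
def evalPt (A : Type) [AddCommGroup A] [Module R A] : FunTw 𝟙 PUnit.{1} A →ₗ[R] TwMod 𝟙 A where
  toFun f := TwMod.mk 𝟙 (f PUnit.unit)
  map_add' _ _ := rfl
  map_smul' _ _ := rfl

theorem isEquivar_evalPt (A : Type) [AddCommGroup A] [Module R A] : IsEquivar G2 (evalPt R A) :=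
  fun g f => by
    show TwMod.mk 𝟙 ((g • f) PUnit.unit) = g • TwMod.mk 𝟙 (f PUnit.unit)
    rw [FunTw.smul_apply, TwMod.smul_def]
    rfl

theorem evalPt_constMap (A : Type) [AddCommGroup A] [Module R A] (w : TwMod 𝟙 A) :
    evalPt R A (constMap 𝟙 PUnit.{1} R A w) = w := rfl

/-- the coefficient map `R → Fun(pt, Reg G' R)` -/
def cst1 : TwMod 𝟙 R →ₗ[R] FunTw 𝟙 PUnit.{1} (Reg G' R) :=
  (mapCoef 𝟙 PUnit.{1} R (cstReg G' R)).comp (constMap 𝟙 PUnit.{1} R R)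

theorem isEquivar_cst1 : IsEquivar G2 (cst1 R (G' := G')) :=
  (isEquivar_constMap 𝟙 PUnit.{1} R R).comp (isEquivar_mapCoef 𝟙 PUnit.{1} R (cstReg G' R))

/-- its left inverse -/
def evl1 : FunTw 𝟙 PUnit.{1} (Reg G' R) →ₗ[R] TwMod 𝟙 R :=
  (evalPt R R).comp (mapCoef 𝟙 PUnit.{1} R (evlReg G' R))

theorem isEquivar_evl1 : IsEquivar G2 (evl1 R (G' := G')) :=
  (isEquivar_mapCoef 𝟙 PUnit.{1} R (evlReg G' R)).comp (isEquivar_evalPt R R)

theorem evl1_cst1 (w : TwMod 𝟙 R) : evl1 R (G' := G') (cst1 R w) = w := rfl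

/-- **the cohomology of level `M`**: the comparison map -/
def shF1 (χ : (ZMod M)ˣ →* G') :
    (sys2 p hM).Coh R (TwMod 𝟙 R) →ₗ[R] H1 (levelPi χ) R (Reg G' R) :=
  (sh1 (M := M) R (Reg G' R) χ).comp
    (((sys2 p hM).map (cst1 R (G' := G')) (isEquivar_cst1 R)).restrictScalars R)

theorem shF1_apply (χ : (ZMod M)ˣ →* G') (y : (sys2 p hM).Coh R (TwMod 𝟙 R)) :
    shF1 R p hM χ y = sh1 (M := M) R (Reg G' R) χ
      ((sys2 p hM).map (cst1 R (G' := G')) (isEquivar_cst1 R) y) := rfl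

theorem shF1_T (χ : (ZMod M)ˣ →* G') (i : I2 p M) (y : (sys2 p hM).Coh R (TwMod 𝟙 R)) :
    shF1 R p hM χ ((sys2 p hM).T R (TwMod 𝟙 R) i y) =
      lvlOp χ R (Reg G' R) (Sum.inl (Sum.inl ⟨i.1, i.2.1, i.not_dvd⟩)) (shF1 R p hM χ y) := by
  rw [shF1_apply, shF1_apply, ← HeckeSys.X_smul, map_smul, HeckeSys.X_smul]
  exact sh1_T hM R (Reg G' R) χ i _

theorem shF1_injective (χ : (ZMod M)ˣ →* G') : Function.Injective (shF1 R p hM χ) := by
  intro y y' h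
  rw [shF1_apply, shF1_apply] at h
  have h1 := sh1_injective R (Reg G' R) χ h
  have h2 := congrArg ((sys2 p hM).map (evl1 R (G' := G')) (isEquivar_evl1 R)) h1
  rw [map_leftInverse (sys2 p hM) (isEquivar_cst1 R) (isEquivar_evl1 R) (evl1_cst1 R),
    map_leftInverse (sys2 p hM) (isEquivar_cst1 R) (isEquivar_evl1 R) (evl1_cst1 R)] at h2
  exact h2

end plain

/-! ### characters of the Hecke algebra from a non-zero localised module -/

section char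

/-- a ring homomorphism out of the anemic Hecke algebra from relations -/
theorem exists_heckeAlgebra_hom {L : ℕ} [NeZero L] {S : Set ℕ}
    (hS : ∀ q : ℕ, q.Prime → q ∣ L → q ∈ S) {E : Type*} [CommRing E] (f : GoodPrime L S → E)
    (hR : ∀ P : FreeAlgebra ℤ (GoodPrime L S),
      (evalForms P : ↥(heckeAlgebra L 2 S)) = 0 → FreeAlgebra.lift ℤ f P = 0) :
    ∃ χ : ↥(heckeAlgebra L 2 S) →+* E, ∀ ℓ : GoodPrime L S,
      χ (heckeAlgebra.T ℓ.2.1 ℓ.2.2.1 ℓ.2.2.2) = f ℓ := by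
  classical
  have hsurj := evalForms_surjective L S hS
  let ev : FreeAlgebra ℤ (GoodPrime L S) →+* ↥(heckeAlgebra L 2 S) :=
    (evalForms (M := L) (S := S) : FreeAlgebra ℤ (GoodPrime L S) →+* ↥(heckeAlgebra L 2 S))
  let lt : FreeAlgebra ℤ (GoodPrime L S) →+* E :=
    (FreeAlgebra.lift ℤ f : FreeAlgebra ℤ (GoodPrime L S) →+* E)
  have hker : RingHom.ker ev ≤ RingHom.ker lt := by
    intro P hP
    rw [RingHom.mem_ker] at hP ⊢
    exact hR P hP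
  let χ : ↥(heckeAlgebra L 2 S) →+* E := RingHom.liftOfSurjective ev hsurj ⟨lt, hker⟩
  have hχ : ∀ P : FreeAlgebra ℤ (GoodPrime L S), χ (evalForms P) = FreeAlgebra.lift ℤ f P :=
    fun P => RingHom.liftOfRightInverse_comp_apply ev _ _ ⟨lt, hker⟩ P
  refine ⟨χ, fun ℓ => ?_⟩
  rw [← evalForms_ι, hχ, FreeAlgebra.lift_ι_apply]

variable {𝒪 : Type} [CommRing 𝒪] [IsDomain 𝒪] [IsDiscreteValuationRing 𝒪]
  [IsAdicComplete (maximalIdeal 𝒪) 𝒪] [CharZero 𝒪] [Finite (ResidueField 𝒪)]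
variable {N : ℕ} [NeZero N] (hN : Odd N) {L : ℕ} [NeZero L] {S : Set ℕ}
variable (g : GoodPrime L S → I2 3 N)
variable (W : Type) [AddCommGroup W] [Module 𝒪 W] [DistribMulAction G2 W] [SMulCommClass G2 𝒪 W]
variable (t : ℕ → ResidueField 𝒪)
variable {G' : Type} [CommGroup G'] [Subsingleton G'] (χ : (ZMod L)ˣ →* G')
variable (sh : (sys2 3 hN).Coh 𝒪 W →ₗ[𝒪] H1 (levelPi χ) 𝒪 (Reg G' 𝒪))
variable [hY : Nontrivial ((sys2 3 hN).F 𝒪 W (RingHom.ker (ev2 3 (M := N) t)))]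

/-- **a non-zero localised module of `sys2` which embeds Hecke-equivariantly in the cohomology of level `L` gives a
character of the Hecke algebra of level `L`** with values in (an extension of) the residue field -/
theorem exists_residual_char_gen
    (hshT : ∀ (ℓ : GoodPrime L S) (y : (sys2 3 hN).Coh 𝒪 W),
      sh ((sys2 3 hN).T 𝒪 W (g ℓ) y) = heckeHOp₀ χ 𝒪 (Reg G' 𝒪) ℓ (sh y))
    (hinj : Function.Injective sh)
    (hg : ∀ ℓ, (g ℓ).1 = ℓ.1)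
    (hS : ∀ q : ℕ, q.Prime → q ∣ L → q ∈ S)
    (ℓ₀ : GoodPrime L S) (h1 : ((L : ℕ) : ℤ) ∣ (ℓ₀.1 : ℤ) - 1)
    (hne : t ℓ₀.1 ≠ ((1 + ℓ₀.1 : ℕ) : ResidueField 𝒪)) :
    ∃ θ : ↥(heckeAlgebra L 2 S) →+* ResidueField (EW hN W t), ∀ ℓ : GoodPrime L S,
      θ (heckeAlgebra.T ℓ.2.1 ℓ.2.2.1 ℓ.2.2.2) =
        ResidueField.map (algebraMap 𝒪 (EW hN W t)) (t ℓ.1) := by
  obtain ⟨χ₁, hχ₁⟩ := exists_heckeAlgebra_hom hS (fun ℓ => polyW hN W t (X (g ℓ))) (by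
    intro P hP
    refine (lift_polyG g (polyW hN W t) P).trans ?_
    rw [polyW_eq_zero_iff]
    set u : MvPolynomial (I2 3 N) 𝒪 := X (g ℓ₀) - C ((1 + ℓ₀.1 : ℕ) : 𝒪) with hu
    have hu𝔪 : u ∉ RingHom.ker (ev2 3 (M := N) t) := by
      rw [RingHom.mem_ker, hu, map_sub, ev2_X, ev2_C, map_natCast, hg]
      exact sub_ne_zero.mpr hne
    intro y
    induction y using LocalizedModule.induction_on with
    | h x s =>
      have h2 := qPolyG_smul_eq_zero hN g W χ sh hshT hinj P hP ℓ₀ h1 x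
      rw [LocalizedModule.smul'_mk, ← LocalizedModule.zero_mk 1, LocalizedModule.mk_eq]
      refine ⟨⟨u, hu𝔪⟩, ?_⟩
      rw [smul_zero, smul_zero, one_smul]
      show u • (qPolyG (𝒪 := 𝒪) g P • x) = 0
      rw [smul_comm]
      exact h2)
  refine ⟨(residue (EW hN W t)).comp χ₁, fun ℓ => ?_⟩
  obtain ⟨c, hc⟩ := residue_surjective (t ℓ.1)
  have h2 : (X (g ℓ) - C c : MvPolynomial (I2 3 N) 𝒪) ∈ RingHom.ker (ev2 3 (M := N) t) := by
    rw [RingHom.mem_ker, map_sub, ev2_X, ev2_C, hc, hg]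
    exact sub_self _
  have h3 := polyW_mem_maximalIdeal hN W t h2
  rw [map_sub, polyW_C, ← residue_eq_zero_iff, map_sub, sub_eq_zero] at h3
  rw [RingHom.comp_apply, hχ₁, h3, ← hc, ResidueField.map_residue]

end char

/-! ### descent of a character with integral values to the prime field -/

section descent

/-- a character of the anemic Hecke algebra with values in a field of characteristic `p` whose values on the `T_ℓ`
are (reductions of) integers takes its values in `𝔽_p` -/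
theorem exists_zmod_char {L : ℕ} [NeZero L] (S : Set ℕ)
    (hS : ∀ q : ℕ, q.Prime → q ∣ L → q ∈ S) {F : Type*} [Field F] (p : ℕ) [Fact p.Prime] [CharP F p]
    (θb : ↥(heckeAlgebra L 2 S) →+* F) (a : ℕ → ℤ)
    (ha : ∀ (ℓ : ℕ) (hℓ : ℓ.Prime) (hℓL : ¬ ℓ ∣ L) (hℓS : ℓ ∉ S),
      θb (heckeAlgebra.T hℓ hℓL hℓS) = ((a ℓ : ℤ) : F)) :
    ∃ θ₀ : ↥(heckeAlgebra L 2 S) →+* ZMod p,
      ∀ (ℓ : ℕ) (hℓ : ℓ.Prime) (hℓL : ¬ ℓ ∣ L) (hℓS : ℓ ∉ S),
        θ₀ (heckeAlgebra.T hℓ hℓL hℓS) = ((a ℓ : ℤ) : ZMod p) := by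
  classical
  let ι : ZMod p →+* F := ZMod.castHom (dvd_refl p) F
  have hιinj : Function.Injective ι := ι.injective
  have hrange : ∀ x : heckeAlgebra L 2 S, θb x ∈ ι.range := by
    rintro ⟨x, hx⟩
    induction hx using Algebra.adjoin_induction with
    | mem T hT =>
      rcases hT with ⟨ℓ, hℓ, hℓN, hℓS, rfl⟩ | ⟨q, hqN, hq, hqS, rfl⟩
      · have := ha ℓ hℓ hℓN hℓS
        rw [show (⟨CuspForm.heckeTLin 2 hℓ hℓN, _⟩ : heckeAlgebra L 2 S) =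
          heckeAlgebra.T hℓ hℓN hℓS from rfl, this]
        exact ⟨((a ℓ : ℤ) : ZMod p), map_intCast _ _⟩
      · exact absurd (hS q hq hqN) hqS
    | algebraMap z =>
      have : (⟨algebraMap ℤ _ z, Subalgebra.algebraMap_mem _ z⟩ : heckeAlgebra L 2 S) =
          ((z : ℤ) : heckeAlgebra L 2 S) := by
        apply Subtype.ext
        simp
      rw [this, map_intCast]
      exact ⟨((z : ℤ) : ZMod p), map_intCast _ _⟩
    | add x y hx hy ihx ihy =>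
      have : (⟨x + y, add_mem hx hy⟩ : heckeAlgebra L 2 S) = ⟨x, hx⟩ + ⟨y, hy⟩ := rfl
      rw [this, map_add]
      exact Subring.add_mem _ ihx ihy
    | mul x y hx hy ihx ihy =>
      have : (⟨x * y, mul_mem hx hy⟩ : heckeAlgebra L 2 S) = ⟨x, hx⟩ * ⟨y, hy⟩ := rfl
      rw [this, map_mul]
      exact Subring.mul_mem _ ihx ihy
  let e : ZMod p ≃+* ι.range :=
    RingEquiv.ofBijective ι.rangeRestrict
      ⟨fun x y h => hιinj (congrArg Subtype.val h), ι.rangeRestrict_surjective⟩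
  let θ₁ : heckeAlgebra L 2 S →+* ZMod p :=
    (e.symm : ι.range →+* ZMod p).comp (θb.codRestrict ι.range hrange)
  have hθ₁ : ∀ x, ι (θ₁ x) = θb x := by
    intro x
    have h1 : e (θ₁ x) = θb.codRestrict ι.range hrange x := e.apply_symm_apply _
    exact congrArg Subtype.val h1
  refine ⟨θ₁, fun ℓ hℓ hℓN hℓS => ?_⟩
  apply hιinj
  rw [hθ₁, ha, map_intCast]

end descent

/-! ### the level `N` -/

section one

variable {𝒪 : Type} [CommRing 𝒪] [IsDomain 𝒪] [IsDiscreteValuationRing 𝒪]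
  [IsAdicComplete (maximalIdeal 𝒪) 𝒪] [CharZero 𝒪] [Finite (ResidueField 𝒪)]
variable {N : ℕ} [NeZero N] (hN : Odd N) {S : Set ℕ} (h2S : 2 ∈ S) (h3S : 3 ∈ S)
variable (t : ℕ → ResidueField 𝒪)

/-- the index of a good prime of level `N` (for a set `S ∋ 2, 3`) -/
def goodToI2₁ (ℓ : GoodPrime N S) : I2 3 N :=
  ⟨ℓ.1, ℓ.2.1, fun h => by
      rcases (Nat.Prime.dvd_mul ℓ.2.1).1 h with h | h
      · exact ℓ.2.2.1 h
      · exact ℓ.2.2.2 (((Nat.prime_dvd_prime_iff_eq ℓ.2.1 Nat.prime_two).1 h) ▸ h2S),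
    fun h => ℓ.2.2.2 (h ▸ h3S)⟩

include h2S h3S in
/-- **if `H¹(Γ₀(N), 𝒪)_𝔪 ≠ 0` then the system of eigenvalues `t` occurs in level `N`** -/
theorem exists_zmod_char_of_nontrivial_one
    [Nontrivial ((sys2 3 hN).F 𝒪 (TwMod 𝟙 𝒪) (RingHom.ker (ev2 3 (M := N) t)))]
    (h3 : (3 : 𝒪) ∈ maximalIdeal 𝒪)
    (hS : ∀ q : ℕ, q.Prime → q ∣ N → q ∈ S)
    (ℓ₀ : GoodPrime N S) (h1 : ((N : ℕ) : ℤ) ∣ (ℓ₀.1 : ℤ) - 1)
    (hne : t ℓ₀.1 ≠ ((1 + ℓ₀.1 : ℕ) : ResidueField 𝒪))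
    (a : ℕ → ℤ) (ha : ∀ ℓ : GoodPrime N S, t ℓ.1 = ((a ℓ.1 : ℤ) : ResidueField 𝒪)) :
    ∃ θ₀ : ↥(heckeAlgebra N 2 S) →+* ZMod 3,
      ∀ (ℓ : ℕ) (hℓ : ℓ.Prime) (hℓN : ¬ ℓ ∣ N) (hℓS : ℓ ∉ S),
        θ₀ (heckeAlgebra.T hℓ hℓN hℓS) = ((a ℓ : ℤ) : ZMod 3) := by
  haveI : Fact (Nat.Prime 3) := ⟨Nat.prime_three⟩
  obtain ⟨θ, hθ⟩ := exists_residual_char_gen hN (goodToI2₁ h2S h3S) (TwMod 𝟙 𝒪) t
    (1 : (ZMod N)ˣ →* (ZMod 1)ˣ) (shF1 𝒪 3 hN _) (by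
      intro ℓ y
      haveI : Fact ℓ.1.Prime := ⟨ℓ.2.1⟩
      rw [shF1_T]
      show heckeH 𝒪 (Reg _ 𝒪) _ _ = heckeH 𝒪 (Reg _ 𝒪) (nData_equi₀ (χ := _) ℓ.2.2.1) _
      congr!) (shF1_injective 𝒪 3 hN _) (fun _ => rfl) hS ℓ₀ h1 hne
  -- the characteristic of the residue field of the Hecke ring
  have h3E : ((3 : ℕ) : ResidueField
      (EW hN (TwMod 𝟙 𝒪) t)) = 0 := by
    have h4 : (algebraMap 𝒪 (EW hN (TwMod 𝟙 𝒪) t)) (3 : 𝒪) ∈
        maximalIdeal (EW hN (TwMod 𝟙 𝒪) t) := by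
      rw [mem_maximalIdeal, mem_nonunits_iff]
      intro hu
      exact (mem_maximalIdeal _).1 h3 (isUnit_of_map_unit _ _ hu)
    have h5 := (residue_eq_zero_iff _).2 h4
    rw [map_ofNat] at h5
    rw [Nat.cast_ofNat]
    rw [← h5, map_ofNat]
  haveI : CharP (ResidueField (EW hN (TwMod 𝟙 𝒪) t)) 3 :=
    (CharP.charP_iff_prime_eq_zero Nat.prime_three).2 h3E
  refine exists_zmod_char S hS 3 θ a fun ℓ hℓ hℓN hℓS => ?_
  rw [hθ ⟨ℓ, hℓ, hℓN, hℓS⟩, ha ⟨ℓ, hℓ, hℓN, hℓS⟩, map_intCast]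

end one

end Fermat.Agent.S59lib.R7b
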