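/-
S59lib / R7b / ZOne  (helper4) — Project I, item R7b, brick (F2) of helper3's #h3-G55.

**If `H¹(Γ₀(N), 𝒪)_𝔪 ≠ 0` for the maximal ideal `𝔪` of the system `a_ℓ(W) mod 3`, then `W` is residually modular of level
`N`** (`N` odd): helper3's `exists_zmod_char_of_nontrivial_one` gives a character of the anemic Hecke algebra of level `N`
with values in `𝔽₃`, Deligne–Serre (`S3Proj/FormLift`) lifts it to a normalised eigenform congruent to `W` at the primes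
outside `S'`, and helper1's `AuxPrime.exists_congr_at_good` adds the good primes of `S'` not dividing `3 N` (e.g. `2`).
-/
import Fermat.Agent.S59lib.R7b.LevelOne
import Fermat.Agent.S59lib.S3Proj.FormLift
import Fermat.Agent.S59lib.AuxPrime.CongrAt

set_option autoImplicit false
set_option linter.unusedSectionVars false
set_option linter.unusedVariables false
set_option linter.style.haveILetI false

noncomputable section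

namespace Fermat.Agent.S59lib.R7b

open CongruenceSubgroup Fermat.Agent.S43lib.B1 Fermat.Agent.S59lib.S3Proj
open Fermat.Agent.S31lib.PET MvPolynomial CuspForm IsLocalRing
open Fermat.Agent.S43lib.B2 Fermat.Agent.S43lib.B2.Bridge
open scoped MatrixGroups

/-- **`Z ≠ 0` ⇒ residually modular of level `N`** -/
theorem isResiduallyModularOfLevel_of_nontrivial_one (W : WeierstrassCurve ℤ) (hΔ : W.Δ ≠ 0)
    {𝒪 : Type} [CommRing 𝒪] [IsDomain 𝒪] [IsDiscreteValuationRing 𝒪]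
    [IsAdicComplete (maximalIdeal 𝒪) 𝒪] [CharZero 𝒪] [Finite (ResidueField 𝒪)]
    (h3 : (3 : 𝒪) ∈ maximalIdeal 𝒪)
    {N : ℕ} [NeZero N] (hN : Odd N) (S' : Finset ℕ) (h2S' : 2 ∈ S') (h3S' : 3 ∈ S')
    (hNS' : ∀ q : ℕ, q.Prime → q ∣ N → q ∈ S')
    (t : ℕ → ResidueField 𝒪)
    (ht : ∀ ℓ : ℕ, ℓ.Prime → ℓ ∉ S' → t ℓ = ((W.apOfModel ℓ : ℤ) : ResidueField 𝒪))
    {ℓ₀ : ℕ} (hℓ₀ : ℓ₀.Prime) (hℓ₀S' : ℓ₀ ∉ S') (h1 : ((N : ℕ) : ℤ) ∣ (ℓ₀ : ℤ) - 1)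
    (hne : t ℓ₀ ≠ ((1 + ℓ₀ : ℕ) : ResidueField 𝒪))
    [Nontrivial ((sys2 3 hN).F 𝒪 (TwMod (1 : G2 →* ℤˣ) 𝒪) (RingHom.ker (ev2 3 (M := N) t)))] :
    W.IsResiduallyModularOfLevel 3 N := by
  classical
  haveI : Fact (Nat.Prime 3) := ⟨Nat.prime_three⟩
  have hℓ₀N : ¬ ℓ₀ ∣ N := fun h => hℓ₀S' (hNS' ℓ₀ hℓ₀ h)
  -- the character with values in `𝔽₃`
  obtain ⟨θ₀, hθ₀⟩ := exists_zmod_char_of_nontrivial_one hN (S := (↑S' : Set ℕ))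
    (Finset.mem_coe.mpr h2S') (Finset.mem_coe.mpr h3S') t h3
    (fun q hq hqN => Finset.mem_coe.mpr (hNS' q hq hqN))
    ⟨ℓ₀, hℓ₀, hℓ₀N, fun h => hℓ₀S' (Finset.mem_coe.mp h)⟩ h1 hne
    (fun ℓ => W.apOfModel ℓ)
    (fun ℓ => ht ℓ.1 ℓ.2.1 (fun h => ℓ.2.2.2 (Finset.mem_coe.mpr h)))
  -- Deligne–Serre
  obtain ⟨g, 𝔪', hg, h𝔪', h3𝔪', hcong⟩ :=
    exists_eigenform_of_modp_char (M := N) (↑S' : Set ℕ) θ₀
  haveI := h𝔪'
  have hcong' : ∀ ℓ : ℕ, ℓ.Prime → ℓ ∉ S' →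
      ∃ a : integralClosure ℤ ℂ, (a : ℂ) = ModularFormClass.qCoeff g ℓ ∧
        a - ((W.apOfModel ℓ : ℤ) : integralClosure ℤ ℂ) ∈ 𝔪' := by
    intro ℓ hℓ hℓS
    have hℓN : ¬ ℓ ∣ N := fun h => hℓS (hNS' ℓ hℓ h)
    have hℓS' : ℓ ∉ (↑S' : Set ℕ) := fun h => hℓS (Finset.mem_coe.mp h)
    exact hcong ℓ hℓ hℓN hℓS' (W.apOfModel ℓ) (hθ₀ ℓ hℓ hℓN hℓS')
  refine ⟨g, 𝔪', hg, h𝔪', h3𝔪', fun ℓ hℓ hgood hℓN hℓ3 => ?_⟩
  by_cases hℓS : ℓ ∈ S'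
  · exact Fermat.Agent.S59lib.AuxPrime.exists_congr_at_good W hΔ 3 g hg 𝔪' h3𝔪' S' hcong' hℓ hℓ3 hℓN
      hgood
  · exact hcong' ℓ hℓ hℓS

end Fermat.Agent.S59lib.R7b
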