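/-
S59lib / R7b / Main  (helper3) — Project I, item R7b.

**Mazur's principle at `q = 2` for `p = 3`** (`R7b.ALD.Lower32CoreStmt`): `W[3]` irreducible and unramified at `2`,
`N = M₀ r` odd with an auxiliary prime `r ≡ 2 (mod 3)`; residually modular of level `2 N` ⟹ of level `N`.
-/
import Fermat.Agent.S59lib.R7b.Asm
import Fermat.Agent.S59lib.R7b.ALD.TraceA
import Fermat.Agent.S59lib.R7b.ZOne
import Fermat.Agent.S59lib.R7b.TwoOfX2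
import Fermat.Agent.S59lib.R7b.Rat
import Fermat.Agent.S59lib.R7b.ALD.End32
import Fermat.Agent.S59lib.Hub.Gal32
import Fermat.Agent.S59lib.S3Proj.Main
import Fermat.Agent.S34

set_option autoImplicit false
set_option linter.unusedSectionVars false
set_option linter.unusedVariables false
set_option linter.style.haveILetI false

noncomputable section

namespace Fermat.Agent.S59lib.R7b

open CongruenceSubgroup CuspForm IsLocalRing MvPolynomial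
open Fermat.Agent.S43lib.B1 Fermat.Agent.S43lib.B2 Fermat.Agent.S43lib.B2.Bridge
open Fermat.Agent.S43lib.Loc
open Fermat.Agent.S59lib.S3Proj
open scoped MatrixGroups

local notation "𝟙" => (1 : G2 →* ℤˣ)

/-- **the coefficient ring**: a complete discrete valuation ring of residue characteristic `3` over which all points
of a given Hecke algebra are rational -/
theorem exists_coeff_ring_rat (L : ℕ) [NeZero L] (S : Set ℕ) :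
    ∃ (𝒪 : Type) (_ : CommRing 𝒪) (_ : IsDomain 𝒪) (_ : IsDiscreteValuationRing 𝒪)
      (_ : IsAdicComplete (maximalIdeal 𝒪) 𝒪) (_ : Finite (ResidueField 𝒪)) (_ : CharZero 𝒪),
      (3 : 𝒪) ∈ maximalIdeal 𝒪 ∧
      ∀ (D : Type) [CommRing D] [IsDomain D] [Algebra 𝒪 D],
        Function.Injective (algebraMap 𝒪 D) → ∀ (f : CuspForm.heckeAlgebra L 2 S →+* D)
          (x : CuspForm.heckeAlgebra L 2 S), f x ∈ (algebraMap 𝒪 D).range := by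
  haveI hp3 : Fact (Nat.Prime 3) := ⟨Nat.prime_three⟩
  obtain ⟨𝒪₀, i1, i2, i3, i4, i5, i6, i7, hp𝒪, -, -⟩ := exists_coeff_ring_zmod 3 (by decide)
  obtain ⟨𝒪, j1, j2, j3, j4, j5, j6, j7, j8, j9, hinj, hR⟩ :=
    exists_dvr_rational_hecke L 2 S 𝒪₀
  refine ⟨𝒪, j1, j2, j3, j4, j5, j6, ?_, hR⟩
  have h3 : (3 : 𝒪₀) ∈ maximalIdeal 𝒪₀ := by
    have : ((3 : ℕ) : 𝒪₀) = 3 := Nat.cast_ofNat
    rw [← this]
    exact hp𝒪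
  have h4 : (3 : 𝒪) = algebraMap 𝒪₀ 𝒪 3 := by rw [map_ofNat]
  rw [h4, mem_maximalIdeal, mem_nonunits_iff]
  intro hu
  exact (mem_maximalIdeal _).1 h3 (isUnit_of_map_unit _ _ hu)

/-- **R7b**: Mazur's principle at `q = 2` for `p = 3`. -/
theorem lower32Core : ALD.Lower32CoreStmt := by
  classical
  intro W hΔ hss hirr M₀ r hM₀ hM₀odd hr hr3 hrM hrΔ har hunr hmod
  by_contra hnot
  haveI hp3 : Fact (Nat.Prime 3) := ⟨Nat.prime_three⟩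
  -- the level
  have hr2 : r ≠ 2 := by
    rintro rfl
    exact hrM (Dvd.intro _ rfl)
  have hrodd : Odd r := hr.odd_of_ne_two hr2
  set N := M₀ * r with hNdef
  have hNodd : Odd N := hM₀odd.mul hrodd
  have hNpos : 0 < N := Nat.mul_pos hM₀ hr.pos
  haveI : NeZero N := ⟨hNpos.ne'⟩
  have hmod2 : W.IsResiduallyModularOfLevel 3 (N * 2) := by
    rw [Nat.mul_comm]
    exact hmod
  have hrN : r ∣ N := Dvd.intro_left _ rfl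
  -- the sets of primes
  set S : Finset ℕ := (N * 4).primeFactors ∪ {3} with hSdef
  set S' : Finset ℕ := S ∪ W.Δ.natAbs.primeFactors with hS'def
  have hN4 : N * 4 ≠ 0 := Nat.mul_ne_zero hNpos.ne' (by norm_num)
  have hpS : 3 ∈ S := Finset.mem_union_right _ (Finset.mem_singleton_self 3)
  have hMS4 : ∀ q : ℕ, q.Prime → q ∣ N * 4 → q ∈ S := fun q hq hd =>
    Finset.mem_union_left _ (Nat.mem_primeFactors.2 ⟨hq, hd, hN4⟩)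
  have hdvd24 : N * 2 ∣ N * 4 := Nat.mul_dvd_mul_left N (by norm_num)
  have hdvd14 : N ∣ N * 4 := Dvd.intro _ rfl
  have hMS2 : ∀ q : ℕ, q.Prime → q ∣ N * 2 → q ∈ S := fun q hq hd => hMS4 q hq (hd.trans hdvd24)
  have h2S : 2 ∈ S := hMS4 2 Nat.prime_two (Dvd.dvd.mul_left (by norm_num : 2 ∣ 4) N)
  have hSiff : ∀ ℓ : ℕ, ℓ.Prime → (ℓ ∉ S ↔ ¬ ℓ ∣ N * 2 ∧ ℓ ≠ 3) := by
    intro ℓ hℓ
    rw [hSdef, Finset.mem_union, Finset.mem_singleton, not_or, Nat.mem_primeFactors]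
    constructor
    · rintro ⟨h1, h2⟩
      exact ⟨fun hd => h1 ⟨hℓ, hd.trans hdvd24, hN4⟩, h2⟩
    · rintro ⟨h1, h2⟩
      refine ⟨fun h => h1 ?_, h2⟩
      have h4 : N * 4 = N * 2 * 2 := by ring
      have h5 := h.2.1
      rw [h4] at h5
      rcases (Nat.Prime.dvd_mul hℓ).1 h5 with h6 | h6
      · exact h6
      · exact Dvd.dvd.mul_left h6 N
  -- the ring
  obtain ⟨𝒪, i1, i2, i3, i4, i5, i6, h3, hR⟩ := exists_coeff_ring_rat (N * 4) (↑S : Set ℕ)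
  have h3' : ((3 : ℕ) : 𝒪) ∈ maximalIdeal 𝒪 := by
    rw [Nat.cast_ofNat]
    exact h3
  have h3k : ((3 : ℕ) : ResidueField 𝒪) = 0 := by
    rw [← map_natCast (residue 𝒪)]
    exact (residue_eq_zero_iff _).mpr h3'
  haveI : CharP (ResidueField 𝒪) 3 := (CharP.charP_iff_prime_eq_zero Nat.prime_three).mpr h3k
  letI : Algebra (ZMod 3) (ResidueField 𝒪) := ZMod.algebra (ResidueField 𝒪) 3
  have h2u : IsUnit (2 : 𝒪) := by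
    by_contra hnu
    have h2 : (2 : 𝒪) ∈ maximalIdeal 𝒪 := (mem_maximalIdeal _).2 hnu
    have h1 : (1 : 𝒪) ∈ maximalIdeal 𝒪 := by
      have := (maximalIdeal 𝒪).sub_mem h3 h2
      have e : (3 : 𝒪) - 2 = 1 := by norm_num
      rwa [e] at this
    exact (maximalIdeal.isMaximal 𝒪).ne_top ((Ideal.eq_top_iff_one _).2 h1)
  letI : Invertible (2 : 𝒪) := h2u.invertible
  -- the characters
  obtain ⟨θ₂, hθ₂W⟩ := exists_thetaW_of_isResiduallyModularOfLevel 3 Nat.prime_three W hΔ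
    (dvd_refl (N * 2)) S hpS hMS2 hmod2 (ResidueField 𝒪)
  have hMS4' : ∀ q : ℕ, q.Prime → q ∣ N * 4 → q ∈ (↑S : Set ℕ) := fun q hq hd =>
    Finset.mem_coe.2 (hMS4 q hq hd)
  set θ₄ : CuspForm.heckeAlgebra (N * 4) 2 (↑S : Set ℕ) →+* ResidueField 𝒪 :=
    θ₂.comp (Fermat.Agent.S59lib.Nu.restrictHecke' hdvd24 2 (↑S : Set ℕ) hMS4' subset_rfl) with hθ₄def
  have hθ₄₂ : ∀ (ℓ : ℕ) (hℓ : ℓ.Prime) (hℓ4 : ¬ ℓ ∣ N * 4) (hℓS : ℓ ∉ (↑S : Set ℕ))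
      (hℓ2 : ¬ ℓ ∣ N * 2), θ₄ (heckeAlgebra.T hℓ hℓ4 hℓS) = θ₂ (heckeAlgebra.T hℓ hℓ2 hℓS) := by
    intro ℓ hℓ hℓ4 hℓS hℓ2
    rw [hθ₄def, RingHom.comp_apply,
      Fermat.Agent.S59lib.Nu.restrictHecke'_T hdvd24 2 (↑S : Set ℕ) hMS4' subset_rfl hℓ hℓ4 hℓS hℓ2 hℓS]
  have hnd24 : ∀ ℓ : ℕ, ¬ ℓ ∣ N * 4 → ¬ ℓ ∣ N * 2 := fun ℓ h4 h2 => h4 (h2.trans hdvd24)
  set t : ℕ → ResidueField 𝒪 := tOf S θ₂ with htdef
  have hθ₂ : ∀ ℓ : GoodPrime (N * 2) (↑S : Set ℕ),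
      θ₂ (heckeAlgebra.T ℓ.2.1 ℓ.2.2.1 ℓ.2.2.2) = t ℓ.1 := fun ℓ =>
    (tOf_eq S θ₂ ℓ.2.1 ℓ.2.2.1 ℓ.2.2.2).symm
  have hθ₄ : ∀ ℓ : GoodPrime (N * 4) (↑S : Set ℕ),
      θ₄ (heckeAlgebra.T ℓ.2.1 ℓ.2.2.1 ℓ.2.2.2) = t ℓ.1 := fun ℓ => by
    rw [hθ₄₂ ℓ.1 ℓ.2.1 ℓ.2.2.1 ℓ.2.2.2 (hnd24 ℓ.1 ℓ.2.2.1)]
    exact (tOf_eq S θ₂ ℓ.2.1 (hnd24 ℓ.1 ℓ.2.2.1) ℓ.2.2.2).symm
  have hθ₄W : ∀ (ℓ : ℕ) (hℓ : ℓ.Prime) (hℓL : ¬ ℓ ∣ N * 4) (hℓS : ℓ ∉ (↑S : Set ℕ)),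
      W.IsGoodPrimeFor ℓ →
        θ₄ (heckeAlgebra.T hℓ hℓL hℓS) = ((W.apOfModel ℓ : ℤ) : ResidueField 𝒪) := by
    intro ℓ hℓ hℓL hℓS hgood
    rw [hθ₄₂ ℓ hℓ hℓL hℓS (hnd24 ℓ hℓL)]
    exact hθ₂W ℓ hℓ (hnd24 ℓ hℓL) hℓS hgood
  have htgood : ∀ ℓ : ℕ, ℓ.Prime → ℓ ∉ S' → t ℓ = ((W.apOfModel ℓ : ℤ) : ResidueField 𝒪) := by
    intro ℓ hℓ hℓS'
    rw [hS'def, Finset.mem_union, not_or] at hℓS'
    have hℓN : ¬ ℓ ∣ N * 2 := fun hd => hℓS'.1 (hMS2 ℓ hℓ hd)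
    have hℓS : ℓ ∉ (↑S : Set ℕ) := fun h => hℓS'.1 (Finset.mem_coe.1 h)
    have hgood : W.IsGoodPrimeFor ℓ := by
      intro hd
      apply hℓS'.2
      rw [Nat.mem_primeFactors]
      exact ⟨hℓ, Int.natCast_dvd.mp hd, Int.natAbs_ne_zero.mpr hΔ⟩
    rw [htdef, tOf_eq S θ₂ hℓ hℓN hℓS]
    exact hθ₂W ℓ hℓ hℓN hℓS hgood
  -- the non-Eisenstein prime
  obtain ⟨ℓ₀, hℓ₀, hℓ₀S', hℓ₀3, hℓ₀good, hℓ₀1, hℓ₀ne⟩ :=
    exists_nonEis_prime W hΔ 3 (by decide) hirr (m := N * 4) (Nat.pos_of_ne_zero hN4) S'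
  have hℓ₀S : ℓ₀ ∉ S := fun h => hℓ₀S' (Finset.mem_union_left _ h)
  have hℓ₀N4 : ¬ ℓ₀ ∣ N * 4 := fun hd => hℓ₀S (hMS4 ℓ₀ hℓ₀ hd)
  have hℓ₀N2 : ¬ ℓ₀ ∣ N * 2 := hnd24 ℓ₀ hℓ₀N4
  have hne : t ℓ₀ ≠ ((1 + ℓ₀ : ℕ) : ResidueField 𝒪) := by
    rw [htgood ℓ₀ hℓ₀ hℓ₀S']
    intro heq
    apply hℓ₀ne
    apply (algebraMap (ZMod 3) (ResidueField 𝒪)).injective
    rw [map_intCast, map_natCast]
    exact heq
  have hℓ₀pos : 1 ≤ ℓ₀ := hℓ₀.one_lt.le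
  have h1L4 : ((N * 4 : ℕ) : ℤ) ∣ (ℓ₀ : ℤ) - 1 := by
    have := Int.natCast_dvd_natCast.mpr hℓ₀1
    rwa [Nat.cast_sub hℓ₀pos, Nat.cast_one] at this
  have h1L1 : ((N : ℕ) : ℤ) ∣ (ℓ₀ : ℤ) - 1 :=
    dvd_trans (Int.natCast_dvd_natCast.mpr hdvd14) h1L4
  -- level `N`: nothing
  have h2S' : 2 ∈ S' := Finset.mem_union_left _ h2S
  have h3S' : 3 ∈ S' := Finset.mem_union_left _ hpS
  have hNS' : ∀ q : ℕ, q.Prime → q ∣ N → q ∈ S' := fun q hq hd =>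
    Finset.mem_union_left _ (hMS4 q hq (hd.trans hdvd14))
  have hZ : Subsingleton ((sys2 3 hNodd).F 𝒪 (TwMod 𝟙 𝒪) (RingHom.ker (ev2 3 (M := N) t))) := by
    by_contra hcon
    rw [not_subsingleton_iff_nontrivial] at hcon
    haveI := hcon
    exact hnot (isResiduallyModularOfLevel_of_nontrivial_one W hΔ h3 hNodd S' h2S' h3S' hNS' t htgood
      hℓ₀ hℓ₀S' h1L1 hne)
  -- level `2 N`: something
  have hSout2 : ∀ ℓ : ℕ, ℓ.Prime → ¬ ℓ ∣ N * 2 → ℓ ≠ 3 → ℓ ∉ S := fun ℓ hℓ h1 h2 =>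
    (hSiff ℓ hℓ).2 ⟨h1, h2⟩
  have hX : Nontrivial ((sys2 3 hNodd).F 𝒪 (FunTw 𝟙 X2 𝒪) (RingHom.ker (ev2 3 (M := N) t))) :=
    nontrivial_X2_of_two 3 hNodd (1 : (ZMod (N * 2))ˣ →* (ZMod 1)ˣ) t
      (nontrivial_Mod0_of_theta 3 _ S hSout2 θ₂ hℓ₀ hℓ₀N2 hℓ₀3 hne)
  -- the Galois representations
  obtain ⟨H₄, hH₄, hdet₄, hur₄⟩ :=
    Fermat.Agent.S59lib.Hub.exists_galoisData32 W hΔ hirr hunr h3' S hpS hMS4 θ₄ hθ₄W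
  obtain ⟨H₂, hH₂, hdet₂, hur₂⟩ :=
    Fermat.Agent.S59lib.Hub.exists_galoisData32 W hΔ hirr hunr h3' S hpS hMS2 θ₂ hθ₂W
  have h2N2 : ¬ 2 ^ 2 ∣ N * 2 := by
    intro hd
    have h4 : (2 : ℕ) ^ 2 = 2 * 2 := by norm_num
    rw [h4, Nat.mul_comm N 2] at hd
    have h5 : 2 ∣ N := Nat.dvd_of_mul_dvd_mul_left (by norm_num) hd
    exact (Nat.not_even_iff_odd.2 hNodd) (even_iff_two_dvd.2 h5)
  have hunip : H₂.ρ.IsUnipotentOnInertiaAt 2 :=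
    Fermat.Agent.S34.result Nat.prime_three h3' hpS hMS2 H₂ 2 Nat.prime_two (by decide)
      (Dvd.intro_left N rfl) h2N2
  let b : Module.Basis (Fin 2) (heckeLocal (N * 4) (↑S : Set ℕ) 𝒪 θ₄) H₄.ρ.V :=
    Module.finBasisOfFinrankEq _ H₄.ρ.V H₄.ρ.finrank_eq
  have hRE : (sys2 3 hNodd).RightExact 𝒪 :=
    sys2_rightExact hNodd (Fermat.Agent.S59lib.Wa.noOrderThree_Gamma0 hr hrN hr3) 𝒪
  have h3Sc : 3 ∈ (↑S : Set ℕ) := Finset.mem_coe.2 hpS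
  have hℓ₀Sc : ℓ₀ ∉ (↑S : Set ℕ) := fun h => hℓ₀S (Finset.mem_coe.1 h)
  have hne' : t ℓ₀ ≠ ((ℓ₀ + 1 : ℕ) : ResidueField 𝒪) := by
    rw [Nat.add_comm]
    exact hne
  have hfin := subsingleton_X_of_htrA hNodd h3Sc t h3 hRE S.finite_toSet hMS4' θ₄ hθ₄ θ₂ hθ₂
    H₄ hH₄ H₂ hH₂ b hdet₄ hur₄ hunip hZ ⟨ℓ₀, hℓ₀, hℓ₀N4, hℓ₀Sc⟩ h1L4 hne
    (fun β₄ hβ₄ hAY r hr x =>
      smul_eq_zero_of_trace_tameN_add_three hNodd t h3 hSiff h3Sc θ₄ hθ₄ hR β₄ hβ₄ hAY H₄ hH₄ b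
        hdet₄ hur₄ hZ ⟨ℓ₀, hℓ₀, hℓ₀N2, hℓ₀3⟩ hne' h1L4 r hr x)
  exact not_subsingleton _ hfin

end Fermat.Agent.S59lib.R7b
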