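/-
S59lib / R7b / BettiK  (helper4) — Project I, item R7b.

**The Betti count over a field `K` of characteristic zero.**  `S` a Hecke system on `Γ` over `G2 = SL₂(𝔽₂) ≅ S₃`,
`a : I → K` a system of eigenvalues, `E(W) := {x ∈ H¹(Γ, W) | T_i x = a i • x}` (`eigC`).  As `K[G2] = 1 ⊕ sgn ⊕ std²` and
`K[X2] = 1 ⊕ std`:

* (B1) `count_le` : if `E(K) = 0` then `dim E(sgn_K) + 2 dim E(K[X2]) ≤ dim E(K[G2])`
  (the map `(u, v, w) ↦ e_sgn u + pull v + R_c pull w` is injective on the eigenspaces: `push ∘ pull = 2`,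
  `push ∘ R_c ∘ pull = Σ - 1`, `r_sgn ∘ e_sgn = 6`);
* (B2) for `S = sys2 3 hN` : Shapiro (`R7b/Sh`) identifies `E(K[G2])`, `E(K[X2])` with the eigenspaces `SMO.eigHKP` of the
  levels `4 N`, `2 N` in parabolic cohomology;
* (B3) `eigC_sgn_eq_bot` : `E(K) = 0` and `dim eigHKP (N*2*2) ≤ 2 dim eigHKP (N*2)` imply `E(sgn_K) = 0`.
-/
import Mathlib
import Fermat.Agent.S59lib.R7b.Sh
import Fermat.Agent.S43lib.B2.Bridge.ToB1Triv
import Fermat.Agent.S59lib.SMO.GenP

set_option autoImplicit false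
set_option linter.unusedSectionVars false
set_option linter.unusedVariables false
set_option linter.style.haveILetI false

noncomputable section

namespace Fermat.Agent.S59lib.R7b

open Fermat.Agent.S43lib.B1 Fermat.Agent.S59lib.S3Proj MvPolynomial Module

/-! ### additivity of `HeckeSys.map` in the map of coefficients -/

section mapLin

variable {Γ G : Type} [Group Γ] [Group G] {I : Type} (S : HeckeSys Γ G I)
variable {R : Type} [CommRing R]
variable {W : Type} [AddCommGroup W] [Module R W] [DistribMulAction G W] [SMulCommClass G R W]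
variable {W' : Type} [AddCommGroup W'] [Module R W'] [DistribMulAction G W'] [SMulCommClass G R W']

theorem isEquivar_zero : IsEquivar G (0 : W →ₗ[R] W') := fun g w => by
  rw [LinearMap.zero_apply, LinearMap.zero_apply, smul_zero]

theorem isEquivar_add {u v : W →ₗ[R] W'} (hu : IsEquivar G u) (hv : IsEquivar G v) :
    IsEquivar G (u + v) := fun g w => by
  rw [LinearMap.add_apply, LinearMap.add_apply, hu, hv, smul_add]

theorem isEquivar_sub {u v : W →ₗ[R] W'} (hu : IsEquivar G u) (hv : IsEquivar G v) :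
    IsEquivar G (u - v) := fun g w => by
  rw [LinearMap.sub_apply, LinearMap.sub_apply, hu, hv, smul_sub]

theorem isEquivar_smul (r : R) {u : W →ₗ[R] W'} (hu : IsEquivar G u) :
    IsEquivar G (r • u) := fun g w => by
  rw [LinearMap.smul_apply, LinearMap.smul_apply, hu]
  exact (smul_comm g r (u w)).symm

theorem sysMap_congr {u v : W →ₗ[R] W'} (h : u = v) (hu : IsEquivar G u) (hv : IsEquivar G v)
    (x : S.Coh R W) : S.map u hu x = S.map v hv x := by
  subst h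
  rfl

theorem sysMap_zero (x : S.Coh R W) :
    S.map (0 : W →ₗ[R] W') isEquivar_zero x = 0 := by
  obtain ⟨f, rfl⟩ := S.cls_surjective R W x
  rw [HeckeSys.map_cls]
  have : Z1.map S.π (0 : W →ₗ[R] W') isEquivar_zero f = 0 := by
    apply Subtype.ext
    funext γ
    rfl
  rw [this, map_zero]

theorem sysMap_add {u v : W →ₗ[R] W'} (hu : IsEquivar G u) (hv : IsEquivar G v) (x : S.Coh R W) :
    S.map (u + v) (isEquivar_add hu hv) x = S.map u hu x + S.map v hv x := by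
  obtain ⟨f, rfl⟩ := S.cls_surjective R W x
  rw [HeckeSys.map_cls, HeckeSys.map_cls, HeckeSys.map_cls, ← map_add]
  congr 1

theorem sysMap_sub {u v : W →ₗ[R] W'} (hu : IsEquivar G u) (hv : IsEquivar G v) (x : S.Coh R W) :
    S.map (u - v) (isEquivar_sub hu hv) x = S.map u hu x - S.map v hv x := by
  obtain ⟨f, rfl⟩ := S.cls_surjective R W x
  rw [HeckeSys.map_cls, HeckeSys.map_cls, HeckeSys.map_cls, ← map_sub]
  congr 1

theorem sysMap_smul (r : R) {u : W →ₗ[R] W'} (hu : IsEquivar G u) (x : S.Coh R W) :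
    S.map (r • u) (isEquivar_smul r hu) x = r • S.map u hu x := by
  obtain ⟨f, rfl⟩ := S.cls_surjective R W x
  rw [HeckeSys.map_cls, HeckeSys.map_cls, ← map_smul]
  congr 1

theorem sysMap_T (i : I) {u : W →ₗ[R] W'} (hu : IsEquivar G u) (x : S.Coh R W) :
    S.map u hu (S.T R W i x) = S.T R W' i (S.map u hu x) := by
  rw [← HeckeSys.X_smul, map_smul, HeckeSys.X_smul]

variable {W'' : Type} [AddCommGroup W''] [Module R W''] [DistribMulAction G W''] [SMulCommClass G R W'']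

theorem sysMap_sysMap {u : W →ₗ[R] W'} (hu : IsEquivar G u) {v : W' →ₗ[R] W''} (hv : IsEquivar G v)
    {t : W →ₗ[R] W''} (ht : IsEquivar G t) (h : v.comp u = t) (x : S.Coh R W) :
    S.map v hv (S.map u hu x) = S.map t ht x := by
  rw [← HeckeSys.map_comp S u hu v hv x]
  exact sysMap_congr S h _ _ x

theorem sysMap_sysMap_zero {u : W →ₗ[R] W'} (hu : IsEquivar G u) {v : W' →ₗ[R] W''} (hv : IsEquivar G v)
    (h : v.comp u = 0) (x : S.Coh R W) : S.map v hv (S.map u hu x) = 0 := by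
  rw [sysMap_sysMap S hu hv isEquivar_zero h, sysMap_zero]

theorem sysMap_sysMap_smul {u : W →ₗ[R] W'} (hu : IsEquivar G u) {v : W' →ₗ[R] W} (hv : IsEquivar G v)
    (r : R) (h : v.comp u = r • LinearMap.id) (x : S.Coh R W) : S.map v hv (S.map u hu x) = r • x := by
  rw [sysMap_sysMap S hu hv (isEquivar_smul r HeckeSys.isEquivar_id) h,
    sysMap_smul S r HeckeSys.isEquivar_id, HeckeSys.map_id]

theorem sysMap_sysMap_sub {u : W →ₗ[R] W'} (hu : IsEquivar G u) {v : W' →ₗ[R] W} (hv : IsEquivar G v)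
    {t : W →ₗ[R] W} (ht : IsEquivar G t) (h : v.comp u = t - LinearMap.id) (x : S.Coh R W) :
    S.map v hv (S.map u hu x) = S.map t ht x - x := by
  rw [sysMap_sysMap S hu hv (isEquivar_sub ht HeckeSys.isEquivar_id) h,
    sysMap_sub S ht HeckeSys.isEquivar_id, HeckeSys.map_id]

end mapLin

/-! ### the eigenspaces -/

section eig

variable {Γ G : Type} [Group Γ] [Group G] {I : Type} (S : HeckeSys Γ G I)
variable (K : Type) [Field K]
variable (W : Type) [AddCommGroup W] [Module K W] [DistribMulAction G W] [SMulCommClass G K W]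
variable {W' : Type} [AddCommGroup W'] [Module K W'] [DistribMulAction G W'] [SMulCommClass G K W']

/-- the simultaneous eigenspace of the operators of the system on `H¹(Γ, W)` -/
def eigC (a : I → K) : Submodule K (S.Coh K W) where
  carrier := {x | ∀ i, S.T K W i x = a i • x}
  zero_mem' := fun i => by rw [map_zero, smul_zero]
  add_mem' := by
    intro x y hx hy i
    rw [map_add, hx i, hy i, smul_add]
  smul_mem' := by
    intro c x hx i
    rw [map_smul, hx i, smul_comm]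

variable {K W}

theorem mem_eigC {a : I → K} {x : S.Coh K W} : x ∈ eigC S K W a ↔ ∀ i, S.T K W i x = a i • x :=
  Iff.rfl

theorem sysMap_mem_eigC {a : I → K} {u : W →ₗ[K] W'} (hu : IsEquivar G u) {x : S.Coh K W}
    (hx : x ∈ eigC S K W a) : S.map u hu x ∈ eigC S K W' a := fun i => by
  rw [← sysMap_T, hx i]
  exact map_smul ((S.map u hu).restrictScalars K) (a i) x

end eig

/-! ### the maps of coefficients for `S₃` -/

section S3

local notation "𝟙" => (1 : G2 →* ℤˣ)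

set_option maxRecDepth 100000 in
theorem card_G2 : Fintype.card G2 = 6 := by decide

set_option maxRecDepth 100000 in
/-- `S₃` is simply transitive on the ordered pairs of distinct points -/
theorem card_filter_pair : ∀ x' x y z : X2,
    (Finset.univ.filter (fun g : G2 => g • x' = y ∧ g • x = z)).card =
      if x' = x then (if y = z then 2 else 0) else (if y = z then 0 else 1) := by decide

set_option maxRecDepth 100000 in
/-- the signs of the two elements of a fibre of `g ↦ g • x` cancel -/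
theorem sum_sign_fibre : ∀ x y : X2,
    ∑ g : G2, (if g • x = y then ((permSign G2 X2 g : ℤˣ) : ℤ) else 0) = 0 := by
  unfold permSign
  simp only [MonoidHom.comp_apply]
  decide

variable (R : Type) [CommRing R]

/-- pull-back along `g ↦ g • x` -/
def pullAt (x : X2) : FunTw 𝟙 X2 R →ₗ[R] FunTw 𝟙 G2 R where
  toFun f := ⟨fun g => f (g • x)⟩
  map_add' _ _ := rfl
  map_smul' _ _ := rfl

theorem pullAt_apply (x : X2) (f : FunTw 𝟙 X2 R) (g : G2) : pullAt R x f g = f (g • x) := rfl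

theorem isEquivar_pullAt (x : X2) : IsEquivar G2 (pullAt R x) := fun a f => by
  ext g
  rw [pullAt_apply, FunTw.smul_apply, FunTw.smul_apply, pullAt_apply, MonoidHom.one_apply, Units.val_one,
    one_smul, one_smul, smul_eq_mul, mul_smul]

/-- `a ↦ (g ↦ sgn g • a)` -/
def esgn : TwMod (permSign G2 X2) R →ₗ[R] FunTw 𝟙 G2 R :=
  (jMap (permSign G2 X2) X2 e1 R R).comp (constMap (permSign G2 X2) X2 R R)

theorem esgn_apply (a : TwMod (permSign G2 X2) R) (g : G2) :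
    esgn R a g = ((permSign G2 X2 g : ℤˣ) : ℤ) • TwMod.out a := rfl

theorem isEquivar_esgn : IsEquivar G2 (esgn R) :=
  (isEquivar_constMap (permSign G2 X2) X2 R R).comp (isEquivar_jMap (permSign G2 X2) X2 e1 R R)

/-- `f ↦ Σ_g sgn g • f g` -/
def rsgn : FunTw 𝟙 G2 R →ₗ[R] TwMod (permSign G2 X2) R where
  toFun f := TwMod.mk (permSign G2 X2) (∑ g : G2, ((permSign G2 X2 g : ℤˣ) : ℤ) • f g)
  map_add' f f' := by
    show ∑ g : G2, ((permSign G2 X2 g : ℤˣ) : ℤ) • (f g + f' g) =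
      ∑ g : G2, ((permSign G2 X2 g : ℤˣ) : ℤ) • f g + ∑ g : G2, ((permSign G2 X2 g : ℤˣ) : ℤ) • f' g
    rw [← Finset.sum_add_distrib]
    exact Finset.sum_congr rfl fun g _ => smul_add _ _ _
  map_smul' r f := by
    show ∑ g : G2, ((permSign G2 X2 g : ℤˣ) : ℤ) • (r • f g) =
      r • ∑ g : G2, ((permSign G2 X2 g : ℤˣ) : ℤ) • f g
    rw [Finset.smul_sum]
    exact Finset.sum_congr rfl fun g _ => smul_comm _ _ _

theorem rsgn_apply (f : FunTw 𝟙 G2 R) :
    TwMod.out (rsgn R f) = ∑ g : G2, ((permSign G2 X2 g : ℤˣ) : ℤ) • f g := rfl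

theorem isEquivar_rsgn : IsEquivar G2 (rsgn R) := fun a f => by
  show ∑ g : G2, ((permSign G2 X2 g : ℤˣ) : ℤ) • (a • f) g =
    ((permSign G2 X2 a : ℤˣ) : ℤ) • ∑ g : G2, ((permSign G2 X2 g : ℤˣ) : ℤ) • f g
  rw [Finset.smul_sum, ← Equiv.sum_comp (Equiv.mulLeft a)
    (fun g => ((permSign G2 X2 g : ℤˣ) : ℤ) • (a • f) g)]
  refine Finset.sum_congr rfl fun g _ => ?_
  rw [Equiv.coe_mulLeft, FunTw.smul_apply, MonoidHom.one_apply, Units.val_one, one_smul, smul_eq_mul,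
    inv_mul_cancel_left, map_mul, Units.val_mul, mul_smul]

/-- the summation over a fibre, in terms of the numbers of `card_filter_pair` -/
theorem sum_fibre_pair (x' x y : X2) (F : X2 → R) :
    (∑ g : G2, if g • x' = y then F (g • x) else 0) =
      ∑ z : X2, ((Finset.univ.filter (fun g : G2 => g • x' = y ∧ g • x = z)).card : R) * F z := by
  have h1 : ∀ g : G2, (if g • x' = y then F (g • x) else 0) =
      ∑ z : X2, if (g • x' = y ∧ g • x = z) then F z else 0 := by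
    intro g
    by_cases h : g • x' = y
    · rw [if_pos h]
      simp only [h, true_and]
      rw [Finset.sum_ite_eq Finset.univ (g • x) F, if_pos (Finset.mem_univ _)]
    · rw [if_neg h]
      simp only [h, false_and, if_false, Finset.sum_const_zero]
  rw [Finset.sum_congr rfl fun g _ => h1 g, Finset.sum_comm]
  refine Finset.sum_congr rfl fun z _ => ?_
  rw [Finset.sum_ite, Finset.sum_const, Finset.sum_const_zero, add_zero, nsmul_eq_mul]

theorem push_pull_same (x : X2) :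
    (pushMap (G := G2) X2 x R R).comp (pullAt R x) = (2 : R) • LinearMap.id := by
  apply LinearMap.ext
  intro f
  ext y
  rw [LinearMap.comp_apply, pushMap_apply, LinearMap.smul_apply, LinearMap.id_apply, FunTw.smul_apply']
  simp only [pullAt_apply]
  rw [sum_fibre_pair R x x y (fun z => f z)]
  simp only [card_filter_pair, if_true]
  rw [Finset.sum_eq_single y]
  · rw [if_pos rfl]
    push_cast
    rfl
  · intro z _ hz
    rw [if_neg (fun h => hz h.symm)]
    simp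
  · intro h
    exact absurd (Finset.mem_univ y) h

theorem push_pull_ne {x' x : X2} (hx : x' ≠ x) :
    (pushMap (G := G2) X2 x' R R).comp (pullAt R x) =
      (constMap 𝟙 X2 R R).comp (sumMap 𝟙 X2 R R) - LinearMap.id := by
  apply LinearMap.ext
  intro f
  ext y
  rw [LinearMap.comp_apply, pushMap_apply, LinearMap.sub_apply, LinearMap.id_apply, FunTw.sub_apply,
    LinearMap.comp_apply, constMap_apply, sumMap_apply]
  simp only [pullAt_apply]
  rw [sum_fibre_pair R x' x y (fun z => f z)]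
  simp only [card_filter_pair, if_neg hx]
  rw [eq_sub_iff_add_eq, ← Finset.sum_erase_add Finset.univ (fun z => f z) (Finset.mem_univ y)]
  congr 1
  rw [← Finset.sum_erase_add Finset.univ _ (Finset.mem_univ y), if_pos rfl]
  simp only [Nat.cast_zero, zero_mul, add_zero]
  refine Finset.sum_congr rfl fun z hz => ?_
  rw [if_neg (fun h => (Finset.ne_of_mem_erase hz) h.symm)]
  simp

theorem push_esgn (x : X2) : (pushMap (G := G2) X2 x R R).comp (esgn R) = 0 := by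
  apply LinearMap.ext
  intro a
  ext y
  rw [LinearMap.comp_apply, pushMap_apply, LinearMap.zero_apply, FunTw.zero_apply]
  simp only [esgn_apply]
  have h1 : ∀ g : G2, (if g • x = y then ((permSign G2 X2 g : ℤˣ) : ℤ) • TwMod.out a else 0) =
      (if g • x = y then ((permSign G2 X2 g : ℤˣ) : ℤ) else 0) • TwMod.out a := by
    intro g
    split_ifs
    · rfl
    · rw [zero_smul]
  rw [Finset.sum_congr rfl fun g _ => h1 g, ← Finset.sum_smul, sum_sign_fibre, zero_smul]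

theorem rsgn_pull (x : X2) : (rsgn R).comp (pullAt R x) = 0 := by
  apply LinearMap.ext
  intro f
  show ∑ g : G2, ((permSign G2 X2 g : ℤˣ) : ℤ) • f (g • x) = 0
  have h1 : ∀ g : G2, ((permSign G2 X2 g : ℤˣ) : ℤ) • f (g • x) =
      ∑ y : X2, (if g • x = y then ((permSign G2 X2 g : ℤˣ) : ℤ) else 0) • f y := by
    intro g
    rw [Finset.sum_eq_single (g • x)]
    · rw [if_pos rfl]
    · intro y _ hy
      rw [if_neg (fun h => hy h.symm), zero_smul]
    · intro h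
      exact absurd (Finset.mem_univ _) h
  rw [Finset.sum_congr rfl fun g _ => h1 g, Finset.sum_comm]
  refine Finset.sum_eq_zero fun y _ => ?_
  rw [← Finset.sum_smul, sum_sign_fibre, zero_smul]

theorem rsgn_esgn : (rsgn R).comp (esgn R) = (6 : R) • LinearMap.id := by
  apply LinearMap.ext
  intro a
  show ∑ g : G2, ((permSign G2 X2 g : ℤˣ) : ℤ) • (((permSign G2 X2 g : ℤˣ) : ℤ) • TwMod.out a) =
    (6 : R) • TwMod.out a
  have h1 : ∀ g : G2, ((permSign G2 X2 g : ℤˣ) : ℤ) • (((permSign G2 X2 g : ℤˣ) : ℤ) • TwMod.out a) =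
      TwMod.out a := by
    intro g
    rw [← mul_smul, units_int_mul_self, one_smul]
  rw [Finset.sum_congr rfl fun g _ => h1 g, Finset.sum_const, Finset.card_univ, card_G2]
  rw [nsmul_eq_mul, smul_eq_mul]
  norm_num

end S3

/-! ### (B1) the count -/

section Count

local notation "𝟙" => (1 : G2 →* ℤˣ)

/-- a second point of `X2` -/
def e2 : X2 := ⟨![0, 1], by decide⟩

theorem e1_ne_e2 : e1 ≠ e2 := by decide

variable {Γ : Type} [Group Γ] {I : Type} (S : HeckeSys Γ G2 I)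
variable (K : Type) [Field K] [CharZero K] (a : I → K)

/-- `const ∘ sum` kills the eigenspace when the system does not occur with trivial coefficients -/
theorem sysMap_const_sum_eq_zero (h1 : eigC S K (TwMod 𝟙 K) a = ⊥)
    {w : S.Coh K (FunTw 𝟙 X2 K)} (hw : w ∈ eigC S K (FunTw 𝟙 X2 K) a) :
    S.map ((constMap 𝟙 X2 K K).comp (sumMap 𝟙 X2 K K))
      ((isEquivar_sumMap 𝟙 X2 K K).comp (isEquivar_constMap 𝟙 X2 K K)) w = 0 := by
  rw [HeckeSys.map_comp S (sumMap 𝟙 X2 K K) (isEquivar_sumMap 𝟙 X2 K K) (constMap 𝟙 X2 K K)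
    (isEquivar_constMap 𝟙 X2 K K) w]
  have h2 : S.map (sumMap 𝟙 X2 K K) (isEquivar_sumMap 𝟙 X2 K K) w ∈ eigC S K (TwMod 𝟙 K) a :=
    sysMap_mem_eigC S _ hw
  rw [h1, Submodule.mem_bot] at h2
  rw [h2, map_zero]

/-- the key injectivity -/
theorem eq_zero_of_sum_eq_zero (h1 : eigC S K (TwMod 𝟙 K) a = ⊥)
    {u : S.Coh K (TwMod (permSign G2 X2) K)} (hu : u ∈ eigC S K (TwMod (permSign G2 X2) K) a)
    {v w : S.Coh K (FunTw 𝟙 X2 K)} (hv : v ∈ eigC S K (FunTw 𝟙 X2 K) a)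
    (hw : w ∈ eigC S K (FunTw 𝟙 X2 K) a)
    (h : S.map (esgn K) (isEquivar_esgn K) u + S.map (pullAt K e1) (isEquivar_pullAt K e1) v +
      S.map (pullAt K e2) (isEquivar_pullAt K e2) w = 0) : u = 0 ∧ v = 0 ∧ w = 0 := by
  -- apply `r_sgn`
  have hA := congrArg (S.map (rsgn K) (isEquivar_rsgn K)) h
  rw [map_add, map_add, map_zero,
    sysMap_sysMap_smul S (isEquivar_esgn K) (isEquivar_rsgn K) (6 : K) (rsgn_esgn K),
    sysMap_sysMap_zero S (isEquivar_pullAt K e1) (isEquivar_rsgn K) (rsgn_pull K e1),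
    sysMap_sysMap_zero S (isEquivar_pullAt K e2) (isEquivar_rsgn K) (rsgn_pull K e2),
    add_zero, add_zero] at hA
  have hu0 : u = 0 := by
    rcases smul_eq_zero.mp hA with h6 | h6
    · exact absurd h6 (by norm_num)
    · exact h6
  have hcs : IsEquivar G2 ((constMap 𝟙 X2 K K).comp (sumMap 𝟙 X2 K K)) :=
    (isEquivar_sumMap 𝟙 X2 K K).comp (isEquivar_constMap 𝟙 X2 K K)
  -- apply `push` at `e1`
  have hB := congrArg (S.map (pushMap (G := G2) X2 e1 K K) (isEquivar_pushMap X2 e1 K K)) h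
  rw [map_add, map_add, map_zero,
    sysMap_sysMap_zero S (isEquivar_esgn K) (isEquivar_pushMap X2 e1 K K) (push_esgn K e1),
    sysMap_sysMap_smul S (isEquivar_pullAt K e1) (isEquivar_pushMap X2 e1 K K) (2 : K)
      (push_pull_same K e1),
    sysMap_sysMap_sub S (isEquivar_pullAt K e2) (isEquivar_pushMap X2 e1 K K) hcs
      (push_pull_ne K e1_ne_e2),
    sysMap_const_sum_eq_zero S K a h1 hw, zero_add, zero_sub] at hB
  -- apply `push` at `e2`
  have hC := congrArg (S.map (pushMap (G := G2) X2 e2 K K) (isEquivar_pushMap X2 e2 K K)) h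
  rw [map_add, map_add, map_zero,
    sysMap_sysMap_zero S (isEquivar_esgn K) (isEquivar_pushMap X2 e2 K K) (push_esgn K e2),
    sysMap_sysMap_sub S (isEquivar_pullAt K e1) (isEquivar_pushMap X2 e2 K K) hcs
      (push_pull_ne K e1_ne_e2.symm),
    sysMap_sysMap_smul S (isEquivar_pullAt K e2) (isEquivar_pushMap X2 e2 K K) (2 : K)
      (push_pull_same K e2),
    sysMap_const_sum_eq_zero S K a h1 hv, zero_add, zero_sub] at hC
  -- `2 v - w = 0`, `- v + 2 w = 0`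
  have hw2 : w = (2 : K) • v := by
    rw [← sub_eq_zero, ← neg_eq_zero, neg_sub, sub_eq_add_neg]
    exact hB
  have hv0 : v = 0 := by
    rw [hw2, ← mul_smul, neg_add_eq_sub] at hC
    have h3 : (3 : K) • v = 0 := by
      have : ((2 : K) * 2) • v - v = (3 : K) • v := by
        rw [show ((2 : K) * 2) = 3 + 1 by norm_num, add_smul, one_smul, add_sub_cancel_right]
      rw [← this]
      exact hC
    rcases smul_eq_zero.mp h3 with h | h
    · exact absurd h (by norm_num)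
    · exact h
  exact ⟨hu0, hv0, by rw [hw2, hv0, smul_zero]⟩

/-- `e_sgn` is injective on cohomology -/
theorem sysMap_esgn_injective :
    Function.Injective (S.map (esgn K) (isEquivar_esgn K)) := by
  intro u u' h
  have hA := congrArg (S.map (rsgn K) (isEquivar_rsgn K)) h
  rw [sysMap_sysMap_smul S (isEquivar_esgn K) (isEquivar_rsgn K) (6 : K) (rsgn_esgn K),
    sysMap_sysMap_smul S (isEquivar_esgn K) (isEquivar_rsgn K) (6 : K) (rsgn_esgn K)] at hA
  exact smul_right_injective _ (by norm_num : (6 : K) ≠ 0) hA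

/-- the `sgn`-eigenspace is finite dimensional if the eigenspace of the regular representation is -/
theorem finiteDimensional_eigC_sgn [FiniteDimensional K ↥(eigC S K (FunTw 𝟙 G2 K) a)] :
    FiniteDimensional K ↥(eigC S K (TwMod (permSign G2 X2) K) a) := by
  let m0 : S.Coh K (TwMod (permSign G2 X2) K) →ₗ[K] S.Coh K (FunTw 𝟙 G2 K) :=
    (S.map (esgn K) (isEquivar_esgn K)).restrictScalars K
  let Ψ : ↥(eigC S K (TwMod (permSign G2 X2) K) a) →ₗ[K] ↥(eigC S K (FunTw 𝟙 G2 K) a) :=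
    (m0.comp (eigC S K (TwMod (permSign G2 X2) K) a).subtype).codRestrict _
      (fun z => sysMap_mem_eigC S _ z.2)
  refine FiniteDimensional.of_injective Ψ ?_
  intro z z' h
  have h0 : S.map (esgn K) (isEquivar_esgn K) (z : S.Coh K (TwMod (permSign G2 X2) K)) =
      S.map (esgn K) (isEquivar_esgn K) (z' : S.Coh K (TwMod (permSign G2 X2) K)) :=
    congrArg Subtype.val h
  exact Subtype.ext (sysMap_esgn_injective S K h0)

/-- **(B1)** : `dim E(sgn) + 2 dim E(K[X2]) ≤ dim E(K[G2])` if the system does not occur with trivial coefficients -/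
theorem count_le (h1 : eigC S K (TwMod 𝟙 K) a = ⊥)
    [FiniteDimensional K ↥(eigC S K (FunTw 𝟙 G2 K) a)] :
    finrank K ↥(eigC S K (TwMod (permSign G2 X2) K) a) +
      2 * finrank K ↥(eigC S K (FunTw 𝟙 X2 K) a) ≤ finrank K ↥(eigC S K (FunTw 𝟙 G2 K) a) := by
  set Es := eigC S K (TwMod (permSign G2 X2) K) a with hEs
  set EX := eigC S K (FunTw 𝟙 X2 K) a with hEX
  set EG := eigC S K (FunTw 𝟙 G2 K) a with hEG
  let m0 : S.Coh K (TwMod (permSign G2 X2) K) →ₗ[K] S.Coh K (FunTw 𝟙 G2 K) :=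
    (S.map (esgn K) (isEquivar_esgn K)).restrictScalars K
  let m1 : S.Coh K (FunTw 𝟙 X2 K) →ₗ[K] S.Coh K (FunTw 𝟙 G2 K) :=
    (S.map (pullAt K e1) (isEquivar_pullAt K e1)).restrictScalars K
  let m2 : S.Coh K (FunTw 𝟙 X2 K) →ₗ[K] S.Coh K (FunTw 𝟙 G2 K) :=
    (S.map (pullAt K e2) (isEquivar_pullAt K e2)).restrictScalars K
  let Ψ₀ : (↥Es × ↥EX × ↥EX) →ₗ[K] S.Coh K (FunTw 𝟙 G2 K) :=
    (m0.comp Es.subtype).coprod ((m1.comp EX.subtype).coprod (m2.comp EX.subtype))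
  have hΨ₀ : ∀ z : ↥Es × ↥EX × ↥EX, Ψ₀ z =
      S.map (esgn K) (isEquivar_esgn K) (z.1 : S.Coh K (TwMod (permSign G2 X2) K)) +
        (S.map (pullAt K e1) (isEquivar_pullAt K e1) (z.2.1 : S.Coh K (FunTw 𝟙 X2 K)) +
          S.map (pullAt K e2) (isEquivar_pullAt K e2) (z.2.2 : S.Coh K (FunTw 𝟙 X2 K))) := fun z => rfl
  have hmem : ∀ z, Ψ₀ z ∈ EG := fun z => by
    rw [hΨ₀]
    exact Submodule.add_mem _ (sysMap_mem_eigC S _ z.1.2)
      (Submodule.add_mem _ (sysMap_mem_eigC S _ z.2.1.2) (sysMap_mem_eigC S _ z.2.2.2))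
  let Ψ : (↥Es × ↥EX × ↥EX) →ₗ[K] ↥EG := Ψ₀.codRestrict EG hmem
  have hinj : Function.Injective Ψ := by
    rw [← LinearMap.ker_eq_bot, LinearMap.ker_eq_bot']
    rintro ⟨u, v, w⟩ hz
    have h0 : Ψ₀ (u, v, w) = 0 := congrArg Subtype.val hz
    rw [hΨ₀, ← add_assoc] at h0
    obtain ⟨hu, hv, hw⟩ := eq_zero_of_sum_eq_zero S K a h1 u.2 v.2 w.2 h0
    exact Prod.ext (Subtype.ext hu) (Prod.ext (Subtype.ext hv) (Subtype.ext hw))
  haveI : FiniteDimensional K (↥Es × ↥EX × ↥EX) := FiniteDimensional.of_injective Ψ hinj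
  haveI : FiniteDimensional K ↥Es :=
    FiniteDimensional.of_injective (LinearMap.inl K ↥Es (↥EX × ↥EX)) LinearMap.inl_injective
  haveI : FiniteDimensional K ↥EX :=
    FiniteDimensional.of_injective ((LinearMap.inr K ↥Es (↥EX × ↥EX)).comp (LinearMap.inl K ↥EX ↥EX))
      (LinearMap.inr_injective.comp LinearMap.inl_injective)
  have h2 := LinearMap.finrank_le_finrank_of_injective hinj
  rw [Module.finrank_prod, Module.finrank_prod] at h2
  omega

end Count

/-! ### (B2) `H¹` with trivial coefficients and `Hom` -/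

section HomIso

open CongruenceSubgroup Fermat.Agent.S41lib.HC Fermat.Agent.S43lib.B2.Bridge ModularCurve.Period
open Fermat.Agent.S16lib.LH
open scoped MatrixGroups

variable {L : ℕ} [NeZero L] {G' : Type} [CommGroup G'] [Subsingleton G'] (χ : (ZMod L)ˣ →* G')
variable (K : Type) [Field K]

/-- evaluation of the coefficients `Reg G' K → K` on homomorphisms -/
def evlHom : H (Gamma0 L) (Reg G' K) →ₗ[K] H (Gamma0 L) K where
  toFun φ := (evlReg G' K).toAddMonoidHom.comp φ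
  map_add' φ ψ := by
    refine AddMonoidHom.ext fun γ => ?_
    rfl
  map_smul' c φ := by
    refine AddMonoidHom.ext fun γ => ?_
    rfl

theorem evlHom_apply (φ : H (Gamma0 L) (Reg G' K)) (γ : Additive ↥(Gamma0 L)) :
    evlHom (L := L) (G' := G') K φ γ = (φ γ) 1 := rfl

/-- `H¹(Γ₀(L), K) → Hom(Γ₀(L), K)` -/
def h1ToHom : H1 (levelPi χ) K (Reg G' K) →ₗ[K] H (Gamma0 L) K :=
  (B1z (levelPi χ) K (Reg G' K)).liftQ
    ((evlHom (L := L) (G' := G') K).comp (toHomTriv (χ := χ) (R := K) (unit_smul_eq (Reg G' K)))) (by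
      intro f hf
      rw [LinearMap.mem_ker]
      obtain ⟨w, hw⟩ := hf
      refine AddMonoidHom.ext fun γ => ?_
      obtain ⟨γ, rfl⟩ : ∃ γ' : ↥(Gamma0 L), Additive.ofMul γ' = γ := ⟨Additive.toMul γ, rfl⟩
      rw [LinearMap.comp_apply, evlHom_apply, toHomTriv_apply]
      have h1 : (f : ↥(Gamma0 L) → Reg G' K) γ = levelPi χ γ • w - w := (congrFun hw γ).symm
      rw [h1, unit_smul_eq (Reg G' K), sub_self]
      rfl)

theorem h1ToHom_mk (f : ↥(Z1 (levelPi χ) K (Reg G' K))) (γ : ↥(Gamma0 L)) :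
    h1ToHom χ K (H1.mk (levelPi χ) K (Reg G' K) f) (Additive.ofMul γ) =
      ((f : ↥(Gamma0 L) → Reg G' K) γ) 1 := rfl

theorem h1ToHom_injective : Function.Injective (h1ToHom χ K) := by
  rw [← LinearMap.ker_eq_bot, LinearMap.ker_eq_bot']
  intro x hx
  obtain ⟨f, rfl⟩ := H1.mk_surjective (levelPi χ) K (Reg G' K) x
  have hf : f = 0 := by
    apply Subtype.ext
    funext γ
    apply Reg.ext
    intro g
    have := congrArg (fun φ : H (Gamma0 L) K => φ (Additive.ofMul γ)) hx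
    simp only [h1ToHom_mk, AddMonoidHom.zero_apply] at this
    rw [Subsingleton.elim g 1]
    exact this
  rw [hf, map_zero]

theorem h1ToHom_surjective : Function.Surjective (h1ToHom χ K) := by
  intro φ
  have hmem : (fun γ : ↥(Gamma0 L) => cstReg G' K (φ (Additive.ofMul γ))) ∈
      Z1 (levelPi χ) K (Reg G' K) := by
    intro γ γ'
    show cstReg G' K (φ (Additive.ofMul (γ * γ'))) = cstReg G' K (φ (Additive.ofMul γ)) +
      levelPi χ γ • cstReg G' K (φ (Additive.ofMul γ'))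
    rw [unit_smul_eq (Reg G' K), ofMul_mul, map_add, map_add]
  refine ⟨H1.mk (levelPi χ) K (Reg G' K) ⟨_, hmem⟩, ?_⟩
  refine AddMonoidHom.ext fun γ => ?_
  obtain ⟨γ, rfl⟩ : ∃ γ' : ↥(Gamma0 L), Additive.ofMul γ' = γ := ⟨Additive.toMul γ, rfl⟩
  rw [h1ToHom_mk]
  rfl

/-- compatibility with `T_ℓ` -/
theorem h1ToHom_lvlOp {ℓ : ℕ} [Fact ℓ.Prime] (hℓ : ℓ.Prime) (hℓL : ¬ ℓ ∣ L)
    (x : H1 (levelPi χ) K (Reg G' K)) :
    h1ToHom χ K (lvlOp χ K (Reg G' K) (Sum.inl (Sum.inl ⟨ℓ, hℓ, hℓL⟩)) x) =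
      heckeT hℓL K (h1ToHom χ K x) := by
  obtain ⟨f, rfl⟩ := H1.mk_surjective (levelPi χ) K (Reg G' K) x
  have h1 : lvlOp χ K (Reg G' K) (Sum.inl (Sum.inl ⟨ℓ, hℓ, hℓL⟩))
      (H1.mk (levelPi χ) K (Reg G' K) f) =
      H1.mk (levelPi χ) K (Reg G' K) (heckeZ K (Reg G' K) (nData_equi₀ (χ := χ) hℓL) f) := by
    show heckeH K (Reg G' K) _ _ = _
    rw [← heckeH_mk]
    congr!
  rw [h1]
  have h2 : h1ToHom χ K (H1.mk (levelPi χ) K (Reg G' K)
      (heckeZ K (Reg G' K) (nData_equi₀ (χ := χ) hℓL) f)) =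
      evlHom (L := L) (G' := G') K (toHomTriv (χ := χ) (R := K) (unit_smul_eq (Reg G' K))
        (heckeZ K (Reg G' K) (nData_equi₀ (χ := χ) hℓL) f)) := rfl
  rw [h2, toHomTriv_heckeZ]
  have h3 : h1ToHom χ K (H1.mk (levelPi χ) K (Reg G' K) f) =
      coeff (Gamma0 L) (evlReg G' K).toAddMonoidHom
        (toHomTriv (χ := χ) (R := K) (unit_smul_eq (Reg G' K)) f) := rfl
  rw [h3]
  exact ((tData hℓL).op_coeff (evlReg G' K).toAddMonoidHom _).symm

end HomIso

/-! ### (B2) eigenspaces: from an abstract model to `eigHKP` -/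

section Model

open CongruenceSubgroup Fermat.Agent.S41lib.HC Fermat.Agent.S43lib.B2.Bridge ModularCurve.Period
open Fermat.Agent.S16lib.LH Fermat.Agent.S59lib.SMO
open scoped MatrixGroups

variable {L : ℕ} [NeZero L] (K : Type) [Field K] [CharZero K]

theorem isAddTorsionFree_of_charZero : IsAddTorsionFree K := by
  refine ⟨fun n hn f g h => ?_⟩
  have h1 : n • f = n • g := h
  rw [nsmul_eq_mul, nsmul_eq_mul] at h1
  exact mul_left_cancel₀ (Nat.cast_ne_zero.mpr hn) h1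

/-- a non-Eisenstein eigenvector of one `T_ℓ₀`, `ℓ₀ ≡ 1` modulo `L`, is parabolic -/
theorem isParabolicHom_of_eigen {ℓ₀ : ℕ} (hℓ₀ : ℓ₀.Prime) (hℓ₀L : ¬ ℓ₀ ∣ L)
    (h1 : (L : ℤ) ∣ (ℓ₀ : ℤ) - 1) {c : K} (hc : c ≠ (ℓ₀ : K) + 1) {φ : H (Gamma0 L) K}
    (hφ : tOp L hℓ₀ hℓ₀L K φ = c • φ) : φ ∈ parabolicHoms K (Gamma0 L) K := by
  haveI : Fact ℓ₀.Prime := ⟨hℓ₀⟩
  haveI := isAddTorsionFree_of_charZero K
  rw [mem_parabolicHoms_iff]
  have h2 := heckeT_sub_isParabolicHom hℓ₀L h1 φ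
  rw [← tOp_eq hℓ₀ hℓ₀L K, hφ] at h2
  intro γ hγ
  have h3 := h2 γ hγ
  rw [AddMonoidHom.sub_apply, AddMonoidHom.smul_apply, AddMonoidHom.smul_apply, smul_eq_mul,
    nsmul_eq_mul] at h3
  have h4 : (c - ((ℓ₀ : K) + 1)) * φ (Additive.ofMul γ) = 0 := by
    rw [sub_mul, ← h3]
    push_cast
    ring
  rcases mul_eq_zero.mp h4 with h | h
  · exact absurd (sub_eq_zero.mp h) hc
  · exact h

variable {K}

/-- **the dictionary**: a `K`-linear bijection `Ψ : C → Hom(Γ₀(L), K)` intertwining operators `T i` on `C` with the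
`T_{idx i}` maps the eigenspace of the `T i` onto `eigHKP L K P a'`, if the primes `ℓ` with `¬ P ℓ` are the `idx i` and
the system is non-Eisenstein at one `idx i₀ ≡ 1` modulo `L` -/
theorem map_eq_eigHKP {C : Type*} [AddCommGroup C] [Module K C] {I : Type*} (T : I → C →ₗ[K] C)
    (Ψ : C →ₗ[K] H (Gamma0 L) K) (hinj : Function.Injective Ψ) (hsurj : Function.Surjective Ψ)
    (idx : I → ℕ) (hpr : ∀ i, (idx i).Prime) (hL : ∀ i, ¬ idx i ∣ L)
    (hΨT : ∀ i y, Ψ (T i y) = tOp L (hpr i) (hL i) K (Ψ y))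
    (P : ℕ → Prop) (hP : ∀ ℓ : ℕ, ℓ.Prime → ¬ P ℓ → ∃ i, idx i = ℓ) (hP' : ∀ i, ¬ P (idx i))
    (a' : ℕ → K) (i₀ : I) (h₀ : a' (idx i₀) ≠ (idx i₀ : K) + 1) (h₀L : (L : ℤ) ∣ (idx i₀ : ℤ) - 1)
    (E : Submodule K C) (hE : ∀ y, y ∈ E ↔ ∀ i, T i y = a' (idx i) • y) :
    E.map Ψ = eigHKP L K P a' := by
  ext φ
  rw [Submodule.mem_map, mem_eigHKP]
  constructor
  · rintro ⟨y, hy, rfl⟩
    rw [hE] at hy
    have key : ∀ i, tOp L (hpr i) (hL i) K (Ψ y) = a' (idx i) • Ψ y := fun i => by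
      rw [← hΨT, hy i, map_smul]
    refine ⟨isParabolicHom_of_eigen K (hpr i₀) (hL i₀) h₀L h₀ (key i₀), fun ℓ hℓ hPℓ => ?_⟩
    obtain ⟨i, rfl⟩ := hP ℓ hℓ hPℓ
    rw [fullOp_of_not_dvd hℓ (hL i) K]
    exact key i
  · rintro ⟨-, h2⟩
    obtain ⟨y, rfl⟩ := hsurj φ
    refine ⟨y, (hE y).mpr fun i => hinj ?_, rfl⟩
    rw [hΨT, map_smul, ← fullOp_of_not_dvd (hpr i) (hL i) K]
    exact h2 (idx i) (hpr i) (hP' i)

/-- the dimensions agree -/
theorem finrank_eq_eigHKP {C : Type*} [AddCommGroup C] [Module K C] {I : Type*} (T : I → C →ₗ[K] C)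
    (Ψ : C →ₗ[K] H (Gamma0 L) K) (hinj : Function.Injective Ψ) (hsurj : Function.Surjective Ψ)
    (idx : I → ℕ) (hpr : ∀ i, (idx i).Prime) (hL : ∀ i, ¬ idx i ∣ L)
    (hΨT : ∀ i y, Ψ (T i y) = tOp L (hpr i) (hL i) K (Ψ y))
    (P : ℕ → Prop) (hP : ∀ ℓ : ℕ, ℓ.Prime → ¬ P ℓ → ∃ i, idx i = ℓ) (hP' : ∀ i, ¬ P (idx i))
    (a' : ℕ → K) (i₀ : I) (h₀ : a' (idx i₀) ≠ (idx i₀ : K) + 1) (h₀L : (L : ℤ) ∣ (idx i₀ : ℤ) - 1)
    (E : Submodule K C) (hE : ∀ y, y ∈ E ↔ ∀ i, T i y = a' (idx i) • y) :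
    finrank K ↥E = finrank K ↥(eigHKP L K P a') := by
  rw [← map_eq_eigHKP T Ψ hinj hsurj idx hpr hL hΨT P hP hP' a' i₀ h₀ h₀L E hE]
  exact (Submodule.equivMapOfInjective Ψ hinj E).finrank_eq

end Model

/-! ### (B2), (B3) for `sys2` -/

section Final

open CongruenceSubgroup Fermat.Agent.S41lib.HC Fermat.Agent.S43lib.B2.Bridge ModularCurve.Period
open Fermat.Agent.S16lib.LH Fermat.Agent.S59lib.SMO
open scoped MatrixGroups

local notation "𝟙" => (1 : G2 →* ℤˣ)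

/-- the eigenspaces of equal levels have equal dimensions -/
theorem finrank_eigHKP_congr {L L' : ℕ} [NeZero L] [NeZero L'] (h : L = L') (K : Type*) [Field K]
    (P : ℕ → Prop) (a : ℕ → K) :
    finrank K ↥(eigHKP L K P a) = finrank K ↥(eigHKP L' K P a) := by
  subst h
  rfl

/-- the eigenspaces in parabolic cohomology are finite dimensional -/
theorem finiteDimensional_eigHKP (L : ℕ) [NeZero L] (K : Type*) [Field K] [CharZero K] (Q : ℕ → Prop)
    (a : ℕ → K) : FiniteDimensional K ↥(eigHKP L K Q a) := by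
  rw [eigHKP_eq_map (Module.finBasis ℤ ↥(Fermat.Agent.S16lib.LG.VZ (Gamma0 L))) K a]
  infer_instance

variable {N : ℕ} [NeZero N] (hN : Odd N) (K : Type) [Field K] [CharZero K]

/-- Shapiro's isomorphism `H¹(Γ₀(N), K[G2]) ≃ Hom(Γ₀(4 N), K)` -/
def psi4 : (sys2 3 hN).Coh K (FunTw 𝟙 G2 K) →ₗ[K] H (Gamma0 (N * 4)) K :=
  (h1ToHom (1 : (ZMod (N * 4))ˣ →* Unit) K).comp (shF4 K 3 hN (1 : (ZMod (N * 4))ˣ →* Unit))

/-- Shapiro's isomorphism `H¹(Γ₀(N), K[X2]) ≃ Hom(Γ₀(2 N), K)` -/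
def psi2 : (sys2 3 hN).Coh K (FunTw 𝟙 X2 K) →ₗ[K] H (Gamma0 (N * 2)) K :=
  (h1ToHom (1 : (ZMod (N * 2))ˣ →* Unit) K).comp (shF2 K 3 hN (1 : (ZMod (N * 2))ˣ →* Unit))

omit [CharZero K] in
theorem psi4_injective : Function.Injective (psi4 hN K) :=
  (h1ToHom_injective (1 : (ZMod (N * 4))ˣ →* Unit) K).comp
    (shF4_injective K 3 hN (1 : (ZMod (N * 4))ˣ →* Unit))

omit [CharZero K] in
theorem psi4_surjective : Function.Surjective (psi4 hN K) :=
  (h1ToHom_surjective (1 : (ZMod (N * 4))ˣ →* Unit) K).comp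
    (shF4_surjective K 3 hN (1 : (ZMod (N * 4))ˣ →* Unit))

omit [CharZero K] in
theorem psi2_injective : Function.Injective (psi2 hN K) :=
  (h1ToHom_injective (1 : (ZMod (N * 2))ˣ →* Unit) K).comp
    (shF2_injective K 3 hN (1 : (ZMod (N * 2))ˣ →* Unit))

omit [CharZero K] in
theorem psi2_surjective : Function.Surjective (psi2 hN K) :=
  (h1ToHom_surjective (1 : (ZMod (N * 2))ˣ →* Unit) K).comp
    (shF2_surjective K 3 hN (1 : (ZMod (N * 2))ˣ →* Unit))

omit [CharZero K] in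
theorem psi4_T (i : I2 3 N) (y : (sys2 3 hN).Coh K (FunTw 𝟙 G2 K)) :
    psi4 hN K ((sys2 3 hN).T K (FunTw 𝟙 G2 K) i y) =
      tOp (N * 4) i.2.1 i.not_dvd_four K (psi4 hN K y) := by
  haveI : Fact i.1.Prime := ⟨i.2.1⟩
  rw [psi4, LinearMap.comp_apply, LinearMap.comp_apply, shF4_T,
    h1ToHom_lvlOp (1 : (ZMod (N * 4))ˣ →* Unit) K i.2.1 i.not_dvd_four]
  rfl

omit [CharZero K] in
theorem psi2_T (i : I2 3 N) (y : (sys2 3 hN).Coh K (FunTw 𝟙 X2 K)) :
    psi2 hN K ((sys2 3 hN).T K (FunTw 𝟙 X2 K) i y) =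
      tOp (N * 2) i.2.1 i.2.2.1 K (psi2 hN K y) := by
  haveI : Fact i.1.Prime := ⟨i.2.1⟩
  rw [psi2, LinearMap.comp_apply, LinearMap.comp_apply, shF2_T,
    h1ToHom_lvlOp (1 : (ZMod (N * 2))ˣ →* Unit) K i.2.1 i.2.2.1]
  rfl

variable (S : Finset ℕ) (hS : ∀ ℓ : ℕ, ℓ.Prime → (ℓ ∉ S ↔ ¬ ℓ ∣ N * 2 ∧ ℓ ≠ 3))
variable (a' : ℕ → K) (i₀ : I2 3 N) (h₀ : a' i₀.1 ≠ (i₀.1 : K) + 1)
  (h₀L : ((N * 4 : ℕ) : ℤ) ∣ (i₀.1 : ℤ) - 1)

include hS h₀ h₀L

/-- Shapiro: the eigenspace in `H¹(Γ₀(N), K[G2])` is the eigenspace of level `4 N` -/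
theorem map_eigC_G2 :
    (eigC (sys2 3 hN) K (FunTw 𝟙 G2 K) (fun i => a' i.1)).map (psi4 hN K) =
      eigHKP (N * 4) K (fun ℓ => ℓ ∈ S) a' := by
  refine map_eq_eigHKP (fun i => (sys2 3 hN).T K (FunTw 𝟙 G2 K) i) (psi4 hN K)
    (psi4_injective hN K) (psi4_surjective hN K)
    (fun i => i.1) (fun i => i.2.1) (fun i => i.not_dvd_four) (psi4_T hN K) (fun ℓ => ℓ ∈ S) ?_ ?_
    a' i₀ h₀ h₀L _ (fun y => Iff.rfl)
  · intro ℓ hℓ hℓS
    have := (hS ℓ hℓ).mp hℓS
    exact ⟨⟨ℓ, hℓ, this.1, this.2⟩, rfl⟩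
  · intro i
    exact (hS i.1 i.2.1).mpr ⟨i.2.2.1, i.2.2.2⟩

/-- Shapiro: the eigenspace in `H¹(Γ₀(N), K[X2])` is the eigenspace of level `2 N` -/
theorem map_eigC_X2 :
    (eigC (sys2 3 hN) K (FunTw 𝟙 X2 K) (fun i => a' i.1)).map (psi2 hN K) =
      eigHKP (N * 2) K (fun ℓ => ℓ ∈ S) a' := by
  have h₀L2 : ((N * 2 : ℕ) : ℤ) ∣ (i₀.1 : ℤ) - 1 := by
    refine dvd_trans ?_ h₀L
    exact_mod_cast Nat.mul_dvd_mul_left N (by norm_num : 2 ∣ 4)
  refine map_eq_eigHKP (fun i => (sys2 3 hN).T K (FunTw 𝟙 X2 K) i) (psi2 hN K)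
    (psi2_injective hN K) (psi2_surjective hN K)
    (fun i => i.1) (fun i => i.2.1) (fun i => i.2.2.1) (psi2_T hN K) (fun ℓ => ℓ ∈ S) ?_ ?_
    a' i₀ h₀ h₀L2 _ (fun y => Iff.rfl)
  · intro ℓ hℓ hℓS
    have := (hS ℓ hℓ).mp hℓS
    exact ⟨⟨ℓ, hℓ, this.1, this.2⟩, rfl⟩
  · intro i
    exact (hS i.1 i.2.1).mpr ⟨i.2.2.1, i.2.2.2⟩

/-- **(B2)** at level `4 N` -/
theorem finrank_eigC_G2 :
    finrank K ↥(eigC (sys2 3 hN) K (FunTw 𝟙 G2 K) (fun i => a' i.1)) =
      finrank K ↥(eigHKP (N * 4) K (fun ℓ => ℓ ∈ S) a') := by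
  rw [← map_eigC_G2 hN K S hS a' i₀ h₀ h₀L]
  exact (Submodule.equivMapOfInjective (psi4 hN K) (psi4_injective hN K) _).finrank_eq

/-- **(B2)** at level `2 N` -/
theorem finrank_eigC_X2 :
    finrank K ↥(eigC (sys2 3 hN) K (FunTw 𝟙 X2 K) (fun i => a' i.1)) =
      finrank K ↥(eigHKP (N * 2) K (fun ℓ => ℓ ∈ S) a') := by
  rw [← map_eigC_X2 hN K S hS a' i₀ h₀ h₀L]
  exact (Submodule.equivMapOfInjective (psi2 hN K) (psi2_injective hN K) _).finrank_eq

/-- the eigenspace in `H¹(Γ₀(N), K[G2])` is finite dimensional -/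
theorem finiteDimensional_eigC_G2 :
    FiniteDimensional K ↥(eigC (sys2 3 hN) K (FunTw 𝟙 G2 K) (fun i => a' i.1)) := by
  have e := Submodule.equivMapOfInjective (psi4 hN K) (psi4_injective hN K)
    (eigC (sys2 3 hN) K (FunTw 𝟙 G2 K) (fun i => a' i.1))
  rw [map_eigC_G2 hN K S hS a' i₀ h₀ h₀L] at e
  haveI := finiteDimensional_eigHKP (N * 4) K (fun ℓ => ℓ ∈ S) a'
  exact Module.Finite.equiv e.symm

/-- **(B3)** : if the system does not occur with trivial coefficients (level `N`) and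
`dim eigHKP (N*2*2) ≤ 2 dim eigHKP (N*2)`, then it does not occur in the `sgn`-part -/
theorem eigC_sgn_eq_bot
    (h1 : eigC (sys2 3 hN) K (TwMod 𝟙 K) (fun i => a' i.1) = ⊥)
    (hU : finrank K ↥(eigHKP (N * 2 * 2) K (fun ℓ => ℓ ∈ S) a') ≤
      2 * finrank K ↥(eigHKP (N * 2) K (fun ℓ => ℓ ∈ S) a')) :
    eigC (sys2 3 hN) K (TwMod (permSign G2 X2) K) (fun i => a' i.1) = ⊥ := by
  haveI := finiteDimensional_eigC_G2 hN K S hS a' i₀ h₀ h₀L
  have hc := count_le (sys2 3 hN) K (fun i => a' i.1) h1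
  rw [finrank_eigC_G2 hN K S hS a' i₀ h₀ h₀L, finrank_eigC_X2 hN K S hS a' i₀ h₀ h₀L,
    finrank_eigHKP_congr (show N * 4 = N * 2 * 2 by ring) K] at hc
  have h0 : finrank K ↥(eigC (sys2 3 hN) K (TwMod (permSign G2 X2) K) (fun i => a' i.1)) = 0 := by
    omega
  haveI : FiniteDimensional K ↥(eigC (sys2 3 hN) K (TwMod (permSign G2 X2) K) (fun i => a' i.1)) :=
    finiteDimensional_eigC_sgn (sys2 3 hN) K (fun i => a' i.1)
  exact Submodule.finrank_eq_zero.mp h0

omit hS h₀ h₀L in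
/-- the extension by zero of a system on `I2 3 N` to all integers -/
def extSys (a : I2 3 N → K) : ℕ → K := by
  classical
  exact fun ℓ => if h : ℓ.Prime ∧ ¬ ℓ ∣ N * 2 ∧ ℓ ≠ 3 then a ⟨ℓ, h⟩ else 0

omit hS h₀ h₀L in
theorem extSys_apply (a : I2 3 N → K) (i : I2 3 N) : extSys K a i.1 = a i := by
  unfold extSys
  rw [dif_pos i.2]

/-- **(B3)**, for a system `a` on `I2 3 N` and any `a' : ℕ → K` extending it -/
theorem eigC_sgn_eq_bot' (a : I2 3 N → K) (haa' : ∀ i : I2 3 N, a i = a' i.1)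
    (h1 : eigC (sys2 3 hN) K (TwMod 𝟙 K) a = ⊥)
    (hU : finrank K ↥(eigHKP (N * 2 * 2) K (fun ℓ => ℓ ∈ S) a') ≤
      2 * finrank K ↥(eigHKP (N * 2) K (fun ℓ => ℓ ∈ S) a')) :
    eigC (sys2 3 hN) K (TwMod (permSign G2 X2) K) a = ⊥ := by
  have : a = fun i => a' i.1 := funext haa'
  subst this
  exact eigC_sgn_eq_bot hN K S hS a' i₀ h₀ h₀L h1 hU

end Final

end Fermat.Agent.S59lib.R7b
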