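/-
S59lib / R7b / TwoOfX2  (helper4) — Project I, item R7b, brick (M1) of helper3's #h3-G54.

The converse of `S3Proj.subsingleton_X2_of_two`: **vanishing of `H¹(Γ₀(M), Fun(X2, 𝒪))_𝔪` implies vanishing of the
localised cohomology `Mod0` at level `2 M`** (Shapiro's map `sh2` is surjective, helper3's `R7b/Sh`).  So
`Nontrivial (Mod0 p χ t)` at level `2 M` gives `Nontrivial ((sys2 p hM).F 𝒪 (FunTw 𝟙 X2 𝒪) 𝔪)`.
-/
import Fermat.Agent.S59lib.R7b.Sh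

set_option autoImplicit false
set_option linter.unusedSectionVars false
set_option linter.unusedVariables false
set_option linter.style.haveILetI false

noncomputable section

namespace Fermat.Agent.S59lib.R7b

open CongruenceSubgroup Matrix.SpecialLinearGroup Fermat.Agent.S43lib.B1
open Fermat.Agent.S16lib.LH Fermat.Agent.S41lib.HC Fermat.Agent.S48lib.W1
open Fermat.Agent.S31lib.PET Fermat.Agent.S43lib.Mod4.HO IsLocalRing MvPolynomial
open Fermat.Agent.S59lib.S3Proj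
open scoped MatrixGroups

local notation "𝟙" => (1 : G2 →* ℤˣ)

variable {𝒪 : Type} [CommRing 𝒪] [IsLocalRing 𝒪] (p : ℕ) {M : ℕ} [NeZero M] (hM : Odd M)
variable {G' : Type} [CommGroup G'] [Subsingleton G']

/-- every variable of `sys2` is a variable of level `2 M` -/
theorem polyMap_r2_surjective : Function.Surjective (polyMap 𝒪 (r2 p (M := M))) :=
  polyMap_surjective 𝒪 _ fun i => ⟨Sum.inl i, rfl⟩

/-- vanishing of `H¹(Γ₀(M), Fun(X2, 𝒪))_𝔪` implies vanishing at level `2 M` -/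
theorem subsingleton_two_of_X2 (χ : (ZMod (M * 2))ˣ →* G') (t : ℕ → ResidueField 𝒪)
    (h : Subsingleton ((sys2 p hM).F 𝒪 (FunTw 𝟙 X2 𝒪) (RingHom.ker (ev2 p (M := M) t)))) :
    Subsingleton (Mod0 (𝒪 := 𝒪) p χ t) := by
  set S := sys2 p hM with hS
  set S' := levelSys χ (idx₀ p (M * 2)) with hS'
  let f2 : S.Coh 𝒪 (FunTw 𝟙 X2 (Reg G' 𝒪)) →ₗ[𝒪] S'.Coh 𝒪 (Reg G' 𝒪) := sh2 𝒪 (Reg G' 𝒪) χ
  let u : S.Coh 𝒪 (FunTw 𝟙 X2 𝒪) →ₗ[MvPolynomial (I2 p M) 𝒪] S.Coh 𝒪 (FunTw 𝟙 X2 (Reg G' 𝒪)) :=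
    S.map (mapCoef 𝟙 X2 𝒪 (cstReg G' 𝒪)) (cstReg_equivar X2)
  -- Shapiro's map is semilinear
  have hsemi : ∀ (s : MvPolynomial (Idx p (M * 2)) 𝒪) (y : S.Coh 𝒪 (FunTw 𝟙 X2 (Reg G' 𝒪))),
      f2 (polyMap 𝒪 (r2 p (M := M)) s • y) = s • f2 y := by
    intro s y
    refine coh_semilinear S S' (r2 p (M := M)) f2 ?_ ?_ s y
    · rintro (ℓ | n) i hi y
      · have hi' : ℓ = i := Option.some.inj hi
        subst hi'
        exact sh2_T hM 𝒪 (Reg G' 𝒪) χ ℓ y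
      · exact absurd hi (by simp [r2])
    · rintro (ℓ | n) hi z
      · exact absurd hi (by simp [r2])
      · exact lvlOp_diam_triv χ (Reg G' 𝒪) _ z
  -- the total map
  let F : S.Coh 𝒪 (FunTw 𝟙 X2 𝒪) →+ S'.Coh 𝒪 (Reg G' 𝒪) :=
    f2.toAddMonoidHom.comp u.toAddMonoidHom
  have hF : ∀ (s : MvPolynomial (Idx p (M * 2)) 𝒪) (y : S.Coh 𝒪 (FunTw 𝟙 X2 𝒪)),
      F (polyMap 𝒪 (r2 p (M := M)) s • y) = s • F y := by
    intro s y
    show f2 (u (polyMap 𝒪 (r2 p (M := M)) s • y)) = s • f2 (u y)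
    rw [map_smul]
    exact hsemi s _
  have hsurj : Function.Surjective F := by
    intro z
    have hs2 : Function.Surjective f2 := sh2_surj 𝒪 hM (Reg G' 𝒪) χ
    obtain ⟨y', hy'⟩ := hs2 z
    have h3 : ∀ w : FunTw 𝟙 X2 (Reg G' 𝒪),
        mapCoef 𝟙 X2 𝒪 (cstReg G' 𝒪) (mapCoef 𝟙 X2 𝒪 (evlReg G' 𝒪) w) = w := by
      intro w
      apply FunTw.ext
      intro x
      exact cstReg_evlReg G' 𝒪 (w x)
    refine ⟨S.map (mapCoef 𝟙 X2 𝒪 (evlReg G' 𝒪)) (evlReg_equivar X2) y', ?_⟩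
    have h4 : u (S.map (mapCoef 𝟙 X2 𝒪 (evlReg G' 𝒪)) (evlReg_equivar X2) y') = y' :=
      map_leftInverse S (evlReg_equivar X2) (cstReg_equivar X2) h3 y'
    show f2 (u (S.map (mapCoef 𝟙 X2 𝒪 (evlReg G' 𝒪)) (evlReg_equivar X2) y')) = z
    rw [h4]
    exact hy'
  exact subsingleton_loc_of_surjective (polyMap 𝒪 (r2 p (M := M))).toRingHom F hF
    (RingHom.ker (ev2 p (M := M) t)) (RingHom.ker (evOf p (M * 2) (𝒪 := 𝒪) t))
    (fun s => by
      rw [RingHom.mem_ker, RingHom.mem_ker, evOf_two]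
      rfl) (polyMap_r2_surjective p) hsurj h

/-- the contrapositive: non-vanishing at level `2 M` gives non-vanishing of `H¹(Γ₀(M), Fun(X2, 𝒪))_𝔪` -/
theorem nontrivial_X2_of_two (χ : (ZMod (M * 2))ˣ →* G') (t : ℕ → ResidueField 𝒪)
    (h : Nontrivial (Mod0 (𝒪 := 𝒪) p χ t)) :
    Nontrivial ((sys2 p hM).F 𝒪 (FunTw 𝟙 X2 𝒪) (RingHom.ker (ev2 p (M := M) t))) := by
  by_contra hcon
  rw [not_nontrivial_iff_subsingleton] at hcon
  haveI := subsingleton_two_of_X2 p hM χ t hcon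
  exact not_subsingleton (Mod0 (𝒪 := 𝒪) p χ t) inferInstance

end Fermat.Agent.S59lib.R7b
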